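import Fermat.Agent.LevinsonThird.MeanSquare
import Fermat.Agent.Levinson.Horizontal
import Mathlib.NumberTheory.LSeries.Dirichlet

/-!
# `G ψ` right of `re s = 3/2`

There `ψ` is `1 / ζ` up to `O (1 / log T)`, so `G ψ = 1 + O (1 / log T)`.
-/

set_option autoImplicit false

noncomputable section

namespace FA.LevinsonThird

open Complex Filter Set Finset
open FA.Levinson (lvFn lvD lvBase norm_lvD_sub_le norm_zeta_le_sixteen norm_deriv_zeta_le)
open scoped Real Topology ArithmeticFunction.Moebius LSeries.notation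

/-- `G` times the mollifier. -/
def levMollified (T : ℝ) (s : ℂ) : ℂ := lvFn s * levMoll T s

theorem differentiable_levMoll (T : ℝ) : Differentiable ℂ (levMoll T) := by
  unfold levMoll
  refine Differentiable.fun_sum fun h hh => Differentiable.const_mul ?_ _
  exact Differentiable.const_cpow (by fun_prop) (Or.inl (Nat.cast_ne_zero.2 (by
    rw [Finset.mem_Icc] at hh; omega)))

theorem norm_moll_cpow_le {T : ℝ} (hT : 1 < T) {h : ℕ} (hh : 1 ≤ h) (s : ℂ) :
    ‖(h : ℂ) ^ (-(s + (levR : ℂ) / (Real.log T : ℂ)))‖ ≤ (h : ℝ) ^ (-s.re) := by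
  rw [Complex.norm_natCast_cpow_of_pos hh]
  refine Real.rpow_le_rpow_of_exponent_le (Nat.one_le_cast.2 hh) ?_
  have : 0 ≤ levR / Real.log T := div_nonneg (by rw [levR]; norm_num) (Real.log_nonneg hT.le)
  simp only [neg_re, add_re, ← ofReal_div, ofReal_re]
  linarith

theorem norm_levMoll_le {T : ℝ} (hT : 1 < T) {s : ℂ} (hs : 0 ≤ s.re) : ‖levMoll T s‖ ≤ T := by
  have hℓ : 0 < levEll T := mul_pos (by rw [levTheta]; norm_num) (Real.log_pos hT)
  refine (norm_sum_le _ _).trans ((sum_le_card_nsmul _ _ 1 fun h hh => ?_).trans ?_)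
  · rw [norm_mul]
    refine mul_le_one₀ (norm_levCoef_le hℓ hh) (norm_nonneg _) ?_
    exact (norm_moll_cpow_le hT (Finset.mem_Icc.1 hh).1 s).trans
      (Real.rpow_le_one_of_one_le_of_nonpos (Nat.one_le_cast.2 (Finset.mem_Icc.1 hh).1)
        (by linarith))
  · simp only [Nat.card_Icc, add_tsub_cancel_right, nsmul_eq_mul, mul_one]
    exact (levLen_bounds hT.le).2.2

theorem summable_log_rpow : Summable fun n : ℕ => Real.log n * (n : ℝ) ^ (-(3 / 2) : ℝ) := by
  refine Summable.of_nonneg_of_le (fun n => mul_nonneg (Real.log_natCast_nonneg n) (by positivity))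
    (fun n => ?_) ((Real.summable_nat_rpow.2 (show (-(5 / 4) : ℝ) < -1 by norm_num)).mul_left 4)
  rcases Nat.eq_zero_or_pos n with rfl | hn
  · norm_num [Real.zero_rpow]
  · refine (mul_le_mul_of_nonneg_right (Real.log_le_rpow_div (Nat.cast_nonneg n)
      (show (0 : ℝ) < 1 / 4 by norm_num)) (by positivity)).trans (le_of_eq ?_)
    rw [div_mul_eq_mul_div, ← Real.rpow_add (Nat.cast_pos.2 hn)]
    norm_num
    ring

/-- The coefficient of the mollifier on the absolute side. -/
def mollFactor (T : ℝ) (n : ℕ) : ℝ :=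
  if n ≤ levLen T then (1 - Real.log n / levEll T) * Real.exp (-(levR / Real.log T) * Real.log n)
  else 0

theorem abs_mollFactor_sub_le {T : ℝ} (hT : 1 < T) {n : ℕ} (hn : 1 ≤ n) :
    |mollFactor T n - 1| ≤ 4 * Real.log n / Real.log T := by
  have hL := Real.log_pos hT
  have hθ : (levTheta : ℝ) = 49 / 100 := rfl
  have hl := Real.log_natCast_nonneg n
  rw [mollFactor]
  split_ifs with h
  · have hle : Real.log n ≤ levEll T := (Real.log_le_iff_le_exp (Nat.cast_pos.2 hn)).2
      ((Nat.cast_le.2 h).trans (Nat.floor_le (Real.exp_pos _).le))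
    obtain ⟨u, hu⟩ : ∃ u, u = Real.log n / levEll T := ⟨_, rfl⟩
    obtain ⟨x, hx⟩ : ∃ x, x = levR / Real.log T * Real.log n := ⟨_, rfl⟩
    have hℓ : 0 < levEll T := mul_pos (by rw [hθ]; norm_num) hL
    have hu0 : 0 ≤ u := hu ▸ div_nonneg hl hℓ.le
    have hu1 : u ≤ 1 := hu ▸ (div_le_one hℓ).2 hle
    have hx0 : 0 ≤ x := hx ▸ mul_nonneg (div_nonneg (by rw [levR]; norm_num) hL.le) hl
    have he1 : Real.exp (-x) ≤ 1 := Real.exp_le_one_iff.2 (by linarith)
    have he2 : 1 - x ≤ Real.exp (-x) := by linarith [Real.add_one_le_exp (-x)]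
    have he3 : 0 ≤ Real.exp (-x) := (Real.exp_pos _).le
    rw [← hu, neg_mul, ← hx, abs_sub_comm, abs_of_nonneg (by nlinarith)]
    have h4 : u + x ≤ 4 * Real.log n / Real.log T := by
      rw [hu, hx, levEll, hθ, levR, le_div_iff₀ hL, add_mul,
        show Real.log n / (49 / 100 * Real.log T) * Real.log T = 100 / 49 * Real.log n by
          field_simp,
        show 13 / 10 / Real.log T * Real.log n * Real.log T = 13 / 10 * Real.log n by field_simp]
      linarith
    nlinarith
  · rw [zero_sub, abs_neg, abs_one, le_div_iff₀ hL, one_mul]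
    have h1 : Real.exp (levEll T) < n := Nat.lt_of_floor_lt (not_le.1 h)
    have h2 := (Real.lt_log_iff_exp_lt (Nat.cast_pos.2 hn)).2 h1
    rw [levEll, hθ] at h2
    linarith

theorem levMoll_sub_inv {T : ℝ} (hT : 1 < T) {s : ℂ} (hs : 3 / 2 ≤ s.re) :
    ‖levMoll T s - L ↗μ s‖ ≤
      4 / Real.log T * ∑' n : ℕ, Real.log n * (n : ℝ) ^ (-(3 / 2) : ℝ) := by
  have hL := Real.log_pos hT
  obtain ⟨g, hg⟩ : ∃ g : ℕ → ℂ,
      g = fun n => (mollFactor T n : ℂ) * LSeries.term ↗μ s n := ⟨_, rfl⟩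
  have hfin : HasSum g (levMoll T s) := by
    have e : levMoll T s = ∑ n ∈ Finset.Icc 1 (levLen T), g n := by
      refine Finset.sum_congr rfl fun n hn => ?_
      rw [Finset.mem_Icc] at hn
      simp only [hg, mollFactor]
      rw [if_pos hn.2, LSeries.term_of_ne_zero (by omega), levCoef,
        FA.SelbergCLT.natCast_cpow_eq_exp hn.1, FA.SelbergCLT.natCast_cpow_eq_exp hn.1,
        ofReal_mul, Complex.ofReal_exp, ofReal_mul, ofReal_neg, ofReal_div]
      rw [show (Real.log n : ℂ) * -(s + (levR : ℂ) / (Real.log T : ℂ)) =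
        -((levR : ℂ) / (Real.log T : ℂ)) * (Real.log n : ℂ) + -((Real.log n : ℂ) * s) by ring,
        Complex.exp_add, Complex.exp_neg ((Real.log n : ℂ) * s)]
      ring
    rw [e]
    refine hasSum_sum_of_ne_finset_zero fun n hn => ?_
    rcases Nat.eq_zero_or_pos n with rfl | h0
    · simp [hg, LSeries.term_zero]
    · have : ¬n ≤ levLen T := fun h => hn (Finset.mem_Icc.2 ⟨h0, h⟩)
      simp [hg, mollFactor, this]
  have hμ : HasSum (LSeries.term ↗μ s) (L ↗μ s) :=
    (ArithmeticFunction.LSeriesSummable_moebius_iff.2 (by linarith)).hasSum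
  have hd := hfin.sub hμ
  rw [← hd.tsum_eq]
  refine tsum_of_norm_bounded (summable_log_rpow.hasSum.mul_left (4 / Real.log T)) fun n => ?_
  rcases Nat.eq_zero_or_pos n with rfl | h0
  · simp [hg, LSeries.term_zero]
  rw [hg]
  simp only []
  rw [← sub_one_mul, norm_mul, ← ofReal_one, ← ofReal_sub, Complex.norm_real, Real.norm_eq_abs,
    ← mul_assoc]
  refine mul_le_mul ((abs_mollFactor_sub_le hT h0).trans (le_of_eq (by ring))) ?_ (norm_nonneg _)
    (mul_nonneg (div_nonneg (by norm_num) hL.le) (Real.log_natCast_nonneg n))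
  rw [LSeries.term_of_ne_zero (by omega), norm_div, Complex.norm_natCast_cpow_of_pos h0,
    Real.rpow_neg (Nat.cast_nonneg n)]
  refine (div_le_div_of_nonneg_right ?_ (by positivity)).trans ?_ (b := 1 / (n : ℝ) ^ s.re)
  · rw [Complex.norm_intCast]
    exact_mod_cast ArithmeticFunction.abs_moebius_le_one
  · rw [one_div]
    exact inv_anti₀ (by positivity)
      (Real.rpow_le_rpow_of_exponent_le (Nat.one_le_cast.2 h0) hs)

theorem half_log_le_norm_lvD {T : ℝ} (hT : 100 ≤ Real.log T) (hT1 : 2 ≤ T) {s : ℂ}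
    (h1 : 0 ≤ s.re) (h2 : s.re ≤ 3) (h3 : lvBase ≤ s.im) (h4 : T - 1 ≤ s.im) :
    Real.log T / 2 ≤ ‖lvD s‖ := by
  have hb := FA.Levinson.le_lvBase
  have ht0 : 0 < s.im := by linarith
  have h := norm_lvD_sub_le h1 h2 (show 4 ≤ s.im by linarith)
  have h' := norm_le_norm_add_norm_sub' ((Real.log (s.im / (2 * π)) : ℝ) : ℂ) (lvD s)
  rw [norm_sub_rev, Complex.norm_real] at h'
  have hlog : Real.log T - 3 ≤ Real.log (s.im / (2 * π)) := by
    have l1 : Real.log (T / 2) ≤ Real.log s.im := Real.log_le_log (by linarith) (by linarith)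
    rw [Real.log_div (by linarith) two_ne_zero] at l1
    have l4 : Real.log (2 * π) ≤ 2 := by
      rw [Real.log_le_iff_le_exp (by positivity), show (2 : ℝ) = 1 + 1 by norm_num, Real.exp_add]
      nlinarith [Real.exp_one_gt_d9, Real.pi_lt_d2]
    rw [Real.log_div ht0.ne' (by positivity)]
    linarith [Real.log_two_lt_d9]
  linarith [Real.le_norm_self (Real.log (s.im / (2 * π)))]

/-- **`G ψ` is close to `1`.** -/
theorem exists_levMollified_near_one : ∃ C, 0 ≤ C ∧ ∀ᶠ T : ℝ in atTop, ∀ s : ℂ,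
    3 / 2 ≤ s.re → s.re ≤ 3 → T - 1 ≤ s.im →
    ‖levMollified T s - 1‖ ≤ C / Real.log T := by
  obtain ⟨S, hS⟩ : ∃ S, S = ∑' n : ℕ, Real.log n * (n : ℝ) ^ (-(3 / 2) : ℝ) := ⟨_, rfl⟩
  obtain ⟨Z, hZ⟩ : ∃ Z, Z = ∑' n : ℕ, (n : ℝ) ^ (-(3 / 2) : ℝ) := ⟨_, rfl⟩
  have hS0 : 0 ≤ S := hS ▸ tsum_nonneg fun n =>
    mul_nonneg (Real.log_natCast_nonneg n) (by positivity)
  have hZ0 : 0 ≤ Z := hZ ▸ tsum_nonneg fun n => by positivity
  refine ⟨16 * (4 * S) + 128 * Z, by positivity, ?_⟩
  filter_upwards [eventually_ge_atTop (lvBase + 1),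
    Real.tendsto_log_atTop.eventually_ge_atTop 100] with T hT hL s h1 h2 h3
  have hb := FA.Levinson.le_lvBase
  have hT1 : 1 < T := by linarith
  have hinv : riemannZeta s * L ↗μ s = 1 := by
    rw [← ArithmeticFunction.LSeries_zeta_eq_riemannZeta (by linarith)]
    exact ArithmeticFunction.LSeries_zeta_mul_Lseries_moebius (by linarith)
  have e : levMollified T s - 1 = riemannZeta s * (levMoll T s - L ↗μ s) +
      deriv riemannZeta s / lvD s * levMoll T s := by
    rw [levMollified, lvFn, ← hinv]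
    ring
  have hψ : ‖levMoll T s‖ ≤ Z := by
    have hℓ : 0 < levEll T := mul_pos (by rw [levTheta]; norm_num) (Real.log_pos hT1)
    refine (norm_sum_le _ _).trans (le_trans (sum_le_sum fun h hh => ?_)
      (hZ ▸ (Real.summable_nat_rpow.2 (by norm_num)).sum_le_tsum _ fun n _ => by positivity))
    rw [norm_mul, ← one_mul ((h : ℝ) ^ (-(3 / 2) : ℝ))]
    refine mul_le_mul (norm_levCoef_le hℓ hh)
        ((norm_moll_cpow_le hT1 (Finset.mem_Icc.1 hh).1 s).trans
      (Real.rpow_le_rpow_of_exponent_le (Nat.one_le_cast.2 (Finset.mem_Icc.1 hh).1) (by linarith)))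
        (norm_nonneg _) zero_le_one
  have hd : ‖deriv riemannZeta s‖ ≤ 16 / (1 / 4) := by
    refine norm_deriv_zeta_le (by norm_num) (by rw [abs_of_nonneg (by linarith)]; linarith)
      fun z hz => norm_zeta_le_sixteen ?_
    rw [mem_sphere_iff_norm] at hz
    have := (abs_re_le_norm _).trans hz.le
    rw [sub_re] at this
    linarith [(abs_le.1 this).1]
  have hD := half_log_le_norm_lvD hL (by linarith) (s := s) (by linarith) h2 (by linarith) h3
  rw [e]
  refine (norm_add_le _ _).trans ?_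
  rw [norm_mul, norm_mul, norm_div]
  refine (add_le_add (mul_le_mul (norm_zeta_le_sixteen (by linarith)) (levMoll_sub_inv hT1 h1)
    (norm_nonneg _) (by norm_num)) (mul_le_mul (div_le_div₀ (by norm_num) hd (by linarith) hD) hψ
      (norm_nonneg _) (div_nonneg (by norm_num) (by linarith)))).trans (le_of_eq ?_)
  rw [← hS]
  field_simp
  ring

end FA.LevinsonThird

end
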