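import Fermat.Agent.LevinsonThird.Littlewood
import Fermat.Agent.LevinsonThird.RightEdge

/-!
# The edges of the rectangle for `G ψ`

Jensen's inequality bounds the zeros in a unit window and the weighted argument on a horizontal
edge by `O (log T)`; near `re s = 2` the function is close to `1`.
-/

set_option autoImplicit false

noncomputable section

namespace FA.LevinsonThird

open Complex Filter MeasureTheory Set Metric
open FA.Levinson (lvFn lvBase lvDomain isOpen_lvDomain convex_lvDomain differentiableOn_lvFn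
  norm_lvFn_le le_lvBase)
open scoped Real Topology

theorem differentiableOn_levMollified (T : ℝ) : DifferentiableOn ℂ (levMollified T) lvDomain :=
  differentiableOn_lvFn.mul (differentiable_levMoll T).differentiableOn

theorem eventually_levMollified_half : ∀ᶠ T : ℝ in atTop, ∀ s : ℂ,
    3 / 2 ≤ s.re → s.re ≤ 3 → T - 1 ≤ s.im → ‖levMollified T s - 1‖ ≤ 1 / 2 := by
  obtain ⟨C, hC, h⟩ := exists_levMollified_near_one
  filter_upwards [h, Real.tendsto_log_atTop.eventually_ge_atTop (2 * C + 1)]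
    with T hT hL s h1 h2 h3
  refine (hT s h1 h2 h3).trans ?_
  rw [div_le_iff₀ (by linarith)]
  linarith

theorem mem_lvDomain {s : ℂ} (h1 : 0 < s.re) (h2 : s.re < 3) (h3 : lvBase < s.im) :
    s ∈ lvDomain :=
  ⟨⟨h1, h2⟩, h3⟩

theorem eventually_order_ne_top : ∀ᶠ T : ℝ in atTop, ∀ s ∈ lvDomain,
    analyticOrderAt (levMollified T) s ≠ ⊤ := by
  filter_upwards [eventually_levMollified_half, eventually_gt_atTop lvBase] with T hT hb s hs h
  have h0 := ((differentiableOn_levMollified T).analyticOnNhd isOpen_lvDomain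
    ).eqOn_zero_of_preconnected_of_eventuallyEq_zero convex_lvDomain.isPreconnected hs
      (analyticOrderAt_eq_top.1 h)
  obtain ⟨p, hp⟩ : ∃ p : ℂ, p = ((3 / 2 : ℝ) : ℂ) + T * I := ⟨_, rfl⟩
  have hre : p.re = 3 / 2 := by simp [hp]
  have him : p.im = T := by simp [hp]
  have := hT p (by rw [hre]) (by rw [hre]; norm_num) (by rw [him]; linarith)
  rw [h0 (mem_lvDomain (by rw [hre]; norm_num) (by rw [hre]; norm_num) (by rwa [him]))] at this
  norm_num at this

theorem analyticOrderNatAt_lvFn_le {T : ℝ} {s : ℂ} (hs : s ∈ lvDomain)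
    (h : analyticOrderAt (levMollified T) s ≠ ⊤) :
    analyticOrderNatAt lvFn s ≤ analyticOrderNatAt (levMollified T) s := by
  have ha := differentiableOn_lvFn.analyticAt (isOpen_lvDomain.mem_nhds hs)
  have hb := (differentiable_levMoll T).analyticAt s
  rw [show levMollified T = lvFn * levMoll T from rfl, analyticOrderAt_mul ha hb] at h
  obtain ⟨h1, h2⟩ := WithTop.add_ne_top.1 h
  rw [show levMollified T = lvFn * levMoll T from rfl, analyticOrderNatAt_mul ha hb h1 h2]
  exact Nat.le_add_right _ _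

theorem sum_count_le_card (S : Finset ℂ) (Z : Multiset ℂ) :
    ∑ a ∈ S, Z.count a ≤ Multiset.card Z := by
  classical
  exact (Finset.sum_le_sum_of_subset Finset.subset_union_left).trans
    (Multiset.sum_count_eq_card (s := S ∪ Z.toFinset) fun a ha =>
      Finset.mem_union_right _ (Multiset.mem_toFinset.2 ha)).le

/-- The argument of one root along a horizontal edge, weighted. -/
theorem weighted_root_le {σ₁ : ℝ} (h1 : 0 ≤ σ₁) (h2 : σ₁ ≤ 2) {t : ℝ} {ρ : ℂ}
    (hne : ∀ u ∈ Icc σ₁ 2, (u : ℂ) + t * I ≠ ρ) :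
    IntervalIntegrable (fun u : ℝ => (u - σ₁) * (((u : ℂ) + t * I - ρ)⁻¹).im) volume σ₁ 2 ∧
      |∫ u in σ₁..2, (u - σ₁) * (((u : ℂ) + t * I - ρ)⁻¹).im| ≤ 2 * π := by
  have hc : ContinuousOn (fun u : ℝ => (((u : ℂ) + t * I - ρ)⁻¹).im) (uIcc σ₁ 2) :=
    Complex.continuous_im.comp_continuousOn (ContinuousOn.inv₀ (by fun_prop) fun u hu => by
      rw [uIcc_of_le h2] at hu
      exact sub_ne_zero.2 (hne u hu))
  have hi : IntervalIntegrable (fun u : ℝ => (u - σ₁) * (((u : ℂ) + t * I - ρ)⁻¹).im)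
      volume σ₁ 2 :=
    ((Continuous.continuousOn (by fun_prop)).mul hc).intervalIntegrable
  refine ⟨hi, ?_⟩
  obtain ⟨y, hy⟩ : ∃ y, y = t - ρ.im := ⟨_, rfl⟩
  have him : ∀ u : ℝ, (((u : ℂ) + t * I - ρ)⁻¹).im = -y / ((u - ρ.re) ^ 2 + y ^ 2) := fun u => by
    rw [Complex.inv_im, hy, normSq_apply]
    simp only [sub_re, sub_im, add_re, add_im, mul_re, mul_im, ofReal_re, ofReal_im, I_re, I_im,
      mul_zero, mul_one, sub_zero, zero_add, add_zero]
    ring
  simp only [him] at hc ⊢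
  rcases eq_or_ne y 0 with h0 | h0
  · simp only [h0, neg_zero, zero_div, mul_zero, intervalIntegral.integral_zero, abs_zero]
    positivity
  have hy0 : 0 < |y| := abs_pos.2 h0
  have hd : ∀ u : ℝ, HasDerivAt (fun v : ℝ => 2 * Real.arctan ((v - ρ.re) / |y|))
      (2 * (|y| / ((u - ρ.re) ^ 2 + y ^ 2))) u := fun u => by
    refine ((((hasDerivAt_id' u).sub_const ρ.re).div_const |y|).arctan.const_mul 2).congr_deriv ?_
    have : 0 < (u - ρ.re) ^ 2 + y ^ 2 := by positivity
    rw [← sq_abs y] at this ⊢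
    field_simp
    ring
  have hb := intervalIntegral.abs_integral_le_integral_abs
    (f := fun u : ℝ => (u - σ₁) * (-y / ((u - ρ.re) ^ 2 + y ^ 2))) (μ := volume) h2
  have hden : Continuous fun u : ℝ => 2 * (|y| / ((u - ρ.re) ^ 2 + y ^ 2)) :=
    continuous_const.mul (continuous_const.div (by fun_prop) fun u => by positivity)
  refine hb.trans ((intervalIntegral.integral_mono_on h2
    ((Continuous.continuousOn (by fun_prop)).mul hc).intervalIntegrable.abs
    (hden.intervalIntegrable σ₁ 2) fun u hu => ?_).trans ?_)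
  · simp only [Pi.mul_apply]
    rw [abs_mul, abs_div, abs_neg,
      abs_of_nonneg (show 0 ≤ (u - ρ.re) ^ 2 + y ^ 2 by positivity)]
    exact mul_le_mul_of_nonneg_right
      (by rw [abs_of_nonneg (by linarith [hu.1])]; linarith [hu.2]) (by positivity)
  · rw [intervalIntegral.integral_eq_sub_of_hasDerivAt (fun u _ => hd u)
      (hden.intervalIntegrable σ₁ 2)]
    linarith [Real.arctan_lt_pi_div_two ((2 - ρ.re) / |y|),
      Real.neg_pi_div_two_lt_arctan ((σ₁ - ρ.re) / |y|)]

theorem weighted_roots_le {σ₁ : ℝ} (h1 : 0 ≤ σ₁) (h2 : σ₁ ≤ 2) {t : ℝ} (Z : Multiset ℂ)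
    (hne : ∀ ρ ∈ Z, ∀ u ∈ Icc σ₁ 2, (u : ℂ) + t * I ≠ ρ) :
    IntervalIntegrable (fun u : ℝ =>
        (u - σ₁) * ((Z.map fun ρ => ((u : ℂ) + t * I - ρ)⁻¹).sum).im) volume σ₁ 2 ∧
      |∫ u in σ₁..2, (u - σ₁) * ((Z.map fun ρ => ((u : ℂ) + t * I - ρ)⁻¹).sum).im| ≤
        2 * π * Multiset.card Z := by
  induction Z using Multiset.induction_on with
  | empty => simp
  | cons ρ Y ih =>
    obtain ⟨hi, hb⟩ := ih fun x hx => hne x (Multiset.mem_cons_of_mem hx)
    obtain ⟨hi1, hb1⟩ := weighted_root_le h1 h2 (hne ρ (Multiset.mem_cons_self ρ Y))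
    simp only [Multiset.map_cons, Multiset.sum_cons, Multiset.card_cons, add_im, mul_add]
    refine ⟨hi1.add hi, ?_⟩
    rw [intervalIntegral.integral_add hi1 hi]
    refine (abs_add_le _ _).trans ?_
    push_cast
    linarith

/-- **Windows and horizontal edges.** -/
theorem exists_mollified_local : ∃ K, 0 ≤ K ∧ ∀ᶠ T : ℝ in atTop, ∀ c ∈ Icc T (2 * T),
    (∀ F : Finset ℂ, (∀ ρ ∈ F, ρ.re ∈ Icc (1 / 2 : ℝ) 2 ∧ |ρ.im - c| ≤ 1 / 2) →
      ((∑ ρ ∈ F, analyticOrderNatAt (levMollified T) ρ : ℕ) : ℝ) ≤ K * Real.log T) ∧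
    ∀ σ₁ ∈ Icc (9 / 20 : ℝ) (1 / 2),
      (∀ u ∈ Icc σ₁ 2, levMollified T ((u : ℂ) + c * I) ≠ 0) →
      |∫ u in σ₁..2, (u - σ₁) * (deriv (levMollified T) ((u : ℂ) + c * I) /
        levMollified T ((u : ℂ) + c * I)).im| ≤ K * Real.log T := by
  obtain ⟨K, hK, hexp⟩ := FA.RiemannMangoldt.exists_logDeriv_expansion (r₁ := 23 / 20)
    (r := 6 / 5) (r₂ := 21 / 20) (by norm_num) (by norm_num) (by norm_num)
  refine ⟨(2 * π + 4) * (4 * K), by positivity, ?_⟩
  filter_upwards [eventually_levMollified_half, eventually_ge_atTop (lvBase + 3),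
    Real.tendsto_log_atTop.eventually_ge_atTop 1] with T hhalf hT hL c hc
  have hb := le_lvBase
  obtain ⟨G, hG⟩ : ∃ G, G = levMollified T := ⟨_, rfl⟩
  rw [← hG] at hhalf ⊢
  obtain ⟨s₀, hs₀⟩ : ∃ s₀ : ℂ, s₀ = ((3 / 2 : ℝ) : ℂ) + c * I := ⟨_, rfl⟩
  have hre : s₀.re = 3 / 2 := by simp [hs₀]
  have him : s₀.im = c := by simp [hs₀]
  obtain ⟨f, hf⟩ : ∃ f : ℂ → ℂ, f = fun z => G (s₀ + z) := ⟨_, rfl⟩
  have hbox : ∀ z : ℂ, ‖z‖ < 5 / 4 → s₀ + z ∈ lvDomain := fun z hz => by
    have a := abs_le.1 ((abs_re_le_norm z).trans hz.le)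
    have b := abs_le.1 ((abs_im_le_norm z).trans hz.le)
    exact mem_lvDomain (by rw [add_re, hre]; linarith) (by rw [add_re, hre]; linarith)
      (by rw [add_im, him]; linarith [hc.1])
  have hd : DifferentiableOn ℂ f (ball 0 (5 / 4)) := fun z hz => by
    rw [hf]
    exact (((hG ▸ differentiableOn_levMollified T).differentiableAt
      (isOpen_lvDomain.mem_nhds (hbox z (by simpa using hz)))).comp z
        (differentiableAt_id.const_add s₀)).differentiableWithinAt
  have hlow : 1 / 2 ≤ ‖f 0‖ := by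
    have h := hhalf s₀ (by rw [hre]) (by rw [hre]; norm_num) (by rw [him]; linarith [hc.1])
    have h' := norm_sub_norm_le (1 : ℂ) (G s₀)
    rw [norm_one, norm_sub_rev] at h'
    simp only [hf, add_zero]
    linarith
  obtain ⟨B, hB⟩ : ∃ B, B = 12 * (2 * T + 6) * T := ⟨_, rfl⟩
  have hB1 : 1 ≤ B := by rw [hB]; nlinarith
  have hsph : ∀ z ∈ sphere (0 : ℂ) (6 / 5), ‖f z‖ ≤ B * ‖f 0‖ := fun z hz => by
    rw [mem_sphere_zero_iff_norm] at hz
    have a := abs_le.1 ((abs_re_le_norm z).trans hz.le)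
    have b := abs_le.1 ((abs_im_le_norm z).trans hz.le)
    have h1 := norm_lvFn_le (z := s₀ + z) (by rw [add_re, hre]; linarith)
      (by rw [add_re, hre]; linarith) (by rw [add_im, him]; linarith [hc.1])
    have h2 := norm_levMoll_le (T := T) (s := s₀ + z) (by linarith)
      (by rw [add_re, hre]; linarith)
    rw [add_im, him] at h1
    calc ‖f z‖ ≤ 6 * (2 * T + 6) * T := by
          rw [hf, hG]
          simp only [levMollified, norm_mul]
          exact mul_le_mul (h1.trans (by linarith [hc.2])) h2 (norm_nonneg _) (by linarith)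
      _ = B * (1 / 2) := by rw [hB]; ring
      _ ≤ B * ‖f 0‖ := mul_le_mul_of_nonneg_left hlow (by linarith)
  obtain ⟨Z, hZ, hcard, hord, hlog⟩ := hexp (ball 0 (5 / 4)) f B isOpen_ball
    (closedBall_subset_ball (by norm_num)) hd
    (norm_pos_iff.1 (lt_of_lt_of_le (by norm_num) hlow)) hB1 hsph
  have hKB : K * (Real.log B + 1) ≤ 4 * K * Real.log T := by
    have hBT : Real.log B ≤ 3 * Real.log T := by
      rw [show (3 : ℝ) * Real.log T = Real.log (T ^ 3) by rw [Real.log_pow]; norm_num]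
      refine Real.log_le_log (by linarith) ?_
      rw [hB, pow_succ]
      exact mul_le_mul_of_nonneg_right (by nlinarith) (by linarith)
    exact (mul_le_mul_of_nonneg_left (show Real.log B + 1 ≤ 4 * Real.log T by linarith) hK).trans
      (le_of_eq (by ring))
  have hcardT : (Multiset.card Z : ℝ) ≤ 4 * K * Real.log T := hcard.trans hKB
  have hKL : 0 ≤ 4 * K * Real.log T := mul_nonneg (by positivity) (by linarith)
  have hsplit : (2 * π + 4) * (4 * K) * Real.log T =
      2 * π * (4 * K * Real.log T) + 4 * (4 * K * Real.log T) := by ring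
  refine ⟨fun F hF => ?_, fun σ₁ hσ hne => ?_⟩
  · have hpi : 0 ≤ 2 * π * (4 * K * Real.log T) := by positivity
    refine le_trans (Nat.cast_le.2 (le_trans (le_of_eq ?_)
      (sum_count_le_card (F.image fun ρ => ρ - s₀) Z))) (hcardT.trans (by rw [hsplit]; linarith))
    rw [Finset.sum_image fun a _ b _ h => sub_left_injective h]
    refine Finset.sum_congr rfl fun ρ hρ => ?_
    obtain ⟨h1, h2⟩ := hF ρ hρ
    have hmem : ρ - s₀ ∈ closedBall (0 : ℂ) (23 / 20) := by
      rw [mem_closedBall_zero_iff, ← abs_of_nonneg (show (0 : ℝ) ≤ 23 / 20 by norm_num),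
        ← abs_of_nonneg (norm_nonneg (ρ - s₀)), ← sq_le_sq, ← normSq_eq_norm_sq, normSq_apply,
        sub_re, sub_im, hre, him]
      have := abs_le.1 h2
      nlinarith [h1.1, h1.2]
    rw [← hord _ hmem, hf, analyticOrderNatAt, analyticOrderNatAt,
      show (fun z => G (s₀ + z)) = G ∘ fun z => s₀ + z from rfl,
      analyticOrderAt_comp_of_deriv_ne_zero (g := fun z => s₀ + z) (z₀ := ρ - s₀) (f := G)
        (analyticAt_const.add analyticAt_id)
        (by rw [deriv_const_add_id]; exact one_ne_zero), add_sub_cancel]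
  obtain ⟨Z', hZ'⟩ : ∃ Z', Z' = Z.map fun ρ => ρ + s₀ := ⟨_, rfl⟩
  have hseg : ∀ u ∈ Icc σ₁ 2, ‖((u : ℂ) + c * I) - s₀‖ ≤ 21 / 20 := fun u hu => by
    rw [hs₀, show (u : ℂ) + c * I - (((3 / 2 : ℝ) : ℂ) + c * I) = ((u - 3 / 2 : ℝ) : ℂ) by
      push_cast; ring, Complex.norm_real, Real.norm_eq_abs, abs_le]
    constructor <;> linarith [hu.1, hu.2, hσ.1]
  have hroot : ∀ ρ ∈ Z', ∀ u ∈ Icc σ₁ 2, (u : ℂ) + c * I ≠ ρ := by
    intro ρ hρ u hu h
    rw [hZ'] at hρ
    obtain ⟨x, hx, rfl⟩ := Multiset.mem_map.1 hρ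
    have hx' : 0 < Z.count x := Multiset.count_pos.2 hx
    rw [← hord x (hZ x hx)] at hx'
    have hz : f x = 0 := apply_eq_zero_of_analyticOrderNatAt_ne_zero hx'.ne'
    refine hne u hu ?_
    rw [h, add_comm]
    simpa [hf] using hz
  obtain ⟨hRi, hRb⟩ := weighted_roots_le (by linarith [hσ.1]) (by linarith [hσ.2]) Z' hroot
  have hrem : ∀ u ∈ Icc σ₁ 2, |(deriv G ((u : ℂ) + c * I) / G ((u : ℂ) + c * I)).im -
      ((Z'.map fun ρ => ((u : ℂ) + c * I - ρ)⁻¹).sum).im| ≤ 4 * K * Real.log T := fun u hu => by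
    have h1 := hlog ((u : ℂ) + c * I - s₀) (mem_closedBall_zero_iff.2 (hseg u hu))
      (by simpa [hf] using hne u hu)
    simp only [hf, deriv_comp_const_add, add_sub_cancel] at h1
    rw [← sub_im]
    refine (abs_im_le_norm _).trans (le_trans (le_of_eq ?_) (h1.trans hKB))
    rw [hZ', Multiset.map_map]
    congr 3
    refine Multiset.map_congr rfl fun ρ _ => ?_
    simp only [Function.comp_apply]
    congr 1
    ring
  have hGc : ContinuousOn (fun u : ℝ => (u - σ₁) *
      (deriv G ((u : ℂ) + c * I) / G ((u : ℂ) + c * I)).im) (uIcc σ₁ 2) := fun u hu => by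
    rw [uIcc_of_le (by linarith [hσ.2])] at hu
    have hm : (u : ℂ) + c * I ∈ lvDomain := mem_lvDomain (by simp; linarith [hu.1, hσ.1])
      (by simp; linarith [hu.2]) (by simp; linarith [hc.1])
    exact ((continuousAt_id.sub continuousAt_const).mul (Complex.continuous_im.continuousAt.comp'
      ((continuousAt_logDeriv isOpen_lvDomain (hG ▸ differentiableOn_levMollified T) hm
        (hne u hu)).comp' (f := fun v : ℝ => (v : ℂ) + c * I) (by fun_prop)))
      ).continuousWithinAt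
  have hdiff : |(∫ u in σ₁..2, ((u - σ₁) *
      (deriv G ((u : ℂ) + c * I) / G ((u : ℂ) + c * I)).im -
      (u - σ₁) * ((Z'.map fun ρ => ((u : ℂ) + c * I - ρ)⁻¹).sum).im))| ≤
      4 * (4 * K * Real.log T) := by
    have h := intervalIntegral.norm_integral_le_of_norm_le_const (a := σ₁) (b := 2)
      (C := 2 * (4 * K * Real.log T)) (f := fun u : ℝ => (u - σ₁) *
        (deriv G ((u : ℂ) + c * I) / G ((u : ℂ) + c * I)).im -
        (u - σ₁) * ((Z'.map fun ρ => ((u : ℂ) + c * I - ρ)⁻¹).sum).im) fun u hu => by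
      rw [uIoc_of_le (by linarith [hσ.2])] at hu
      rw [← mul_sub, Real.norm_eq_abs, abs_mul]
      exact mul_le_mul (by rw [abs_of_nonneg (by linarith [hu.1])]; linarith [hu.2, hσ.1])
        (hrem u ⟨hu.1.le, hu.2⟩) (abs_nonneg _) zero_le_two
    refine ((Real.norm_eq_abs _).symm.trans_le h).trans ?_
    rw [abs_of_nonneg (by linarith [hσ.2])]
    nlinarith [hσ.1]
  rw [intervalIntegral.integral_sub hGc.intervalIntegrable hRi] at hdiff
  have h2 := mul_le_mul_of_nonneg_left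
    (show (Multiset.card Z' : ℝ) ≤ 4 * K * Real.log T by rwa [hZ', Multiset.card_map])
    (show 0 ≤ 2 * π by positivity)
  rw [abs_le] at hRb hdiff ⊢
  rw [hsplit]
  constructor <;> linarith

/-- The change of the argument along an edge where the real part is positive. -/
theorem abs_arg_edge_le {U : Set ℂ} {f : ℂ → ℂ} (hU : IsOpen U) (hf : DifferentiableOn ℂ f U)
    {σ a b : ℝ} (hmem : ∀ v ∈ uIcc a b, (σ : ℂ) + v * I ∈ U ∧ 0 < (f ((σ : ℂ) + v * I)).re) :
    |∫ v in a..b, (deriv f ((σ : ℂ) + v * I) / f ((σ : ℂ) + v * I)).re| ≤ 2 * π := by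
  have hne : ∀ v ∈ uIcc a b, f ((σ : ℂ) + v * I) ≠ 0 := fun v hv h0 => by
    have := (hmem v hv).2
    rw [h0, zero_re] at this
    exact lt_irrefl _ this
  have hd : ∀ v ∈ uIcc a b, HasDerivAt (fun u : ℝ => (Complex.log (f ((σ : ℂ) + u * I))).im)
      (deriv f ((σ : ℂ) + v * I) / f ((σ : ℂ) + v * I)).re v := fun v hv => by
    obtain ⟨h1, h2⟩ := hmem v hv
    have h3 := ((hf.differentiableAt (hU.mem_nhds h1)).hasDerivAt.clog (Or.inl h2)).comp v
      (((hasDerivAt_id' (v : ℂ)).mul_const I).const_add (σ : ℂ)).comp_ofReal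
    refine (Complex.imCLM.hasFDerivAt.comp_hasDerivAt v h3).congr_deriv ?_
    simp
  have hc : ContinuousOn
      (fun v : ℝ => (deriv f ((σ : ℂ) + v * I) / f ((σ : ℂ) + v * I)).re) (uIcc a b) :=
    fun v hv => (Complex.continuous_re.continuousAt.comp'
      ((continuousAt_logDeriv hU hf (hmem v hv).1 (hne v hv)).comp'
        (f := fun u : ℝ => (σ : ℂ) + u * I) (by fun_prop))).continuousWithinAt
  rw [intervalIntegral.integral_eq_sub_of_hasDerivAt hd hc.intervalIntegrable, Complex.log_im,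
    Complex.log_im]
  exact FA.RiemannMangoldt.abs_arg_sub_le _ _

end FA.LevinsonThird

end
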