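import Fermat.Agent.Levinson.Factor
import Fermat.Agent.ExplicitFormula.Residue

/-!
# Littlewood's lemma

`2π ∑ (β - σ₁)` over the zeros of `f` in a rectangle `[σ₁, σ₂] × [y₁, y₂]` with clean edges is
`∫ log |f|` on the left edge minus that on the right edge, plus the changes of the argument
weighted by the distance from the left edge.
-/

set_option autoImplicit false

noncomputable section

namespace FA.LevinsonThird

open Complex Filter MeasureTheory Set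
open FA.RiemannMangoldt (rootProd rootProd_ne_zero hasDerivAt_rootProd)
open FA.ExplicitFormula (boxInt boxEdges boxInt_congr boxInt_add boxInt_eq_zero boxInt_residue)
open scoped Real Interval Topology

theorem hasDerivAt_log_norm {F : ℝ → ℂ} {d : ℂ} {v : ℝ} (hF : HasDerivAt F d v) (h0 : F v ≠ 0) :
    HasDerivAt (fun u => Real.log ‖F u‖) (d / F v).re v := by
  have hr : HasDerivAt (fun u => (F u).re) d.re v :=
    Complex.reCLM.hasFDerivAt.comp_hasDerivAt v hF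
  have hi : HasDerivAt (fun u => (F u).im) d.im v :=
    Complex.imCLM.hasFDerivAt.comp_hasDerivAt v hF
  have hs : HasDerivAt (fun u => Complex.normSq (F u))
      (d.re * (F v).re + (F v).re * d.re + (d.im * (F v).im + (F v).im * d.im)) v := by
    simp only [Complex.normSq_apply]
    exact (hr.mul hr).add (hi.mul hi)
  have he : (fun u => Real.log ‖F u‖) = fun u => Real.log (Complex.normSq (F u)) / 2 := by
    funext u
    rw [Complex.norm_def, Real.log_sqrt (Complex.normSq_nonneg _)]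
  rw [he]
  refine ((hs.log (mt Complex.normSq_eq_zero.1 h0)).div_const 2).congr_deriv ?_
  rw [Complex.div_re]
  ring

theorem boxInt_sum_poles {Φ : ℂ → ℂ} (hΦ : Differentiable ℂ Φ) {a b T : ℝ} (hT : 0 ≤ T)
    (W : Multiset ℂ) (hW : ∀ w ∈ W, a < w.re ∧ w.re < b ∧ |w.im| < T) :
    (∀ s ∈ boxEdges a b T, ContinuousAt (fun s => (W.map fun w => Φ s / (s - w)).sum) s) ∧
      boxInt (fun s => (W.map fun w => Φ s / (s - w)).sum) a b T =
        2 * π * I * (W.map Φ).sum := by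
  induction W using Multiset.induction_on with
  | empty =>
    refine ⟨fun s _ => by simpa using continuousAt_const, ?_⟩
    simp [boxInt]
  | cons w V ih =>
    obtain ⟨hc, he⟩ := ih fun x hx => hW x (Multiset.mem_cons_of_mem hx)
    obtain ⟨h1, h2, h3⟩ := hW w (Multiset.mem_cons_self w V)
    have hne : ∀ s ∈ boxEdges a b T, s - w ≠ 0 := fun s hs =>
      sub_ne_zero.2 (FA.ExplicitFormula.interior_not_edge h1 h2 h3.ne hT hs)
    have hc1 : ∀ s ∈ boxEdges a b T, ContinuousAt (fun s => Φ s / (s - w)) s := fun s hs =>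
      hΦ.continuous.continuousAt.div (continuousAt_id.sub continuousAt_const) (hne s hs)
    simp only [Multiset.map_cons, Multiset.sum_cons]
    refine ⟨fun s hs => (hc1 s hs).add (hc s hs), ?_⟩
    rw [boxInt_add hc1 hc, he, boxInt_residue isOpen_univ hΦ.differentiableOn
      (fun _ _ _ => mem_univ _) hT h1 h2 h3.ne, if_pos h3]
    ring

theorem integral_re_im {g : ℝ → ℂ} {a b : ℝ} (hg : IntervalIntegrable g volume a b) :
    (∫ u in a..b, g u).re = ∫ u in a..b, (g u).re ∧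
      (∫ u in a..b, g u).im = ∫ u in a..b, (g u).im :=
  ⟨(Complex.reCLM.intervalIntegral_comp_comm hg).symm,
    (Complex.imCLM.intervalIntegral_comp_comm hg).symm⟩

variable {U : Set ℂ} {f : ℂ → ℂ}

theorem continuousAt_logDeriv (hU : IsOpen U) (hf : DifferentiableOn ℂ f U) {s : ℂ} (hs : s ∈ U)
    (h0 : f s ≠ 0) : ContinuousAt (fun z => deriv f z / f z) s :=
  (hf.analyticAt (hU.mem_nhds hs)).deriv.continuousAt.div
    (hf.analyticAt (hU.mem_nhds hs)).continuousAt h0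

theorem re_logDeriv_integral (hU : IsOpen U) (hf : DifferentiableOn ℂ f U) {p : ℝ → ℂ} {d : ℂ}
    (hp : ∀ v, HasDerivAt p d v) {a b : ℝ} (hmem : ∀ v ∈ uIcc a b, p v ∈ U ∧ f (p v) ≠ 0) :
    ∫ v in a..b, (d * (deriv f (p v) / f (p v))).re =
      Real.log ‖f (p b)‖ - Real.log ‖f (p a)‖ := by
  have hpc : Continuous p := continuous_iff_continuousAt.2 fun v => (hp v).continuousAt
  refine intervalIntegral.integral_eq_sub_of_hasDerivAt (f := fun v => Real.log ‖f (p v)‖)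
    (fun v hv => ?_) ?_
  · obtain ⟨h1, h2⟩ := hmem v hv
    refine (hasDerivAt_log_norm ((hf.differentiableAt (hU.mem_nhds h1)).hasDerivAt.comp v (hp v))
      h2).congr_deriv ?_
    congr 1
    simp only [Function.comp_apply]
    ring
  · refine ContinuousOn.intervalIntegrable fun v hv => ContinuousAt.continuousWithinAt ?_
    exact Complex.continuous_re.continuousAt.comp' (continuousAt_const.mul
      ((continuousAt_logDeriv hU hf (hmem v hv).1 (hmem v hv).2).comp' hpc.continuousAt))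

theorem vertical_parts (hU : IsOpen U) (hf : DifferentiableOn ℂ f U) (σ y₁ y₂ : ℝ)
    (hmem : ∀ v ∈ uIcc y₁ y₂, (σ : ℂ) + v * I ∈ U ∧ f ((σ : ℂ) + v * I) ≠ 0) :
    ∫ v in y₁..y₂, (v - y₁) * (deriv f ((σ : ℂ) + v * I) / f ((σ : ℂ) + v * I)).im =
      (∫ v in y₁..y₂, Real.log ‖f ((σ : ℂ) + v * I)‖) -
        (y₂ - y₁) * Real.log ‖f ((σ : ℂ) + y₂ * I)‖ := by
  have hp : ∀ v : ℝ, HasDerivAt (fun u : ℝ => (σ : ℂ) + u * I) I v := fun v => by
    simpa using (((hasDerivAt_id' (v : ℂ)).mul_const I).const_add (σ : ℂ)).comp_ofReal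
  have hd : ∀ v ∈ uIcc y₁ y₂, HasDerivAt (fun u : ℝ => (u - y₁) * Real.log ‖f ((σ : ℂ) + u * I)‖)
      (Real.log ‖f ((σ : ℂ) + v * I)‖ -
        (v - y₁) * (deriv f ((σ : ℂ) + v * I) / f ((σ : ℂ) + v * I)).im) v := fun v hv => by
    obtain ⟨h1, h2⟩ := hmem v hv
    refine (((hasDerivAt_id' v).sub_const y₁).mul (hasDerivAt_log_norm
      ((hf.differentiableAt (hU.mem_nhds h1)).hasDerivAt.comp v (hp v)) h2)).congr_deriv ?_
    simp only [Function.comp_apply]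
    rw [mul_div_right_comm]
    simp only [mul_re, I_re, I_im]
    ring
  have c1 : ContinuousOn (fun v : ℝ => Real.log ‖f ((σ : ℂ) + v * I)‖) (uIcc y₁ y₂) := fun v hv =>
    (((hf.differentiableAt (hU.mem_nhds (hmem v hv).1)).continuousAt.comp'
      (f := fun u : ℝ => (σ : ℂ) + u * I) (hp v).continuousAt).norm.log
          (norm_ne_zero_iff.2 (hmem v hv).2)).continuousWithinAt
  have c2 : ContinuousOn (fun v : ℝ =>
      (v - y₁) * (deriv f ((σ : ℂ) + v * I) / f ((σ : ℂ) + v * I)).im) (uIcc y₁ y₂) := fun v hv =>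
    ((continuousAt_id.sub continuousAt_const).mul (Complex.continuous_im.continuousAt.comp'
      ((continuousAt_logDeriv hU hf (hmem v hv).1 (hmem v hv).2).comp'
        (f := fun u : ℝ => (σ : ℂ) + u * I) (hp v).continuousAt))).continuousWithinAt
  have h := intervalIntegral.integral_eq_sub_of_hasDerivAt hd (c1.sub c2).intervalIntegrable
  rw [intervalIntegral.integral_sub c1.intervalIntegrable c2.intervalIntegrable, sub_self,
    zero_mul, sub_zero] at h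
  linarith

/-- **Littlewood's lemma.** -/
theorem littlewood_rect (hU : IsOpen U) (hUc : IsPreconnected U) (hf : DifferentiableOn ℂ f U)
    {σ₁ σ₂ y₁ y₂ : ℝ} (hσ : σ₁ < σ₂) (hy : y₁ < y₂)
    (hbox : ∀ s : ℂ, s.re ∈ Icc σ₁ σ₂ → s.im ∈ Icc y₁ y₂ → s ∈ U)
    (hne : ∀ s : ℂ, s.re ∈ Icc σ₁ σ₂ → s.im ∈ Icc y₁ y₂ →
      (s.re = σ₁ ∨ s.re = σ₂ ∨ s.im = y₁ ∨ s.im = y₂) → f s ≠ 0) :
    ∃ Z : Multiset ℂ, (∀ ρ ∈ Z, ρ.re ∈ Ioo σ₁ σ₂ ∧ ρ.im ∈ Ioo y₁ y₂) ∧
      (∀ z : ℂ, z.re ∈ Icc σ₁ σ₂ → z.im ∈ Icc y₁ y₂ → analyticOrderNatAt f z = Z.count z) ∧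
      2 * π * (Z.map fun ρ => ρ.re - σ₁).sum =
        (∫ v in y₁..y₂, Real.log ‖f ((σ₁ : ℂ) + v * I)‖) -
          (∫ v in y₁..y₂, Real.log ‖f ((σ₂ : ℂ) + v * I)‖) +
        (σ₂ - σ₁) * (∫ v in y₁..y₂, (deriv f ((σ₂ : ℂ) + v * I) / f ((σ₂ : ℂ) + v * I)).re) +
        (∫ u in σ₁..σ₂, (u - σ₁) * (deriv f ((u : ℂ) + y₁ * I) / f ((u : ℂ) + y₁ * I)).im) -
        ∫ u in σ₁..σ₂, (u - σ₁) * (deriv f ((u : ℂ) + y₂ * I) / f ((u : ℂ) + y₂ * I)).im := by
  obtain ⟨K, hK⟩ : ∃ K : Set ℂ, K = Icc σ₁ σ₂ ×ℂ Icc y₁ y₂ := ⟨_, rfl⟩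
  have hmemK : ∀ z : ℂ, z ∈ K ↔ z.re ∈ Icc σ₁ σ₂ ∧ z.im ∈ Icc y₁ y₂ := fun z => by
    rw [hK, mem_reProdIm]
  have hKU : K ⊆ U := fun z hz => hbox z ((hmemK z).1 hz).1 ((hmemK z).1 hz).2
  have hord : ∀ z ∈ K, analyticOrderAt f z ≠ ⊤ := fun z hz h => by
    have h0 := (hf.analyticOnNhd hU).eqOn_zero_of_preconnected_of_eventuallyEq_zero hUc (hKU hz)
      (analyticOrderAt_eq_top.1 h)
    have hc : ((σ₁ : ℂ) + y₁ * I) ∈ K := by
      rw [hmemK]; simp [hσ.le, hy.le]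
    obtain ⟨h1, h2⟩ := (hmemK _).1 hc
    exact hne _ h1 h2 (Or.inl (by simp)) (h0 (hKU hc))
  obtain ⟨Z, h, hh, he, hZK, hh0, hcount⟩ := FA.Levinson.exists_compact_factor hU
    (hK ▸ isCompact_Icc.reProdIm isCompact_Icc) hKU hf hord
  have hZin : ∀ ρ ∈ Z, ρ.re ∈ Ioo σ₁ σ₂ ∧ ρ.im ∈ Ioo y₁ y₂ := fun ρ hρ => by
    obtain ⟨h1, h2⟩ := (hmemK ρ).1 (hZK ρ hρ)
    have hz : f ρ = 0 := by
      rw [he, show rootProd Z ρ = 0 from Multiset.prod_eq_zero
        (Multiset.mem_map.2 ⟨ρ, hρ, sub_self ρ⟩), zero_mul]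
    refine ⟨⟨lt_of_le_of_ne h1.1 fun e => ?_, lt_of_le_of_ne h1.2 fun e => ?_⟩,
      ⟨lt_of_le_of_ne h2.1 fun e => ?_, lt_of_le_of_ne h2.2 fun e => ?_⟩⟩
    · exact hne ρ h1 h2 (Or.inl e.symm) hz
    · exact hne ρ h1 h2 (Or.inr (Or.inl e)) hz
    · exact hne ρ h1 h2 (Or.inr (Or.inr (Or.inl e.symm))) hz
    · exact hne ρ h1 h2 (Or.inr (Or.inr (Or.inr e))) hz
  refine ⟨Z, hZin, fun z h1 h2 => hcount z ((hmemK z).2 ⟨h1, h2⟩), ?_⟩
  obtain ⟨c, hc⟩ : ∃ c, c = (y₁ + y₂) / 2 := ⟨_, rfl⟩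
  obtain ⟨m, hm⟩ : ∃ m, m = (y₂ - y₁) / 2 := ⟨_, rfl⟩
  have hm0 : 0 < m := by linarith
  obtain ⟨Φ, hΦ⟩ : ∃ Φ : ℂ → ℂ, Φ = fun w => w - ((σ₁ : ℂ) + ((-m : ℝ) : ℂ) * I) := ⟨_, rfl⟩
  have hΦd : Differentiable ℂ Φ := hΦ ▸ differentiable_id.sub_const _
  have hbox' : ∀ w : ℂ, w.re ∈ Icc σ₁ σ₂ → w.im ∈ Icc (-m) m → w + (c : ℂ) * I ∈ K :=
    fun w h1 h2 => by
      rw [hmemK]
      simp only [add_re, mul_re, ofReal_re, ofReal_im, I_re, I_im, mul_zero, sub_zero,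
        add_zero, add_im, mul_im, mul_one]
      exact ⟨h1, by linarith [h2.1], by linarith [h2.2]⟩
  have hedge : ∀ w ∈ boxEdges σ₁ σ₂ m, w + (c : ℂ) * I ∈ K ∧ f (w + (c : ℂ) * I) ≠ 0 :=
    fun w hw => by
    obtain ⟨h1, h2, h3⟩ := hw
    rw [uIcc_of_le hσ.le] at h1
    rw [uIcc_of_le (by linarith)] at h2
    have hk := hbox' w h1 h2
    refine ⟨hk, hne _ ((hmemK _).1 hk).1 ((hmemK _).1 hk).2 ?_⟩
    simp only [add_re, mul_re, ofReal_re, ofReal_im, I_re, I_im, mul_zero, sub_zero,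
      add_zero, add_im, mul_im, mul_one]
    rcases h3 with e | e | e | e
    · exact Or.inr (Or.inr (Or.inl (by linarith)))
    · exact Or.inr (Or.inr (Or.inr (by linarith)))
    · exact Or.inl e
    · exact Or.inr (Or.inl e)
  obtain ⟨G, hG⟩ : ∃ G : ℂ → ℂ,
      G = fun w => Φ w * (deriv f (w + (c : ℂ) * I) / f (w + (c : ℂ) * I)) := ⟨_, rfl⟩
  obtain ⟨W, hW⟩ : ∃ W, W = Z.map fun ρ => ρ - (c : ℂ) * I := ⟨_, rfl⟩
  have hWin : ∀ w ∈ W, σ₁ < w.re ∧ w.re < σ₂ ∧ |w.im| < m := fun w hw => by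
    rw [hW, Multiset.mem_map] at hw
    obtain ⟨ρ, hρ, rfl⟩ := hw
    obtain ⟨⟨a1, a2⟩, a3, a4⟩ := hZin ρ hρ
    simp only [sub_re, mul_re, ofReal_re, ofReal_im, I_re, I_im, mul_zero, sub_zero,
      sub_im, mul_im, mul_one, add_zero]
    exact ⟨a1, a2, abs_lt.2 ⟨by linarith, by linarith⟩⟩
  have hgd : ∀ w : ℂ, w.re ∈ Icc σ₁ σ₂ → w.im ∈ Icc (-m) m → DifferentiableAt ℂ
      (fun z => Φ z * (deriv h (z + (c : ℂ) * I) / h (z + (c : ℂ) * I))) w := fun w h1 h2 => by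
    have hk := hbox' w h1 h2
    have ha := hh.analyticAt (hU.mem_nhds (hKU hk))
    exact (hΦd w).mul ((ha.deriv.differentiableAt.div ha.differentiableAt (hh0 _ hk)).comp w
      (differentiableAt_id.add_const _))
  obtain ⟨hWc, hWe⟩ := boxInt_sum_poles hΦd hm0.le W hWin
  have hval : boxInt G σ₁ σ₂ m = 2 * π * I * (W.map Φ).sum := by
    rw [boxInt_congr (G := fun w => (W.map fun x => Φ w / (w - x)).sum +
        Φ w * (deriv h (w + (c : ℂ) * I) / h (w + (c : ℂ) * I))) fun w hw => ?_,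
      boxInt_add hWc (fun w hw => ?_), hWe, boxInt_eq_zero hσ.le hm0.le hgd, add_zero]
    · obtain ⟨h1, h2, -⟩ := hw
      rw [uIcc_of_le hσ.le] at h1
      rw [uIcc_of_le (by linarith)] at h2
      exact (hgd w h1 h2).continuousAt
    · obtain ⟨hk, hfk⟩ := hedge w hw
      obtain ⟨s, hs⟩ : ∃ s, s = w + (c : ℂ) * I := ⟨_, rfl⟩
      have hroot : ∀ ρ ∈ Z, s ≠ ρ := fun ρ hρ e => hfk (by
        rw [← hs, e, he, show rootProd Z ρ = 0 from Multiset.prod_eq_zero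
          (Multiset.mem_map.2 ⟨ρ, hρ, sub_self ρ⟩), zero_mul])
      rw [← hs] at hk
      have hd := (hasDerivAt_rootProd hroot).mul
        (hh.differentiableAt (hU.mem_nhds (hKU hk))).hasDerivAt
      simp only [hG, hW, Multiset.map_map, Function.comp_def, ← hs]
      rw [show f = fun z => rootProd Z z * h z from funext he, show deriv (fun z =>
          rootProd Z z * h z) s = _ from hd.deriv]
      have e1 : ∀ ρ : ℂ, Φ w / (w - (ρ - (c : ℂ) * I)) = Φ w * (s - ρ)⁻¹ := fun ρ => by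
        rw [hs, div_eq_mul_inv]; congr 2; ring
      simp only [e1, Multiset.sum_map_mul_left]
      have n1 := rootProd_ne_zero hroot
      have n2 := hh0 s hk
      field_simp
  have hGc : ∀ s ∈ boxEdges σ₁ σ₂ m, ContinuousAt G s := fun s hs => by
    obtain ⟨hk, hfk⟩ := hedge s hs
    rw [hG]
    exact hΦd.continuous.continuousAt.mul ((continuousAt_logDeriv hU hf (hKU hk) hfk).comp'
      (f := fun z => z + (c : ℂ) * I) (continuousAt_id.add continuousAt_const))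
  have him := congrArg Complex.im hval
  have hsumre : (2 * π * I * (W.map Φ).sum).im = 2 * π * (Z.map fun ρ => ρ.re - σ₁).sum := by
    have hre : ∀ Y : Multiset ℂ, ((Y.map fun ρ => Φ (ρ - (c : ℂ) * I)).sum).re =
        (Y.map fun ρ => ρ.re - σ₁).sum := fun Y => by
      induction Y using Multiset.induction_on with
      | empty => simp
      | cons ρ Y ih =>
        simp only [Multiset.map_cons, Multiset.sum_cons, add_re, ih]
        simp [hΦ]
    rw [hW, Multiset.map_map, Function.comp_def, ← hre]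
    simp [mul_re, mul_im]
  rw [hsumre] at him
  rw [← him]
  obtain ⟨L, hL⟩ : ∃ L : ℂ → ℂ, L = fun z => deriv f z / f z := ⟨_, rfl⟩
  have hK' : ∀ u ∈ uIcc σ₁ σ₂, ∀ v ∈ uIcc y₁ y₂, ((u : ℂ) + v * I) ∈ K := fun u hu v hv => by
    rw [uIcc_of_le hσ.le] at hu
    rw [uIcc_of_le hy.le] at hv
    rw [hmemK]
    simp only [add_re, mul_re, ofReal_re, ofReal_im, I_re, I_im, mul_zero, sub_zero,
      add_zero, add_im, mul_im, mul_one, zero_add]
    exact ⟨hu, hv⟩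
  have hnz : ∀ u ∈ uIcc σ₁ σ₂, ∀ v ∈ uIcc y₁ y₂, (u = σ₁ ∨ u = σ₂ ∨ v = y₁ ∨ v = y₂) →
      f ((u : ℂ) + v * I) ≠ 0 := fun u hu v hv hor => by
    obtain ⟨h1, h2⟩ := (hmemK _).1 (hK' u hu v hv)
    exact hne _ h1 h2 (by simpa using hor)
  have hLc : ∀ u ∈ uIcc σ₁ σ₂, ∀ v ∈ uIcc y₁ y₂, (u = σ₁ ∨ u = σ₂ ∨ v = y₁ ∨ v = y₂) →
      ContinuousAt L ((u : ℂ) + v * I) := fun u hu v hv hor =>
    hL ▸ continuousAt_logDeriv hU hf (hKU (hK' u hu v hv)) (hnz u hu v hv hor)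
  have hy1 : y₁ ∈ uIcc y₁ y₂ := left_mem_uIcc
  have hy2 : y₂ ∈ uIcc y₁ y₂ := right_mem_uIcc
  have hs1 : σ₁ ∈ uIcc σ₁ σ₂ := left_mem_uIcc
  have hs2 : σ₂ ∈ uIcc σ₁ σ₂ := right_mem_uIcc
  have hor : ∀ v ∈ uIcc y₁ y₂, ∀ u ∈ uIcc σ₁ σ₂, (v = y₁ ∨ v = y₂) →
      ContinuousWithinAt (fun x : ℝ => L ((x : ℂ) + v * I)) (uIcc σ₁ σ₂) u := fun v hv u hu hv' =>
    ((hLc u hu v hv (Or.inr (Or.inr hv'))).comp' (f := fun x : ℝ => (x : ℂ) + v * I)
      (by fun_prop)).continuousWithinAt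
  have hver : ∀ u ∈ uIcc σ₁ σ₂, ∀ v ∈ uIcc y₁ y₂, (u = σ₁ ∨ u = σ₂) →
      ContinuousWithinAt (fun x : ℝ => L ((u : ℂ) + x * I)) (uIcc y₁ y₂) v := fun u hu v hv hu' =>
    ((hLc u hu v hv (by tauto)).comp' (f := fun x : ℝ => (u : ℂ) + x * I)
      (by fun_prop)).continuousWithinAt
  have cb : ContinuousOn (fun x : ℝ => L ((x : ℂ) + y₁ * I)) (uIcc σ₁ σ₂) := fun u hu =>
    hor y₁ hy1 u hu (Or.inl rfl)
  have ct : ContinuousOn (fun x : ℝ => L ((x : ℂ) + y₂ * I)) (uIcc σ₁ σ₂) := fun u hu =>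
    hor y₂ hy2 u hu (Or.inr rfl)
  have cl : ContinuousOn (fun x : ℝ => L ((σ₁ : ℂ) + x * I)) (uIcc y₁ y₂) := fun v hv =>
    hver σ₁ hs1 v hv (Or.inl rfl)
  have cr : ContinuousOn (fun x : ℝ => L ((σ₂ : ℂ) + x * I)) (uIcc y₁ y₂) := fun v hv =>
    hver σ₂ hs2 v hv (Or.inr rfl)
  have ib : IntervalIntegrable (fun u : ℝ => ((u - σ₁ : ℝ) : ℂ) * L ((u : ℂ) + y₁ * I))
      volume σ₁ σ₂ := ((Continuous.continuousOn (by fun_prop)).mul cb).intervalIntegrable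
  have it : IntervalIntegrable (fun u : ℝ =>
      (((u - σ₁ : ℝ) : ℂ) + ((y₂ - y₁ : ℝ) : ℂ) * I) * L ((u : ℂ) + y₂ * I)) volume σ₁ σ₂ :=
    ((Continuous.continuousOn (by fun_prop)).mul ct).intervalIntegrable
  have il : IntervalIntegrable (fun v : ℝ => ((v - y₁ : ℝ) : ℂ) * I * L ((σ₁ : ℂ) + v * I))
      volume y₁ y₂ := ((Continuous.continuousOn (by fun_prop)).mul cl).intervalIntegrable
  have ir : IntervalIntegrable (fun v : ℝ =>
      (((σ₂ - σ₁ : ℝ) : ℂ) + ((v - y₁ : ℝ) : ℂ) * I) * L ((σ₂ : ℂ) + v * I)) volume y₁ y₂ :=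
    ((Continuous.continuousOn (by fun_prop)).mul cr).intervalIntegrable
  have cy1 : y₁ = -m + c := by rw [hm, hc]; ring
  have cy2 : y₂ = m + c := by rw [hm, hc]; ring
  have eG : ∀ x y : ℝ, G ((x : ℂ) + (y : ℂ) * I) =
      (((x - σ₁ : ℝ) : ℂ) + ((y + m : ℝ) : ℂ) * I) * L ((x : ℂ) + ((y + c : ℝ) : ℂ) * I) :=
    fun x y => by
      rw [hG, hΦ, hL]
      simp only []
      rw [show (x : ℂ) + (y : ℂ) * I + (c : ℂ) * I = (x : ℂ) + ((y + c : ℝ) : ℂ) * I by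
        push_cast; ring]
      push_cast
      ring_nf
  have hbi : boxInt G σ₁ σ₂ m =
      (∫ u in σ₁..σ₂, ((u - σ₁ : ℝ) : ℂ) * L ((u : ℂ) + y₁ * I)) -
        (∫ u in σ₁..σ₂,
          (((u - σ₁ : ℝ) : ℂ) + ((y₂ - y₁ : ℝ) : ℂ) * I) * L ((u : ℂ) + y₂ * I)) +
        I * (∫ v in y₁..y₂,
          (((σ₂ - σ₁ : ℝ) : ℂ) + ((v - y₁ : ℝ) : ℂ) * I) * L ((σ₂ : ℂ) + v * I)) -
        I * ∫ v in y₁..y₂, ((v - y₁ : ℝ) : ℂ) * I * L ((σ₁ : ℂ) + v * I) := by
    rw [cy1, cy2,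
      ← intervalIntegral.integral_comp_add_right (a := -m) (b := m) (fun v : ℝ =>
        (((σ₂ - σ₁ : ℝ) : ℂ) + ((v - (-m + c) : ℝ) : ℂ) * I) * L ((σ₂ : ℂ) + v * I)) c,
      ← intervalIntegral.integral_comp_add_right (a := -m) (b := m) (fun v : ℝ =>
        ((v - (-m + c) : ℝ) : ℂ) * I * L ((σ₁ : ℂ) + v * I)) c]
    simp only [boxInt, eG]
    congr 2 <;> [congr 1; skip; skip]
    all_goals
      first
        | (refine intervalIntegral.integral_congr fun u _ => ?_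
           push_cast; ring_nf)
        | (congr 1; refine intervalIntegral.integral_congr fun u _ => ?_
           push_cast; ring_nf)
  rw [hbi]
  simp only [add_im, sub_im, mul_im, I_re, I_im, zero_mul, one_mul, zero_add]
  rw [(integral_re_im ib).2, (integral_re_im it).2, (integral_re_im ir).1, (integral_re_im il).1]
  simp only [mul_im, mul_re, add_re, add_im, ofReal_re, ofReal_im, I_re, I_im, mul_zero, mul_one,
    zero_mul, sub_zero, add_zero, zero_add, zero_sub]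
  have j1 : IntervalIntegrable (fun u : ℝ => (u - σ₁) * (L ((u : ℂ) + y₂ * I)).im) volume σ₁ σ₂ :=
    ((Continuous.continuousOn (by fun_prop)).mul
      (Complex.continuous_im.comp_continuousOn ct)).intervalIntegrable
  have j2 : IntervalIntegrable (fun u : ℝ => (y₂ - y₁) * (L ((u : ℂ) + y₂ * I)).re) volume σ₁ σ₂ :=
    ((Continuous.continuousOn (by fun_prop)).mul
      (Complex.continuous_re.comp_continuousOn ct)).intervalIntegrable
  have j3 : IntervalIntegrable (fun v : ℝ => (σ₂ - σ₁) * (L ((σ₂ : ℂ) + v * I)).re) volume y₁ y₂ :=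
    ((Continuous.continuousOn (by fun_prop)).mul
      (Complex.continuous_re.comp_continuousOn cr)).intervalIntegrable
  have j4 : IntervalIntegrable (fun v : ℝ => (v - y₁) * (L ((σ₂ : ℂ) + v * I)).im) volume y₁ y₂ :=
    ((Continuous.continuousOn (by fun_prop)).mul
      (Complex.continuous_im.comp_continuousOn cr)).intervalIntegrable
  rw [intervalIntegral.integral_add j1 j2, intervalIntegral.integral_sub j3 j4,
    intervalIntegral.integral_const_mul, intervalIntegral.integral_const_mul,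
    intervalIntegral.integral_neg]
  have v1 := vertical_parts hU hf σ₁ y₁ y₂ fun v hv =>
    ⟨hKU (hK' σ₁ hs1 v hv), hnz σ₁ hs1 v hv (Or.inl rfl)⟩
  have v2 := vertical_parts hU hf σ₂ y₁ y₂ fun v hv =>
    ⟨hKU (hK' σ₂ hs2 v hv), hnz σ₂ hs2 v hv (Or.inr (Or.inl rfl))⟩
  have htop := re_logDeriv_integral hU hf (p := fun u : ℝ => (u : ℂ) + y₂ * I) (d := 1)
    (fun u => by simpa using ((hasDerivAt_id' (u : ℂ)).add_const ((y₂ : ℂ) * I)).comp_ofReal)
    (a := σ₁) (b := σ₂) fun u hu =>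
      ⟨hKU (hK' u hu y₂ hy2), hnz u hu y₂ hy2 (Or.inr (Or.inr (Or.inr rfl)))⟩
  simp only [one_mul] at htop
  simp only [hL]
  linear_combination v1 - v2 - (y₂ - y₁) * htop

end FA.LevinsonThird

end
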