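import Fermat.Agent.LevinsonThird.Edges
import Fermat.Agent.Levinson.Counting

/-!
# More than one third of the zeros are on the line

Littlewood's lemma for `G ψ` bounds the zeros of `G` with `re ≥ 1/2` up to height `T` by
`log c / (4π R) · T log T`; Levinson's inequality then leaves more than a third of the zeros of
`ζ` on the line.
-/

set_option autoImplicit false

noncomputable section

namespace FA.LevinsonThird

open Complex Filter MeasureTheory Set
open FA.Levinson (lvFn lvBase lvDomain lvRegion lvStart lvCount finite_lvZeros lvCount_mono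
  isOpen_lvDomain convex_lvDomain finite_zeros_compact le_lvBase exists_levinson_count)
open FA.RiemannMangoldt (zeroCount mainTerm exists_count)
open FA.HardyLittlewoodZeros (lineZeros)
open scoped Real Topology

/-- The bound for the mean square. -/
def levMean : ℝ := 2377 / 1000

/-- `log c / (4π R)`. -/
def levRate : ℝ := Real.log levMean / (4 * π * levR)

theorem levRate_nonneg : 0 ≤ levRate :=
  div_nonneg (Real.log_nonneg (by rw [levMean]; norm_num))
    (by rw [levR]; positivity)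

theorem log_levMean_lt : Real.log levMean < 2 / 3 * levR := by
  refine (Real.log_lt_iff_lt_exp (by rw [levMean]; norm_num)).2 (lt_of_lt_of_le ?_ exp_bound_lev)
  rw [levMean]
  norm_num

theorem log_le_two_mul_sqrt {T : ℝ} (hT : 0 ≤ T) : Real.log T ≤ 2 * √T := by
  refine (Real.log_le_rpow_div hT (show (0 : ℝ) < 1 / 2 by norm_num)).trans (le_of_eq ?_)
  rw [Real.sqrt_eq_rpow]
  ring

/-- The mean square just left of the line. -/
theorem exists_line_near {T : ℝ} (hbox : Icc (2 / 5 : ℝ) 2 ×ℂ Icc (T - 1) (2 * T + 1) ⊆ lvDomain)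
    (hT : 0 ≤ T) (hline : 9 / 20 < levLine T) (hline2 : levLine T ≤ 2) {η : ℝ} (hη : 0 < η) :
    ∃ δ, 0 < δ ∧ ∀ σ ∈ Icc (9 / 20) (levLine T), levLine T - σ < δ →
      (∫ t in T..2 * T, ‖levMollified T ((σ : ℂ) + t * I)‖ ^ 2) ≤
        (∫ t in T..2 * T, ‖levMollified T ((levLine T : ℂ) + t * I)‖ ^ 2) + η * T := by
  obtain ⟨K, hK⟩ : ∃ K : Set ℂ, K = Icc (2 / 5 : ℝ) 2 ×ℂ Icc (T - 1) (2 * T + 1) := ⟨_, rfl⟩
  obtain ⟨g, hg⟩ : ∃ g : ℂ → ℝ, g = fun s => ‖levMollified T s‖ ^ 2 := ⟨_, rfl⟩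
  have hgc : ContinuousOn g K := by
    rw [hg, hK]
    exact (((differentiableOn_levMollified T).continuousOn.mono hbox).norm).pow 2
  obtain ⟨δ, hδ, hu⟩ := Metric.uniformContinuousOn_iff.1
    ((hK ▸ isCompact_Icc.reProdIm isCompact_Icc : IsCompact K).uniformContinuousOn_of_continuous
      hgc) η hη
  refine ⟨δ, hδ, fun σ hσ hd => ?_⟩
  have hmem : ∀ x ∈ Icc (9 / 20 : ℝ) (levLine T), ∀ t ∈ uIcc T (2 * T), (x : ℂ) + t * I ∈ K :=
    fun x hx t ht => by
      rw [uIcc_of_le (by linarith)] at ht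
      rw [hK, mem_reProdIm]
      simp only [add_re, add_im, mul_re, mul_im, ofReal_re, ofReal_im, I_re, I_im, mul_zero,
        mul_one, sub_zero, add_zero, zero_add]
      exact ⟨⟨by linarith [hx.1], by linarith [hx.2]⟩, by linarith [ht.1], by linarith [ht.2]⟩
  have hint : ∀ x ∈ Icc (9 / 20 : ℝ) (levLine T),
      IntervalIntegrable (fun t : ℝ => g ((x : ℂ) + t * I)) volume T (2 * T) := fun x hx =>
    (hgc.comp (f := fun t : ℝ => (x : ℂ) + t * I) (by fun_prop)
      fun t ht => hmem x hx t ht).intervalIntegrable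
  have h0 : levLine T ∈ Icc (9 / 20 : ℝ) (levLine T) := ⟨hline.le, le_rfl⟩
  have h := intervalIntegral.integral_mono_on (by linarith) (hint σ hσ)
    ((hint _ h0).add (intervalIntegrable_const (c := η))) fun t ht => by
      have hd' : dist ((σ : ℂ) + t * I) ((levLine T : ℂ) + t * I) < δ := by
        rw [dist_eq_norm, add_sub_add_right_eq_sub, ← ofReal_sub, Complex.norm_real,
          Real.norm_eq_abs, abs_sub_comm, abs_of_nonneg (by linarith [hσ.2])]
        exact hd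
      rw [← uIcc_of_le (by linarith : T ≤ 2 * T)] at ht
      have h := hu _ (hmem σ hσ t ht) _ (hmem _ h0 t ht) hd'
      rw [Real.dist_eq] at h
      linarith [(abs_lt.1 h).2]
  rw [intervalIntegral.integral_add (hint _ h0) intervalIntegrable_const,
    intervalIntegral.integral_const, smul_eq_mul] at h
  simp only [hg] at h
  linarith

/-- The left edge, by concavity of the logarithm. -/
theorem integral_log_norm_le {F : ℝ → ℂ} {T a b : ℝ} (hTa : T ≤ a) (hab : a ≤ b) (hbT : b ≤ 2 * T)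
    (ha : a - T ≤ 1) (hb : 2 * T - b ≤ 1) (hF : ContinuousOn F (uIcc T (2 * T)))
    (hne : ∀ t ∈ Icc a b, F t ≠ 0) (h : (∫ t in T..2 * T, ‖F t‖ ^ 2) ≤ levMean * T) :
    ∫ t in a..b, Real.log ‖F t‖ ≤ T / 2 * Real.log levMean + 1 := by
  have hm : (0 : ℝ) < levMean := by rw [levMean]; norm_num
  have hT2 : T ≤ 2 * T := by linarith
  have hsub : uIcc a b ⊆ uIcc T (2 * T) := by
    rw [uIcc_of_le hab, uIcc_of_le hT2]
    exact Icc_subset_Icc hTa hbT
  have hsq : IntervalIntegrable (fun t => ‖F t‖ ^ 2) volume T (2 * T) :=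
    (hF.norm.pow 2).intervalIntegrable
  have hsq' : IntervalIntegrable (fun t => ‖F t‖ ^ 2) volume a b :=
    ((hF.mono hsub).norm.pow 2).intervalIntegrable
  have hlog : IntervalIntegrable (fun t => Real.log ‖F t‖) volume a b :=
    ((hF.mono hsub).norm.log fun t ht => norm_ne_zero_iff.2
      (hne t (by rwa [uIcc_of_le hab] at ht))).intervalIntegrable
  have h1 := intervalIntegral.integral_mono_on hab hlog
    ((intervalIntegrable_const (c := (Real.log levMean - 1) / 2)).add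
      (hsq'.const_mul (1 / (2 * levMean)))) fun t ht => by
    have hx : 0 < ‖F t‖ ^ 2 := by
      have := norm_pos_iff.2 (hne t ht)
      positivity
    have h2 := Real.log_le_sub_one_of_pos (div_pos hx hm)
    rw [Real.log_div hx.ne' hm.ne', Real.log_pow, Nat.cast_ofNat] at h2
    rw [show 1 / (2 * levMean) * ‖F t‖ ^ 2 = ‖F t‖ ^ 2 / levMean / 2 by ring]
    linarith
  rw [intervalIntegral.integral_add intervalIntegrable_const (hsq'.const_mul _),
    intervalIntegral.integral_const, intervalIntegral.integral_const_mul, smul_eq_mul] at h1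
  have h2 : (∫ t in a..b, ‖F t‖ ^ 2) ≤ ∫ t in T..2 * T, ‖F t‖ ^ 2 :=
    intervalIntegral.integral_mono_interval hTa hab hbT
      (Eventually.of_forall fun t => by positivity) hsq
  have h3 := mul_le_mul_of_nonneg_left (h2.trans h)
    (show 0 ≤ 1 / (2 * levMean) by positivity)
  rw [show 1 / (2 * levMean) * (levMean * T) = T / 2 by field_simp] at h3
  have hl1 : Real.log levMean ≤ 1 := by
    refine (Real.log_le_iff_le_exp hm).2 ?_
    rw [levMean]
    linarith [Real.exp_one_gt_d9]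
  have hl0 : 0 ≤ Real.log levMean := Real.log_nonneg (by rw [levMean]; norm_num)
  nlinarith [mul_nonneg (show 0 ≤ 1 - Real.log levMean by linarith)
    (show 0 ≤ 2 - (T - (b - a)) by linarith)]

theorem sum_union_le_add (g : ℂ → ℕ) (A B : Finset ℂ) :
    ∑ x ∈ A ∪ B, g x ≤ (∑ x ∈ A, g x) + ∑ x ∈ B, g x := by
  classical
  rw [← Finset.sum_union_inter]
  exact Nat.le_add_right _ _

/-- The zeros of `G` with `T < im ≤ 2 T`, read off the zeros of `G ψ` in the rectangle. -/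
theorem zeros_window_le {T σ₁ y₁ y₂ w E : ℝ} (hT : lvBase + 3 ≤ T)
    (hσ : σ₁ + w ≤ 1 / 2) (hw : 0 < w) (hy1 : T < y₁) (hy1' : y₁ < T + 1)
    (hy2' : 2 * T - 1 < y₂)
    (htop : ∀ s ∈ lvDomain, analyticOrderAt (levMollified T) s ≠ ⊤)
    (hloc : ∀ c ∈ Icc T (2 * T), ∀ F : Finset ℂ,
      (∀ ρ ∈ F, ρ.re ∈ Icc (1 / 2 : ℝ) 2 ∧ |ρ.im - c| ≤ 1 / 2) →
      ((∑ ρ ∈ F, analyticOrderNatAt (levMollified T) ρ : ℕ) : ℝ) ≤ E)
    {Z : Multiset ℂ} (hZin : ∀ ρ ∈ Z, ρ.re ∈ Ioo σ₁ 2 ∧ ρ.im ∈ Ioo y₁ y₂)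
    (hord : ∀ z : ℂ, z.re ∈ Icc σ₁ 2 → z.im ∈ Icc y₁ y₂ →
      analyticOrderNatAt (levMollified T) z = Z.count z) :
    (lvCount (2 * T) : ℝ) ≤ lvCount T + (Z.map fun ρ => ρ.re - σ₁).sum / w + 2 * E := by
  classical
  have hb := le_lvBase
  obtain ⟨F, hF⟩ : ∃ F : Finset ℂ,
      F = ((finite_lvZeros (2 * T)).toFinset).filter fun ρ => T < ρ.im := ⟨_, rfl⟩
  have hFmem : ∀ ρ ∈ F, ρ.re ∈ Icc (1 / 2 : ℝ) 2 ∧ T < ρ.im ∧ ρ.im ≤ 2 * T ∧ ρ ∈ lvDomain :=
    fun ρ hρ => by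
    rw [hF, Finset.mem_filter, Set.Finite.mem_toFinset] at hρ
    obtain ⟨⟨h1, -⟩, h2⟩ := hρ
    rw [lvRegion, mem_reProdIm] at h1
    exact ⟨h1.1, h2, h1.2.2, mem_lvDomain (by linarith [h1.1.1]) (by linarith [h1.1.2])
      (by linarith)⟩
  have hsplit : lvCount (2 * T) ≤ lvCount T + ∑ ρ ∈ F, analyticOrderNatAt (levMollified T) ρ := by
    rw [lvCount, ← Finset.sum_filter_not_add_sum_filter _ (fun ρ : ℂ => T < ρ.im), ← hF]
    refine Nat.add_le_add (Finset.sum_le_sum_of_subset fun ρ hρ => ?_)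
      (Finset.sum_le_sum fun ρ hρ => analyticOrderNatAt_lvFn_le (hFmem ρ hρ).2.2.2
        (htop ρ (hFmem ρ hρ).2.2.2))
    simp only [Finset.mem_filter, Set.Finite.mem_toFinset, Set.mem_ofPred_eq, not_lt] at hρ ⊢
    obtain ⟨⟨h1, h0⟩, h2⟩ := hρ
    rw [lvRegion, mem_reProdIm] at h1 ⊢
    exact ⟨⟨h1.1, h1.2.1, h2⟩, h0⟩
  obtain ⟨M, hM⟩ : ∃ M : Finset ℂ, M = F.filter fun ρ => y₁ < ρ.im ∧ ρ.im < y₂ := ⟨_, rfl⟩
  obtain ⟨E₁, hE₁⟩ : ∃ E : Finset ℂ, E = F.filter fun ρ => ρ.im ≤ y₁ := ⟨_, rfl⟩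
  obtain ⟨E₂, hE₂⟩ : ∃ E : Finset ℂ, E = F.filter fun ρ => y₂ ≤ ρ.im := ⟨_, rfl⟩
  have hcover : F ⊆ M ∪ E₁ ∪ E₂ := fun ρ hρ => by
    simp only [hM, hE₁, hE₂, Finset.mem_union, Finset.mem_filter, hρ, true_and]
    by_cases h1 : y₁ < ρ.im
    · by_cases h2 : ρ.im < y₂
      · exact Or.inl (Or.inl ⟨h1, h2⟩)
      · exact Or.inr (not_lt.1 h2)
    · exact Or.inl (Or.inr (not_lt.1 h1))
  have hsum : ((∑ ρ ∈ F, analyticOrderNatAt (levMollified T) ρ : ℕ) : ℝ) ≤
      ((∑ ρ ∈ M, analyticOrderNatAt (levMollified T) ρ : ℕ) : ℝ) + E + E := by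
    have h1 := hloc (T + 1 / 2) ⟨by linarith, by linarith⟩ E₁ fun ρ hρ => by
      rw [hE₁, Finset.mem_filter] at hρ
      obtain ⟨a, b, -, -⟩ := hFmem ρ hρ.1
      exact ⟨a, abs_le.2 ⟨by linarith, by linarith [hρ.2]⟩⟩
    have h2 := hloc (2 * T - 1 / 2) ⟨by linarith, by linarith⟩ E₂ fun ρ hρ => by
      rw [hE₂, Finset.mem_filter] at hρ
      obtain ⟨a, -, b, -⟩ := hFmem ρ hρ.1
      exact ⟨a, abs_le.2 ⟨by linarith [hρ.2], by linarith⟩⟩
    refine le_trans (Nat.cast_le.2 ((Finset.sum_le_sum_of_subset hcover).trans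
      ((sum_union_le_add _ _ _).trans (Nat.add_le_add_right (sum_union_le_add _ _ _) _)))) ?_
    push_cast at h1 h2 ⊢
    linarith
  have hwt : w * ((∑ ρ ∈ M, analyticOrderNatAt (levMollified T) ρ : ℕ) : ℝ) ≤
      (Z.map fun ρ => ρ.re - σ₁).sum := by
    rw [Finset.sum_multiset_map_count, Nat.cast_sum, Finset.mul_sum]
    have hnn : ∀ ρ, 0 ≤ Z.count ρ • (ρ.re - σ₁) := fun ρ => by
      rcases Nat.eq_zero_or_pos (Z.count ρ) with h | h
      · simp [h]
      · exact nsmul_nonneg (by linarith [(hZin ρ (Multiset.count_pos.1 h)).1.1]) _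
    refine (Finset.sum_le_sum fun ρ hρ => ?_).trans ((Finset.sum_le_sum_of_subset_of_nonneg
      (Finset.subset_union_left (s₂ := Z.toFinset)) fun ρ _ _ => hnn ρ).trans
        (le_of_eq (Finset.sum_subset (Finset.subset_union_right (s₁ := M)) fun ρ _ h => ?_).symm))
    · rw [hM, Finset.mem_filter] at hρ
      obtain ⟨a, -, -, -⟩ := hFmem ρ hρ.1
      rw [hord ρ ⟨by linarith [a.1], a.2⟩ ⟨hρ.2.1.le, hρ.2.2.le⟩, nsmul_eq_mul,
        mul_comm w]
      refine mul_le_mul_of_nonneg_left ?_ (Nat.cast_nonneg _)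
      linarith [a.1]
    · rw [Multiset.count_eq_zero.2 fun h' => h (Multiset.mem_toFinset.2 h'), zero_smul]
  have hfinal : (lvCount (2 * T) : ℝ) ≤
      lvCount T + ((∑ ρ ∈ F, analyticOrderNatAt (levMollified T) ρ : ℕ) : ℝ) :=
    by exact_mod_cast hsplit
  have hdiv := (le_div_iff₀' hw).2 hwt
  linarith

theorem dyadic_arith {T L l S N M C₁ K : ℝ} (hT : 1 ≤ T) (hL : 0 < L) (hLT : L ≤ T)
    (hL2 : L * L ≤ 4 * T) (hK : 0 ≤ K) (hN : N ≤ M + S / (levR / L) + 2 * (K * L))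
    (hS : 2 * π * S ≤ T / 2 * l + 1 + 2 * C₁ / L * T + 4 * π + 2 * (K * L)) :
    N ≤ M + l / (4 * π * levR) * T * L +
      ((4 * π + 1 + 2 * C₁ + 16 * K) / (2 * π * levR) + 4 * K) * T := by
  have hRp : 0 < levR := by rw [levR]; norm_num
  have hπ := Real.pi_pos
  have h2 : L * (2 * π * S) ≤
      L * (T / 2 * l) + (L * (1 + 4 * π) + 2 * C₁ * T + 2 * K * (L * L)) :=
    (mul_le_mul_of_nonneg_left hS hL.le).trans (le_of_eq (by field_simp; ring))
  have h3 := mul_le_mul_of_nonneg_left hLT (show 0 ≤ 1 + 4 * π by positivity)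
  have h4 := mul_le_mul_of_nonneg_left hL2 (show 0 ≤ 2 * K by positivity)
  have h7 : 0 ≤ K * T := mul_nonneg hK (by linarith)
  have h5 : S / (levR / L) ≤
      l / (4 * π * levR) * T * L + (4 * π + 1 + 2 * C₁ + 16 * K) / (2 * π * levR) * T := by
    rw [show S / (levR / L) = L * (2 * π * S) / (2 * π * levR) by field_simp,
      show l / (4 * π * levR) * T * L + (4 * π + 1 + 2 * C₁ + 16 * K) / (2 * π * levR) * T =
        (L * (T / 2 * l) + (4 * π + 1 + 2 * C₁ + 16 * K) * T) / (2 * π * levR) by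
          field_simp; ring]
    refine div_le_div_of_nonneg_right ?_ (by positivity)
    linarith
  have h6 := mul_le_mul_of_nonneg_left hLT hK
  linarith

/-- **The zeros of `G` between `T` and `2 T`.** -/
theorem exists_dyadic : ∃ C, 0 ≤ C ∧ ∀ᶠ T : ℝ in atTop,
    (lvCount (2 * T) : ℝ) ≤ lvCount T + levRate * T * Real.log T + C * T := by
  classical
  obtain ⟨C₁, hC₁, hnear⟩ := exists_levMollified_near_one
  obtain ⟨K, hK, hloc⟩ := exists_mollified_local
  obtain ⟨J, hJ⟩ : ∃ J, J = (4 * π + 1 + 2 * C₁ + 16 * K) / (2 * π * levR) + 4 * K := ⟨_, rfl⟩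
  have hR : levR = 13 / 10 := rfl
  refine ⟨J, by rw [hJ, hR]; positivity, ?_⟩
  filter_upwards [hnear, hloc, eventually_order_ne_top,
    lvFn_meanSquare (ε := 1 / 2000) (by norm_num), eventually_ge_atTop (lvBase + 3),
    Real.tendsto_log_atTop.eventually_ge_atTop (2 * C₁ + 100)] with T hone hloc htop hms hT hL
  have hb := le_lvBase
  obtain ⟨L, hLd⟩ : ∃ L, L = Real.log T := ⟨_, rfl⟩
  rw [← hLd] at hone hloc hL
  have hL0 : 0 < L := by linarith
  obtain ⟨G, hG⟩ : ∃ G, G = levMollified T := ⟨_, rfl⟩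
  have hGd : DifferentiableOn ℂ G lvDomain := hG ▸ differentiableOn_levMollified T
  obtain ⟨K₀, hK₀⟩ : ∃ K₀ : Set ℂ, K₀ = Icc (2 / 5 : ℝ) 2 ×ℂ Icc (T - 1) (2 * T + 1) := ⟨_, rfl⟩
  have hK₀s : K₀ ⊆ lvDomain := fun s hs => by
    rw [hK₀, mem_reProdIm] at hs
    exact mem_lvDomain (by linarith [hs.1.1]) (by linarith [hs.1.2]) (by linarith [hs.2.1])
  have hfin : {z | z ∈ K₀ ∧ G z = 0}.Finite :=
    finite_zeros_compact isOpen_lvDomain (hK₀ ▸ isCompact_Icc.reProdIm isCompact_Icc) hK₀s hGd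
      fun z hz => hG ▸ htop z (hK₀s hz)
  have hline : 9 / 20 < levLine T ∧ levLine T < 1 / 2 := by
    have h : levR / L < 1 / 20 := by rw [hR, div_lt_iff₀ hL0]; linarith
    have h' : 0 < levR / L := div_pos (by rw [hR]; norm_num) hL0
    rw [levLine, ← hLd]
    constructor <;> linarith
  obtain ⟨δ, hδ, hcont⟩ := exists_line_near (hK₀ ▸ hK₀s) (by linarith) hline.1
    (by linarith [hline.2]) (η := 1 / 2000) (by norm_num)
  obtain ⟨σ₁, ⟨hσa, hσb⟩, hσS⟩ := ((Set.Ioo_infinite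
    (show max (levLine T - δ) (9 / 20) < levLine T from max_lt (by linarith) hline.1)).sdiff
      (hfin.image Complex.re)).nonempty
  obtain ⟨y₁, ⟨hy1, hy1'⟩, hy1S⟩ := ((Set.Ioo_infinite (show T < T + 1 by linarith)).sdiff
    (hfin.image Complex.im)).nonempty
  obtain ⟨y₂, ⟨hy2', hy2⟩, hy2S⟩ := ((Set.Ioo_infinite
    (show 2 * T - 1 < 2 * T by linarith)).sdiff (hfin.image Complex.im)).nonempty
  rw [max_lt_iff] at hσa
  have hK₀mem : ∀ s : ℂ, s.re ∈ Icc σ₁ 2 → s.im ∈ Icc y₁ y₂ → s ∈ K₀ := fun s h1 h2 => by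
    rw [hK₀, mem_reProdIm]
    exact ⟨⟨by linarith [h1.1], h1.2⟩, by linarith [h2.1], by linarith [h2.2]⟩
  have hright : ∀ v ∈ Icc y₁ y₂, ‖G (((2 : ℝ) : ℂ) + v * I) - 1‖ ≤ C₁ / L := fun v hv =>
    hG ▸ hone _ (by simp; norm_num) (by simp; norm_num) (by simp; linarith [hv.1])
  have hCL : C₁ / L ≤ 1 / 2 := by rw [div_le_iff₀ hL0]; linarith
  have hrpos : ∀ v ∈ Icc y₁ y₂, 0 < (G (((2 : ℝ) : ℂ) + v * I)).re := fun v hv => by
    have h := (abs_le.1 ((abs_re_le_norm _).trans ((hright v hv).trans hCL))).1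
    rw [sub_re, one_re] at h
    linarith
  have hne : ∀ s : ℂ, s.re ∈ Icc σ₁ 2 → s.im ∈ Icc y₁ y₂ →
      (s.re = σ₁ ∨ s.re = 2 ∨ s.im = y₁ ∨ s.im = y₂) → G s ≠ 0 := fun s h1 h2 h3 h0 => by
    rcases h3 with e | e | e | e
    · exact hσS ⟨s, ⟨hK₀mem s h1 h2, h0⟩, e⟩
    · have h := hrpos s.im h2
      rw [← e, Complex.re_add_im, h0, zero_re] at h
      exact lt_irrefl _ h
    · exact hy1S ⟨s, ⟨hK₀mem s h1 h2, h0⟩, e⟩
    · exact hy2S ⟨s, ⟨hK₀mem s h1 h2, h0⟩, e⟩
  have hy12 : y₁ < y₂ := by linarith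
  obtain ⟨Z, hZin, hord, hid⟩ := littlewood_rect isOpen_lvDomain convex_lvDomain.isPreconnected
    hGd (show σ₁ < 2 by linarith [hline.2]) hy12 (fun s h1 h2 => hK₀s (hK₀mem s h1 h2)) hne
  -- the left edge
  have hσI : σ₁ ∈ Icc (9 / 20) (levLine T) := ⟨hσa.2.le, hσb.le⟩
  have hms' : (∫ t in T..2 * T, ‖G ((σ₁ : ℂ) + t * I)‖ ^ 2) ≤ levMean * T := by
    have h := hcont σ₁ hσI (by linarith [hσa.1])
    rw [hG]
    have := mul_le_mul_of_nonneg_right levTotal_le (show 0 ≤ T by linarith)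
    simp only [levMollified] at h ⊢
    rw [levMean]
    linarith
  have hleftc : ContinuousOn (fun t : ℝ => G ((σ₁ : ℂ) + t * I)) (uIcc T (2 * T)) :=
    hGd.continuousOn.comp (by fun_prop) fun t ht => by
      rw [uIcc_of_le (by linarith)] at ht
      exact mem_lvDomain (by simp; linarith) (by simp; linarith [hline.2])
        (by simp; linarith [ht.1])
  have hA := integral_log_norm_le hy1.le hy12.le hy2.le (by linarith) (by linarith) hleftc
    (fun t ht => hne _ (by simp; exact (by linarith [hline.2] : σ₁ ≤ 2)) (by simpa using ht)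
      (Or.inl (by simp))) hms'
  -- the right edge
  have hmem2 : ∀ v ∈ uIcc y₁ y₂, ((2 : ℝ) : ℂ) + v * I ∈ lvDomain ∧
      0 < (G (((2 : ℝ) : ℂ) + v * I)).re := fun v hv => by
    rw [uIcc_of_le hy12.le] at hv
    exact ⟨mem_lvDomain (by simp) (by simp; norm_num) (by simp; linarith [hv.1]), hrpos v hv⟩
  have hBc : IntervalIntegrable (fun v : ℝ => Real.log ‖G (((2 : ℝ) : ℂ) + v * I)‖)
      volume y₁ y₂ := by
    refine ContinuousOn.intervalIntegrable (((hGd.continuousOn.comp (by fun_prop) fun v hv =>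
      (hmem2 v hv).1).norm).log fun v hv => norm_ne_zero_iff.2 fun h0 => ?_)
    have h := (hmem2 v hv).2
    simp only [Function.comp_apply] at h0
    rw [h0, zero_re] at h
    exact lt_irrefl _ h
  have hB : -(2 * C₁ / L) * (y₂ - y₁) ≤
      ∫ v in y₁..y₂, Real.log ‖G (((2 : ℝ) : ℂ) + v * I)‖ := by
    have h := intervalIntegral.integral_mono_on hy12.le (intervalIntegrable_const
      (c := -(2 * C₁ / L))) hBc fun v hv => by
      have h1 := norm_sub_norm_le (1 : ℂ) (G (((2 : ℝ) : ℂ) + v * I))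
      rw [norm_one, norm_sub_rev] at h1
      have h2 := hright v hv
      obtain ⟨x, hx⟩ : ∃ x, x = ‖G (((2 : ℝ) : ℂ) + v * I)‖ := ⟨_, rfl⟩
      rw [← hx] at h1 ⊢
      have hx2 : 1 - C₁ / L ≤ x := by linarith
      refine le_trans ?_ (Real.one_sub_inv_le_log_of_pos (by linarith))
      have h3 : x⁻¹ ≤ 1 + 2 * C₁ / L := by
        rw [mul_div_assoc, inv_eq_one_div, div_le_iff₀ (by linarith)]
        nlinarith [div_nonneg hC₁ hL0.le]
      linarith
    rw [intervalIntegral.integral_const, smul_eq_mul] at h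
    linarith
  have hR2 := abs_arg_edge_le isOpen_lvDomain hGd hmem2
  -- the horizontal edges
  have hhor : ∀ y ∈ Icc T (2 * T), (y = y₁ ∨ y = y₂) →
      |∫ u in σ₁..2, (u - σ₁) * (deriv G ((u : ℂ) + y * I) / G ((u : ℂ) + y * I)).im| ≤ K * L :=
    fun y hy hor => hG ▸ (hloc y hy).2 σ₁ ⟨hσa.2.le, by linarith [hline.2]⟩ fun u hu =>
      hG ▸ hne _ (by simpa using hu) (by rcases hor with rfl | rfl <;> simp [hy12.le])
        (by rcases hor with rfl | rfl <;> simp)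
  have hH1 := (abs_le.1 (hhor y₁ ⟨hy1.le, by linarith⟩ (Or.inl rfl))).2
  have hH2 := (abs_le.1 (hhor y₂ ⟨by linarith, hy2.le⟩ (Or.inr rfl))).1
  -- conclusion
  have hw : 0 < levR / L := div_pos (by rw [hR]; norm_num) hL0
  have hwin := zeros_window_le (w := levR / L) (E := K * L) hT
    (by rw [levLine, ← hLd] at hσb; linarith) hw hy1 hy1' hy2' htop
    (fun c hc => (hloc c hc).1) hZin (fun z h1 h2 => hG ▸ hord z h1 h2)
  obtain ⟨S, hS⟩ : ∃ S, S = (Z.map fun ρ => ρ.re - σ₁).sum := ⟨_, rfl⟩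
  rw [← hS] at hid hwin
  have hS' : 2 * π * S ≤ T / 2 * Real.log levMean + 1 + 2 * C₁ / L * T + 4 * π + 2 * (K * L) := by
    have h1 : (2 - σ₁) * (∫ v in y₁..y₂,
        (deriv G (((2 : ℝ) : ℂ) + v * I) / G (((2 : ℝ) : ℂ) + v * I)).re) ≤ 2 * (2 * π) := by
      exact (mul_le_mul_of_nonneg_left (abs_le.1 hR2).2 (by linarith [hline.2])).trans
        (mul_le_mul_of_nonneg_right (by linarith) (by positivity))
    have h2 : -(2 * C₁ / L * T) ≤ -(2 * C₁ / L) * (y₂ - y₁) := by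
      rw [neg_mul]
      exact neg_le_neg (mul_le_mul_of_nonneg_left (by linarith) (by positivity))
    linarith
  have hL2 : L * L ≤ 4 * T := by
    have h3 : L ≤ 2 * √T := by rw [hLd]; exact log_le_two_mul_sqrt (by linarith)
    have h4 := mul_le_mul h3 h3 hL0.le (by positivity)
    have h5 := Real.mul_self_sqrt (show 0 ≤ T by linarith)
    linarith
  rw [hJ, levRate, ← hLd]
  exact dyadic_arith (by linarith) hL0 (hLd ▸ Real.log_le_self (by linarith)) hL2 hK hwin hS'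

/-- **The zeros of `G` up to height `X`.** -/
theorem exists_lvCount_le : ∃ C, 0 ≤ C ∧ ∀ X : ℝ, 1 ≤ X →
    (lvCount X : ℝ) ≤ levRate * X * Real.log X + C * X := by
  obtain ⟨C, hC, hdy⟩ := exists_dyadic
  obtain ⟨T₀, hT₀⟩ := eventually_atTop.1 (hdy.and (eventually_ge_atTop (1 : ℝ)))
  obtain ⟨D, hD⟩ : ∃ D : ℝ, D = max C (lvCount (2 * T₀)) := ⟨_, rfl⟩
  have hD0 : 0 ≤ D := hD ▸ hC.trans (le_max_left _ _)
  suffices h : ∀ (n : ℕ) (X : ℝ), 1 ≤ X → X < 2 ^ n →
      (lvCount X : ℝ) ≤ levRate * X * Real.log X + D * X by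
    refine ⟨D, hD0, fun X hX => ?_⟩
    obtain ⟨n, hn⟩ := pow_unbounded_of_one_lt X (one_lt_two (α := ℝ))
    exact h n X hX hn
  intro n
  induction n with
  | zero => intro X h1 h2; rw [pow_zero] at h2; linarith
  | succ n ih =>
    intro X h1 h2
    rcases lt_or_ge X (2 * T₀) with hs | hs
    · have h3 : (lvCount X : ℝ) ≤ lvCount (2 * T₀) := Nat.cast_le.2 (lvCount_mono hs.le)
      have h4 : (lvCount X : ℝ) ≤ D * X :=
        (h3.trans (hD ▸ le_max_right _ _)).trans (le_mul_of_one_le_right hD0 h1)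
      nlinarith [mul_nonneg (mul_nonneg levRate_nonneg (show 0 ≤ X by linarith))
        (Real.log_nonneg h1)]
    · obtain ⟨h3, h4⟩ := hT₀ (X / 2) (by linarith)
      rw [show 2 * (X / 2) = X by ring] at h3
      have h5 := ih (X / 2) h4 (by rw [pow_succ] at h2; linarith)
      have h6 : Real.log (X / 2) ≤ Real.log X := Real.log_le_log (by linarith) (by linarith)
      have h7 := mul_le_mul_of_nonneg_left h6
        (mul_nonneg levRate_nonneg (show 0 ≤ X by linarith))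
      have h8 : C * X ≤ D * X := mul_le_mul_of_nonneg_right (hD ▸ le_max_left _ _) (by linarith)
      linarith

/-- **More than one third.** -/
theorem exists_more_than_third : ∃ κ : ℝ, 1 / 3 < κ ∧ ∀ᶠ T : ℝ in atTop,
    κ * zeroCount T < ((lineZeros T).ncard : ℝ) := by
  obtain ⟨C, hC, hG⟩ := exists_lvCount_le
  obtain ⟨C₁, hC₁, hN⟩ := exists_count
  obtain ⟨C₂, hC₂, hlev⟩ := exists_levinson_count
  have hR : levR = 13 / 10 := rfl
  have hm := log_levMean_lt
  have hm0 : 0 ≤ Real.log levMean := Real.log_nonneg (by rw [levMean]; norm_num)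
  obtain ⟨d, hd⟩ : ∃ d, d = 2 / 3 - Real.log levMean / levR := ⟨_, rfl⟩
  have hd0 : 0 < d ∧ d ≤ 2 / 3 := by
    rw [hd]
    refine ⟨?_, by linarith [div_nonneg hm0 (show 0 ≤ levR by rw [hR]; norm_num)]⟩
    rw [sub_pos, div_lt_iff₀ (by rw [hR]; norm_num)]
    exact hm
  obtain ⟨J, hJ⟩ : ∃ J : ℝ, J = 1 + 2 * C + 7 * C₂ + 7 * C₁ + 10 := ⟨_, rfl⟩
  refine ⟨1 / 3 + d / 2, by linarith [hd0.1], ?_⟩
  filter_upwards [eventually_ge_atTop (10 : ℝ),
    Real.tendsto_log_atTop.eventually_ge_atTop (4 * π * J / d + 1)] with T hT hL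
  have hell : FA.ZeroFree.ell T ≤ 7 * T := by
    have h : FA.ZeroFree.ell T ≤ |T| + 100 := Real.log_le_self (by positivity)
    rw [abs_of_nonneg (by linarith)] at h
    rcases le_or_gt 20 T with h' | h'
    · linarith
    · have : FA.ZeroFree.ell T ≤ Real.log (20 + 100) := Real.log_le_log (by positivity)
        (by rw [abs_of_nonneg (by linarith)]; linarith)
      have h5 : Real.log (20 + 100 : ℝ) ≤ 7 := by
        rw [Real.log_le_iff_le_exp (by norm_num)]
        have := Real.exp_one_gt_d9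
        rw [show (7 : ℝ) = ((7 : ℕ) : ℝ) * 1 by norm_num, Real.exp_nat_mul]
        exact le_trans (by norm_num) (pow_le_pow_left₀ (by norm_num) this.le 7)
      linarith
  have hlv := hlev T (by linarith)
  have hn := (abs_le.1 (hN T (by linarith))).1
  have hg := hG T (by linarith)
  obtain ⟨l, hl⟩ : ∃ l, l = Real.log T := ⟨_, rfl⟩
  rw [← hl] at hg hL
  have hπ := Real.pi_gt_three
  have hmain : T * l / (2 * π) - T ≤ mainTerm T := by
    have hl2 : Real.log (2 * π) ≤ 2 := by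
      rw [Real.log_le_iff_le_exp (by positivity), show (2 : ℝ) = 1 + 1 by norm_num, Real.exp_add]
      nlinarith [Real.exp_one_gt_d9, Real.pi_lt_d2]
    rw [mainTerm, Real.log_div (by linarith) (by positivity), ← hl]
    have h1 : T / (2 * π) * (Real.log (2 * π) + 1) ≤ T := by
      rw [div_mul_eq_mul_div, div_le_iff₀ (by positivity)]
      exact mul_le_mul_of_nonneg_left (by linarith) (by linarith)
    rw [show T * l / (2 * π) = T / (2 * π) * l by ring]
    linarith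
  have hκ : 0 ≤ 1 - (1 / 3 + d / 2) := by linarith [hd0.2]
  have h1 : (1 - (1 / 3 + d / 2)) * (T * l / (2 * π) - T - 7 * C₁ * T) ≤
      (1 - (1 / 3 + d / 2)) * zeroCount T :=
    mul_le_mul_of_nonneg_left (by nlinarith [mul_le_mul_of_nonneg_left hell hC₁]) hκ
  have h2 : C₂ * FA.ZeroFree.ell T ≤ 7 * C₂ * T :=
    (mul_le_mul_of_nonneg_left hell hC₂).trans (le_of_eq (by ring))
  have h3 : (1 - (1 / 3 + d / 2)) * (T * l / (2 * π)) - 2 * (levRate * T * l) =
      d / (4 * π) * (T * l) := by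
    rw [hd, levRate, hR]
    field_simp
    ring
  have h4 : (J + d / (4 * π)) * T ≤ d / (4 * π) * (T * l) := by
    have h5 : J + d / (4 * π) ≤ d / (4 * π) * l := by
      have h6 := mul_le_mul_of_nonneg_left hL (show 0 ≤ d / (4 * π) by have := hd0.1; positivity)
      have := hd0.1
      rw [mul_add, mul_one, show d / (4 * π) * (4 * π * J / d) = J by field_simp] at h6
      exact h6
    exact (mul_le_mul_of_nonneg_right h5 (by linarith)).trans (le_of_eq (by ring))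
  have h5 : (1 - (1 / 3 + d / 2)) * (T + 7 * C₁ * T) ≤ T + 7 * C₁ * T :=
    mul_le_of_le_one_left (by positivity) (by linarith [hd0.1])
  have h6 : 0 < d / (4 * π) * T := by have := hd0.1; positivity
  rw [hJ] at h4
  linarith

end FA.LevinsonThird

end
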