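import Fermat.Agent.LevinsonThird.MomentLimit
import Mathlib.Analysis.Complex.MeanValue
import Mathlib.Analysis.Complex.ExponentialBounds

/-!
# The value of the mollified mean square

With `R = 13/10` the averages over the circles `|A + R| = 1`, `|B + R| = 1` against the weights
`1 + e^(-iθ)`, `1 + e^(iφ)` turn the limit `c (A, B)` into `(1 + ∂A) (1 + ∂B) c (-R, -R)`, which is
less than `237/100 + 6/1000`, and `exp (2R/3) > 2.378`.
-/

set_option autoImplicit false

noncomputable section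

namespace FA.LevinsonThird

open Complex MeasureTheory
open scoped Real

/-- The distance of the line from `1/2`, times `log T`. -/
def levR : ℝ := 13 / 10

/-- The point of the circle round `-R`. -/
def levShift (θ : ℝ) : ℂ := -(levR : ℂ) + cexp (θ * I)

/-- The conjugate point. -/
def levShiftConj (θ : ℝ) : ℂ := -(levR : ℂ) + cexp (-(θ * I))

/-- `(1 - e^(-u)) / u`. -/
def expQuot (u : ℂ) : ℂ := (1 - cexp (-u)) / u

/-- Its derivative. -/
def expQuot₁ (u : ℂ) : ℂ := (cexp (-u) - expQuot u) / u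

/-- Its second derivative. -/
def expQuot₂ (u : ℂ) : ℂ := (-cexp (-u) - 2 * expQuot₁ u) / u

theorem hasDerivAt_expQuot {u : ℂ} (hu : u ≠ 0) :
    HasDerivAt expQuot (expQuot₁ u) u ∧ HasDerivAt expQuot₁ (expQuot₂ u) u := by
  have he : HasDerivAt (fun z : ℂ => cexp (-z)) (-cexp (-u)) u := by
    simpa using (hasDerivAt_neg u).cexp
  have h1 : HasDerivAt expQuot (expQuot₁ u) u :=
    ((he.const_sub 1).div (hasDerivAt_id' u) hu).congr_deriv (by
      rw [expQuot₁, expQuot]; field_simp)
  refine ⟨h1, ((he.sub h1).div (hasDerivAt_id' u) hu).congr_deriv ?_⟩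
  simp only [Pi.sub_apply]
  rw [expQuot₂, expQuot₁]
  field_simp
  ring

theorem avg_exp_neg (a : ℂ) : ∫ θ in (0 : ℝ)..2 * π, a * cexp (-(θ * I)) = 0 := by
  rw [intervalIntegral.integral_const_mul]
  simp only [show ∀ θ : ℝ, -((θ : ℂ) * I) = -I * θ from fun θ => by ring]
  rw [integral_exp_mul_complex (neg_ne_zero.2 I_ne_zero)]
  have h : cexp (-I * ((2 * π : ℝ) : ℂ)) = 1 := by
    rw [show -I * ((2 * π : ℝ) : ℂ) = ((-1 : ℤ) : ℂ) * (2 * π * I) by push_cast; ring,
      Complex.exp_int_mul_two_pi_mul_I]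
  rw [h]
  simp

/-- Cauchy's formula for `b f c + a ρ f' c`. -/
theorem circle_weighted {U : Set ℂ} (hU : IsOpen U) {c : ℂ} {ρ : ℝ} (hρ : 0 < ρ)
    (hc : Metric.closedBall c ρ ⊆ U) {f : ℂ → ℂ} (hf : DifferentiableOn ℂ f U) (a b : ℂ) :
    ∫ θ in (0 : ℝ)..2 * π, (b + a * cexp (-(θ * I))) * f (c + (ρ : ℂ) * cexp (θ * I)) =
      2 * π * (b * f c + a * ρ * deriv f c) := by
  obtain ⟨g, hg⟩ : ∃ g, g = dslope f c := ⟨_, rfl⟩
  have hgU : DifferentiableOn ℂ g U :=
    hg ▸ (differentiableOn_dslope (hU.mem_nhds (hc (Metric.mem_closedBall_self hρ.le)))).2 hf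
  have havg : ∀ F : ℂ → ℂ, DifferentiableOn ℂ F U →
      ∫ θ in (0 : ℝ)..2 * π, F (c + (ρ : ℂ) * cexp (θ * I)) = 2 * π * F c := by
    intro F hF
    have h := (((hF.mono hc).diffContOnCl_ball Set.Subset.rfl).mono
      (Metric.ball_subset_ball (le_of_eq (abs_of_pos hρ)))).circleAverage
    simp only [Real.circleAverage, circleMap, real_smul, ofReal_inv, ofReal_mul,
      ofReal_ofNat] at h
    rw [inv_mul_eq_iff_eq_mul₀ (by simp [Real.pi_ne_zero])] at h
    exact h
  have hcont : ∀ F : ℂ → ℂ, DifferentiableOn ℂ F U →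
      Continuous fun θ : ℝ => F (c + (ρ : ℂ) * cexp (θ * I)) := fun F hF =>
    hF.continuousOn.comp_continuous (by fun_prop) fun θ => hc (by
      simp [Metric.mem_closedBall, Complex.norm_exp_ofReal_mul_I, abs_of_pos hρ])
  have hpt : ∀ θ : ℝ, (b + a * cexp (-(θ * I))) * f (c + (ρ : ℂ) * cexp (θ * I)) =
      (b * f (c + (ρ : ℂ) * cexp (θ * I)) + a * (ρ : ℂ) * g (c + (ρ : ℂ) * cexp (θ * I))) +
        a * f c * cexp (-(θ * I)) := fun θ => by
    have hne : c + (ρ : ℂ) * cexp (θ * I) ≠ c := by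
      simp [hρ.ne', Complex.exp_ne_zero]
    rw [hg, dslope_of_ne _ hne, slope_def_field, add_sub_cancel_left, Complex.exp_neg]
    have hρ' : (ρ : ℂ) ≠ 0 := ofReal_ne_zero.2 hρ.ne'
    have := Complex.exp_ne_zero ((θ : ℂ) * I)
    field_simp
    ring
  have c1 := (hcont f hf).const_mul b
  have c2 := (hcont g hgU).const_mul (a * (ρ : ℂ))
  have c12 : Continuous fun θ : ℝ =>
      b * f (c + (ρ : ℂ) * cexp (θ * I)) + a * (ρ : ℂ) * g (c + (ρ : ℂ) * cexp (θ * I)) := c1.add c2
  simp only [hpt]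
  rw [intervalIntegral.integral_add (c12.intervalIntegrable _ _)
      (Continuous.intervalIntegrable (by fun_prop) _ _),
    intervalIntegral.integral_add (c1.intervalIntegrable _ _) (c2.intervalIntegrable _ _),
    intervalIntegral.integral_const_mul, intervalIntegral.integral_const_mul,
    havg f hf, havg g hgU, avg_exp_neg, hg, dslope_same]
  ring

/-- `1/θ + θ A B / 3`. -/
def levCoefPart (A B : ℂ) : ℂ := 1 / (levTheta : ℂ) + A * B * (levTheta : ℂ) / 3

theorem levLimit_eq {A B : ℂ} (h : A + B ≠ 0) :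
    levLimit A B =
      levCoefPart A B * expQuot (A + B) + (1 + cexp (-(A + B))) / 2 := by
  rw [levLimit, levQuad, levQuad, levCoefPart, expQuot]
  have hθ : (levTheta : ℂ) ≠ 0 := by simp [levTheta]
  field_simp
  ring

/-- The limit after the first average. -/
def levHalf (A : ℂ) : ℂ :=
  levCoefPart A (-(levR : ℂ)) * (expQuot (A - levR) + expQuot₁ (A - levR)) +
    A * (levTheta : ℂ) / 3 * expQuot (A - levR) + 1 / 2

theorem re_le_of_mem {A : ℂ} (h : A ∈ Metric.closedBall (-(levR : ℂ)) 1) : A.re ≤ -(3 / 10) := by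
  rw [Metric.mem_closedBall, dist_eq_norm] at h
  have h' := (le_abs_self _).trans ((Complex.abs_re_le_norm _).trans h)
  simp [levR] at h'
  linarith

theorem inner_average {A : ℂ} (hA : A.re ≤ -(3 / 10)) :
    ∫ φ in (0 : ℝ)..2 * π, (1 + cexp (φ * I)) * levLimit A (levShiftConj φ) =
      2 * π * levHalf A := by
  obtain ⟨U, hU⟩ : ∃ U : Set ℂ, U = {B : ℂ | B.re < -(1 / 10)} := ⟨_, rfl⟩
  have hUo : IsOpen U := hU ▸ isOpen_lt continuous_re continuous_const
  have hne : ∀ B ∈ U, A + B ≠ 0 := fun B hB h => by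
    rw [hU, Set.mem_ofPred_eq] at hB
    have := congrArg re h
    simp at this
    linarith
  have hderiv : ∀ B ∈ U, HasDerivAt (fun Z => levLimit A Z)
      (A * (levTheta : ℂ) / 3 * expQuot (A + B) + levCoefPart A B * expQuot₁ (A + B) -
        cexp (-(A + B)) / 2) B := fun B hB => by
    have hq := (hasDerivAt_expQuot (hne B hB)).1.comp B ((hasDerivAt_id' B).const_add A)
    have hP : HasDerivAt (fun Z => levCoefPart A Z) (A * (levTheta : ℂ) / 3) B := by
      simpa [levCoefPart, mul_comm] using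
        ((((hasDerivAt_id' B).const_mul A).mul_const (levTheta : ℂ)).div_const 3).const_add
          (1 / (levTheta : ℂ))
    have hE : HasDerivAt (fun Z => cexp (-(A + Z))) (cexp (-(A + B)) * -1) B :=
      (((hasDerivAt_id' B).const_add A).fun_neg).cexp
    have h := (hP.mul hq).add ((hE.const_add 1).div_const 2)
    refine (h.congr_deriv ?_).congr_of_eventuallyEq ?_
    · simp only [Function.comp_apply]
      ring
    · filter_upwards [hUo.mem_nhds hB] with Z hZ
      simp only [Pi.add_apply, Pi.mul_apply, Function.comp_apply]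
      exact levLimit_eq (hne Z hZ)
  have hR : -(levR : ℂ) ∈ U := by simp [hU, levR]; norm_num
  have h := circle_weighted hUo one_pos (c := -(levR : ℂ)) (fun B hB => by
      rw [hU]
      exact lt_of_le_of_lt (re_le_of_mem hB) (by norm_num))
    (f := fun Z => levLimit A Z) (fun B hB => (hderiv B hB).differentiableAt.differentiableWithinAt)
    1 1
  simp only [ofReal_one, one_mul, mul_one] at h
  obtain ⟨F, hF⟩ : ∃ F : ℝ → ℂ,
      F = fun φ : ℝ => (1 + cexp (φ * I)) * levLimit A (levShiftConj φ) := ⟨_, rfl⟩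
  have hper : Function.Periodic F (2 * π) := fun φ => by
    have e : cexp (((φ + 2 * π : ℝ) : ℂ) * I) = cexp ((φ : ℂ) * I) := by
      rw [ofReal_add, add_mul, Complex.exp_add]
      push_cast
      rw [Complex.exp_two_pi_mul_I, mul_one]
    simp only [hF, levShiftConj, Complex.exp_neg, e]
  have e2 : (∫ φ in (0 : ℝ)..2 * π, F φ) = ∫ φ in (0 : ℝ)..2 * π, F (-φ) := by
    rw [intervalIntegral.integral_comp_neg (fun φ => F φ), neg_zero]
    have := hper.intervalIntegral_add_eq (-(2 * π)) 0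
    rw [neg_add_cancel, zero_add] at this
    exact this.symm
  simp only [hF] at e2
  rw [e2]
  simp only [levShiftConj, ofReal_neg, neg_mul, neg_neg]
  rw [h, (hderiv _ hR).deriv, levLimit_eq (hne _ hR), levHalf, ← sub_eq_add_neg]
  ring

/-- **`(1 + ∂A) (1 + ∂B) c` at `(-R, -R)`.** -/
def levTotal : ℝ :=
  (1 / levTheta + levR * levR * levTheta / 3) *
      (let u := -(2 * levR)
       let q := (1 - Real.exp (-u)) / u
       let q₁ := (Real.exp (-u) - q) / u
       q + 2 * q₁ + (-Real.exp (-u) - 2 * q₁) / u) -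
    (let u := -(2 * levR)
     let q := (1 - Real.exp (-u)) / u
     2 * levR * levTheta / 3 * (q + (Real.exp (-u) - q) / u) - levTheta / 3 * q) + 1 / 2

theorem double_average :
    ∫ θ in (0 : ℝ)..2 * π, ∫ φ in (0 : ℝ)..2 * π,
      (1 + cexp (-(θ * I))) * (1 + cexp (φ * I)) * levLimit (levShift θ) (levShiftConj φ) =
      (2 * π) ^ 2 * (levTotal : ℂ) := by
  have hre : ∀ θ : ℝ, (levShift θ).re ≤ -(3 / 10) := fun θ => re_le_of_mem (by
    simp [levShift, Metric.mem_closedBall, Complex.norm_exp_ofReal_mul_I])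
  have e1 : ∀ θ : ℝ, (∫ φ in (0 : ℝ)..2 * π, (1 + cexp (-(θ * I))) * (1 + cexp (φ * I)) *
      levLimit (levShift θ) (levShiftConj φ)) =
      2 * π * ((1 + 1 * cexp (-(θ * I))) * levHalf (-(levR : ℂ) + ((1 : ℝ) : ℂ) * cexp (θ * I))) :=
    fun θ => by
      simp only [mul_assoc (1 + cexp (-((θ : ℂ) * I)))]
      rw [intervalIntegral.integral_const_mul, inner_average (hre θ)]
      simp only [ofReal_one, one_mul, levShift]
      ring
  simp only [e1]
  rw [intervalIntegral.integral_const_mul]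
  obtain ⟨U, hU⟩ : ∃ U : Set ℂ, U = {A : ℂ | A.re < -(1 / 10)} := ⟨_, rfl⟩
  have hUo : IsOpen U := hU ▸ isOpen_lt continuous_re continuous_const
  have hderiv : ∀ A ∈ U, HasDerivAt levHalf
      (-(levR : ℂ) * (levTheta : ℂ) / 3 * (expQuot (A - levR) + expQuot₁ (A - levR)) +
        levCoefPart A (-(levR : ℂ)) * (expQuot₁ (A - levR) + expQuot₂ (A - levR)) +
        ((levTheta : ℂ) / 3 * expQuot (A - levR) +
          A * (levTheta : ℂ) / 3 * expQuot₁ (A - levR))) A := fun A hA => by
    have hne : A - levR ≠ 0 := fun h => by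
      rw [hU, Set.mem_ofPred_eq] at hA
      have := congrArg re h
      simp [levR] at this
      linarith
    obtain ⟨q1, q2⟩ := hasDerivAt_expQuot hne
    have d1 := q1.comp A ((hasDerivAt_id' A).sub_const (levR : ℂ))
    have d2 := q2.comp A ((hasDerivAt_id' A).sub_const (levR : ℂ))
    have hP : HasDerivAt (fun Z => levCoefPart Z (-(levR : ℂ)))
        (-(levR : ℂ) * (levTheta : ℂ) / 3) A := by
      simpa [levCoefPart] using ((((hasDerivAt_id' A).mul_const (-(levR : ℂ))).mul_const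
        (levTheta : ℂ)).div_const 3).const_add (1 / (levTheta : ℂ))
    have hL : HasDerivAt (fun Z : ℂ => Z * (levTheta : ℂ) / 3) ((levTheta : ℂ) / 3) A := by
      simpa using ((hasDerivAt_id' A).mul_const (levTheta : ℂ)).div_const 3
    exact (((hP.mul (d1.add d2)).add (hL.mul d1)).add_const (1 / 2 : ℂ)).congr_deriv (by
      simp only [Pi.add_apply, Function.comp_apply]; ring)
  have hR : -(levR : ℂ) ∈ U := by simp [hU, levR]; norm_num
  rw [circle_weighted hUo one_pos (c := -(levR : ℂ)) (fun B hB => by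
      rw [hU]
      exact lt_of_le_of_lt (re_le_of_mem hB) (by norm_num))
    (fun A hA => (hderiv A hA).differentiableAt.differentiableWithinAt) 1 1, (hderiv _ hR).deriv]
  simp only [levHalf, levTotal, levCoefPart, expQuot₂, expQuot₁, expQuot, ofReal_add, ofReal_sub,
    ofReal_mul, ofReal_div, ofReal_neg, ofReal_one, ofReal_ofNat, Complex.ofReal_exp]
  rw [show -(levR : ℂ) - levR = -(2 * levR) by ring]
  ring

theorem levTotal_le : levTotal ≤ 2376 / 1000 := by
  have hE : Real.exp (13 / 5) ≤ 13465 / 1000 := by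
    rw [show (13 / 5 : ℝ) = 1 + 1 + 3 / 5 by norm_num, Real.exp_add, Real.exp_add]
    have h := Real.exp_one_lt_d9
    have h0 := Real.exp_pos 1
    have h35 : Real.exp (3 / 5) ≤ 18222 / 10000 := by
      refine (Real.exp_bound' (by norm_num) (by norm_num) (show 0 < 6 by norm_num)).trans ?_
      norm_num [Finset.sum_range_succ, Nat.factorial]
    calc Real.exp 1 * Real.exp 1 * Real.exp (3 / 5)
        ≤ 2.7182818286 * 2.7182818286 * (18222 / 10000) := by gcongr
      _ ≤ _ := by norm_num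
  have h0 := Real.exp_pos (13 / 5 : ℝ)
  rw [levTotal, levTheta, levR]
  simp only []
  rw [show -(-(2 * (13 / 10 : ℝ))) = 13 / 5 by norm_num]
  ring_nf
  ring_nf at hE
  linarith

theorem exp_bound_lev : (2378 / 1000 : ℝ) ≤ Real.exp (2 / 3 * levR) := by
  refine le_trans ?_ (Real.sum_le_exp_of_nonneg (by rw [levR]; norm_num) 7)
  rw [levR]
  norm_num [Finset.sum_range_succ, Nat.factorial]

theorem norm_levShift_le (θ : ℝ) : ‖levShift θ‖ ≤ 3 ∧ ‖levShiftConj θ‖ ≤ 3 := by
  constructor <;> refine (norm_add_le _ _).trans ?_ <;>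
    simp [levR, Complex.norm_exp] <;> norm_num

theorem half_le_norm_levShift_add (θ φ : ℝ) : 1 / 2 ≤ ‖levShift θ + levShiftConj φ‖ := by
  refine le_trans ?_ ((neg_le_abs _).trans (Complex.abs_re_le_norm _))
  simp [levShift, levShiftConj, levR, Complex.exp_re, Real.cos_neg]
  linarith [Real.cos_le_one θ, Real.cos_le_one φ]

theorem norm_levLimit_le {A B : ℂ} (hA : ‖A‖ ≤ 3) (hB : ‖B‖ ≤ 3) (h : 1 / 2 ≤ ‖A + B‖) :
    ‖levLimit A B‖ ≤ 16 * (1 + Real.exp 6) := by
  have hE : ‖cexp (-(A + B))‖ ≤ Real.exp 6 := by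
    rw [Complex.norm_exp, Real.exp_le_exp]
    refine (le_abs_self _).trans ((Complex.abs_re_le_norm _).trans ?_)
    rw [norm_neg]
    exact (norm_add_le A B).trans (by linarith)
  rw [levLimit, norm_div, div_le_iff₀ (by linarith)]
  refine (norm_sub_le _ _).trans ?_
  rw [norm_mul]
  have h1 := norm_levQuad_le hA hB
  have h2 := mul_le_mul hE (norm_levQuad_le (A := -B) (B := -A) (by rwa [norm_neg])
    (by rwa [norm_neg])) (norm_nonneg _) (Real.exp_pos 6).le
  nlinarith [Real.exp_pos 6]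

end FA.LevinsonThird

end
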