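import Fermat.Agent.LevinsonThird.CircleValue
import Fermat.Agent.Levinson.Companion
import Mathlib.MeasureTheory.Integral.Prod

/-!
# The mollified mean square of `G = ζ + ζ'/D`

On `re s = 1/2 - R / log T` it is at most `(c + o (1)) T` over `[T, 2T]`, `c` the value of
`CircleValue`.
-/

set_option autoImplicit false

noncomputable section

namespace FA.LevinsonThird

open Complex MeasureTheory Filter Set Finset
open FA.Levinson (lvFn lvD lvBase norm_lvD_sub_le)
open FA.TwistedMoment (mollPoly continuous_mollPoly)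
open scoped Real Interval Topology ComplexConjugate

/-- The left line. -/
def levLine (T : ℝ) : ℝ := 1 / 2 - levR / Real.log T

/-- **The mollifier.** -/
def levMoll (T : ℝ) (s : ℂ) : ℂ :=
  ∑ h ∈ Finset.Icc 1 (levLen T),
    levCoef (levEll T) h * (h : ℂ) ^ (-(s + (levR : ℂ) / (Real.log T : ℂ)))

theorem levMoll_line (T t : ℝ) : levMoll T ((levLine T : ℂ) + t * I) = levPoly T t := by
  simp only [levMoll, levPoly, mollPoly, levLine]
  refine Finset.sum_congr rfl fun h _ => ?_
  congr 2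
  push_cast
  ring

theorem triple_swap {a b : ℝ → ℝ → ℂ} {W : ℝ → ℂ} (ha : Continuous (Function.uncurry a))
    (hb : Continuous (Function.uncurry b)) (hW : Continuous W) (p q P Q : ℝ) :
    ∫ t in P..Q, (∫ θ in p..q, a θ t) * (∫ φ in p..q, b φ t) * W t =
      ∫ θ in p..q, ∫ φ in p..q, ∫ t in P..Q, a θ t * b φ t * W t := by
  obtain ⟨B, hBd⟩ : ∃ B : ℝ → ℂ, B = fun t => ∫ φ in p..q, b φ t := ⟨_, rfl⟩
  have hB : Continuous B := hBd ▸
      intervalIntegral.continuous_parametric_intervalIntegral_of_continuous'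
    (f := fun t φ => b φ t) (hb.comp continuous_swap) p q
  have swap : ∀ F : ℝ → ℝ → ℂ, Continuous (Function.uncurry F) →
      ∫ x in P..Q, ∫ y in p..q, F x y = ∫ y in p..q, ∫ x in P..Q, F x y := fun F hF =>
    intervalIntegral_intervalIntegral_swap ((hF.continuousOn.integrableOn_compact
      (isCompact_uIcc.prod isCompact_uIcc)).mono_set
        (Set.prod_mono uIoc_subset_uIcc uIoc_subset_uIcc))
  calc ∫ t in P..Q, (∫ θ in p..q, a θ t) * (∫ φ in p..q, b φ t) * W t
      = ∫ t in P..Q, ∫ θ in p..q, a θ t * (B t * W t) := by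
        refine intervalIntegral.integral_congr fun t _ => ?_
        rw [intervalIntegral.integral_mul_const, hBd]
        ring
    _ = ∫ θ in p..q, ∫ t in P..Q, a θ t * (B t * W t) := swap _ (by fun_prop)
    _ = ∫ θ in p..q, ∫ φ in p..q, ∫ t in P..Q, a θ t * b φ t * W t := by
        refine intervalIntegral.integral_congr fun θ _ => ?_
        simp only [hBd]
        rw [← swap (fun t φ => a θ t * b φ t * W t) (by fun_prop)]
        refine intervalIntegral.integral_congr fun t _ => ?_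
        rw [← intervalIntegral.integral_mul_const, ← intervalIntegral.integral_const_mul]
        exact intervalIntegral.integral_congr fun φ _ => by ring

/-- `ζ` on the circle, continued constantly below `64`. -/
def zetaCircle (L : ℝ) (θ t : ℝ) : ℂ :=
  riemannZeta ((1 / 2 : ℂ) + (max t 64 : ℝ) * I + levShift θ / (L : ℂ))

/-- An average over the circle. -/
def levAvg (b a : ℂ) (L t : ℝ) : ℂ :=
  ∫ θ in (0 : ℝ)..2 * π, (b + a * cexp (-(θ * I))) * zetaCircle L θ t

theorem conj_levShift (θ : ℝ) : conj (levShift θ) = levShiftConj θ := by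
  rw [levShift, levShiftConj, map_add, map_neg, Complex.conj_ofReal, ← Complex.exp_conj, map_mul,
    Complex.conj_ofReal, Complex.conj_I, mul_neg]

theorem im_point_pos {L : ℝ} (hL : 3 ≤ L) (θ t : ℝ) :
    63 ≤ ((1 / 2 : ℂ) + (max t 64 : ℝ) * I + levShift θ / (L : ℂ)).im := by
  have h : |(levShift θ / (L : ℂ)).im| ≤ 1 := by
    refine (abs_im_le_norm _).trans ?_
    rw [norm_div, Complex.norm_real, Real.norm_of_nonneg (by linarith), div_le_one (by linarith)]
    linarith [(norm_levShift_le θ).1]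
  simp only [add_im, mul_im, ofReal_re, ofReal_im, I_re, I_im, mul_zero, mul_one, add_zero]
  norm_num
  rw [Complex.div_ofReal_im] at h
  linarith [(abs_le.1 h).1, le_max_right t (64 : ℝ)]

theorem continuous_zetaCircle {L : ℝ} (hL : 3 ≤ L) :
    Continuous (Function.uncurry (zetaCircle L)) := by
  rw [continuous_iff_continuousAt]
  rintro ⟨θ, t⟩
  simp only [Function.uncurry_def, zetaCircle, levShift]
  refine ContinuousAt.comp' (differentiableAt_riemannZeta fun h => ?_).continuousAt (by fun_prop)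
  have := im_point_pos hL θ t
  rw [levShift, h, one_im] at this
  linarith

theorem levAvg_sq (b a : ℂ) {T : ℝ} (hT : 64 ≤ T) (hL : 3 ≤ Real.log T) :
    ((∫ t in T..2 * T, ‖levAvg b a (Real.log T) t‖ ^ 2 * ‖levPoly T t‖ ^ 2 : ℝ) : ℂ) =
      ∫ θ in (0 : ℝ)..2 * π, ∫ φ in (0 : ℝ)..2 * π,
        (b + a * cexp (-(θ * I))) * (conj b + conj a * cexp (φ * I)) *
          twistIntegral T (levShift θ / (Real.log T : ℂ))
            (levShiftConj φ / (Real.log T : ℂ)) := by
  obtain ⟨L, hLd⟩ : ∃ L, L = Real.log T := ⟨_, rfl⟩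
  rw [← hLd] at hL ⊢
  have hz := continuous_zetaCircle hL
  obtain ⟨A, hA⟩ : ∃ A : ℝ → ℝ → ℂ,
      A = fun θ t : ℝ => (b + a * cexp (-((θ : ℂ) * I))) * zetaCircle L θ t := ⟨_, rfl⟩
  obtain ⟨B, hB⟩ : ∃ B : ℝ → ℝ → ℂ, B = fun φ t => conj (A φ t) := ⟨_, rfl⟩
  have hAc : Continuous (Function.uncurry A) := by
    rw [hA]
    exact (Continuous.mul (by fun_prop) hz : Continuous fun x : ℝ × ℝ =>
      (b + a * cexp (-(x.1 * I))) * zetaCircle L x.1 x.2)
  have hBc : Continuous (Function.uncurry B) := hB ▸ Complex.continuous_conj.comp hAc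
  have hWc : Continuous fun t : ℝ => ((‖levPoly T t‖ ^ 2 : ℝ) : ℂ) :=
    continuous_ofReal.comp ((continuous_mollPoly _ _).norm.pow 2)
  have e1 : ∀ t : ℝ, ((‖levAvg b a L t‖ ^ 2 * ‖levPoly T t‖ ^ 2 : ℝ) : ℂ) =
      (∫ θ in (0 : ℝ)..2 * π, A θ t) * (∫ φ in (0 : ℝ)..2 * π, B φ t) *
        ((‖levPoly T t‖ ^ 2 : ℝ) : ℂ) := fun t => by
    rw [ofReal_mul, ofReal_pow ‖levAvg b a L t‖, ← Complex.mul_conj', levAvg]
    congr 2
    · simp only [hA]
    · simp only [intervalIntegral.intervalIntegral_eq_integral_uIoc, Complex.real_smul, map_mul,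
        Complex.conj_ofReal, ← integral_conj, hA, hB]
  rw [← intervalIntegral.integral_ofReal]
  simp only [e1]
  rw [triple_swap hAc hBc hWc]
  refine intervalIntegral.integral_congr fun θ _ => intervalIntegral.integral_congr fun φ _ => ?_
  rw [twistIntegral, ← intervalIntegral.integral_const_mul]
  refine intervalIntegral.integral_congr fun t ht => ?_
  rw [Set.uIcc_of_le (by linarith)] at ht
  simp only [hA, hB, zetaCircle, max_eq_left (show (64 : ℝ) ≤ t by linarith [ht.1]), map_mul,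
    map_add, ← riemannZeta_conj, map_div₀, conj_levShift, Complex.conj_ofReal, Complex.conj_I,
    ← Complex.exp_conj, map_neg, map_one, map_ofNat, mul_neg, neg_neg, ← sub_eq_add_neg]
  ring

theorem norm_weight_le (b a : ℂ) (θ : ℝ) :
    ‖b + a * cexp (-(θ * I))‖ ≤ ‖b‖ + ‖a‖ ∧
      ‖conj b + conj a * cexp (θ * I)‖ ≤ ‖b‖ + ‖a‖ := by
  constructor <;> refine (norm_add_le _ _).trans (le_of_eq ?_) <;>
    simp [Complex.norm_exp]

theorem continuous_levLimit_circle :
    Continuous fun x : ℝ × ℝ => levLimit (levShift x.1) (levShiftConj x.2) := by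
  simp only [levLimit, levQuad]
  refine Continuous.div ?_ ?_ fun x h => ?_
  · unfold levShift levShiftConj; fun_prop
  · unfold levShift levShiftConj; fun_prop
  · have := half_le_norm_levShift_add x.1 x.2
    rw [h, norm_zero] at this
    norm_num at this

/-- The double average of the limit. -/
def limitAvg (b a : ℂ) : ℂ :=
  ∫ θ in (0 : ℝ)..2 * π, ∫ φ in (0 : ℝ)..2 * π,
    (b + a * cexp (-(θ * I))) * (conj b + conj a * cexp (φ * I)) *
      levLimit (levShift θ) (levShiftConj φ)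

theorem norm_limitAvg_le (b a : ℂ) :
    ‖limitAvg b a‖ ≤ (2 * π) ^ 2 * ((‖b‖ + ‖a‖) ^ 2 * (16 * (1 + Real.exp 6))) := by
  refine (intervalIntegral.norm_integral_le_of_norm_le_const
    (C := 2 * π * ((‖b‖ + ‖a‖) ^ 2 * (16 * (1 + Real.exp 6)))) fun θ _ => ?_).trans
      (le_of_eq (by rw [sub_zero, abs_of_pos (by positivity)]; ring))
  refine (intervalIntegral.norm_integral_le_of_norm_le_const
    (C := (‖b‖ + ‖a‖) ^ 2 * (16 * (1 + Real.exp 6))) fun φ _ => ?_).trans
      (le_of_eq (by rw [sub_zero, abs_of_pos (by positivity)]; ring))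
  rw [norm_mul, norm_mul, pow_two]
  exact mul_le_mul (mul_le_mul (norm_weight_le b a θ).1 (norm_weight_le b a φ).2 (norm_nonneg _)
    (by positivity)) (norm_levLimit_le (norm_levShift_le θ).1 (norm_levShift_le φ).2
      (half_le_norm_levShift_add θ φ)) (norm_nonneg _) (by positivity)

theorem continuous_twistIntegral_circle {T : ℝ} (hT : 64 ≤ T) (hL : 3 ≤ Real.log T) :
    Continuous fun x : ℝ × ℝ => twistIntegral T (levShift x.1 / (Real.log T : ℂ))
      (levShiftConj x.2 / (Real.log T : ℂ)) := by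
  obtain ⟨L, hLd⟩ : ∃ L, L = Real.log T := ⟨_, rfl⟩
  rw [← hLd] at hL ⊢
  have hz := continuous_zetaCircle hL
  have hW : Continuous fun y : (ℝ × ℝ) × ℝ => ((‖levPoly T y.2‖ ^ 2 : ℝ) : ℂ) :=
    continuous_ofReal.comp (((continuous_mollPoly _ _).comp continuous_snd).norm.pow 2)
  have hc : Continuous fun x : ℝ × ℝ => ∫ t in T..2 * T,
      zetaCircle L x.1 t * conj (zetaCircle L x.2 t) * ((‖levPoly T t‖ ^ 2 : ℝ) : ℂ) :=
    intervalIntegral.continuous_parametric_intervalIntegral_of_continuous'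
      (f := fun (x : ℝ × ℝ) t =>
        zetaCircle L x.1 t * conj (zetaCircle L x.2 t) * ((‖levPoly T t‖ ^ 2 : ℝ) : ℂ))
      ((((hz.comp ((continuous_fst.comp continuous_fst).prodMk continuous_snd)).mul
        (Complex.continuous_conj.comp
          (hz.comp ((continuous_snd.comp continuous_fst).prodMk continuous_snd)))).mul hW)) _ _
  refine hc.congr fun x => ?_
  rw [twistIntegral]
  refine intervalIntegral.integral_congr fun t ht => ?_
  rw [Set.uIcc_of_le (by linarith)] at ht
  simp only [zetaCircle, max_eq_left (show (64 : ℝ) ≤ t by linarith [ht.1]), ← riemannZeta_conj,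
    map_add, map_mul, map_div₀, conj_levShift, Complex.conj_ofReal, Complex.conj_I, map_one,
    map_ofNat, mul_neg, ← sub_eq_add_neg]

theorem levAvg_meanSquare (b a : ℂ) {ε : ℝ} (hε : 0 < ε) : ∀ᶠ T : ℝ in atTop,
    (∫ t in T..2 * T, ‖levAvg b a (Real.log T) t‖ ^ 2 * ‖levPoly T t‖ ^ 2) ≤
      ((limitAvg b a).re + ε) * T := by
  obtain ⟨η, hη, hη'⟩ : ∃ η : ℝ, 0 < η ∧ (2 * π) ^ 2 * (‖b‖ + ‖a‖) ^ 2 * η ≤ ε := by
    refine ⟨ε / ((2 * π) ^ 2 * (‖b‖ + ‖a‖) ^ 2 + 1), by positivity, ?_⟩
    rw [mul_div_assoc', div_le_iff₀ (by positivity)]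
    nlinarith
  filter_upwards [twistIntegral_limit hη, eventually_ge_atTop 64,
    Real.tendsto_log_atTop.eventually_ge_atTop 3] with T hT hT64 hL
  have hc := levAvg_sq b a hT64 hL
  obtain ⟨I₁, hI₁⟩ : ∃ I₁ : ℝ, I₁ = ∫ t in T..2 * T,
      ‖levAvg b a (Real.log T) t‖ ^ 2 * ‖levPoly T t‖ ^ 2 := ⟨_, rfl⟩
  rw [← hI₁] at hc ⊢
  obtain ⟨v, hv⟩ : ∃ v : ℝ × ℝ → ℂ, v = fun x =>
      (b + a * cexp (-(x.1 * I))) * (conj b + conj a * cexp (x.2 * I)) := ⟨_, rfl⟩
  have hvc : Continuous v := hv ▸ (by fun_prop)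
  have hf : Continuous fun x : ℝ × ℝ => v x * twistIntegral T
      (levShift x.1 / (Real.log T : ℂ)) (levShiftConj x.2 / (Real.log T : ℂ)) :=
    hvc.mul (continuous_twistIntegral_circle hT64 hL)
  have hg : Continuous fun x : ℝ × ℝ =>
      v x * ((T : ℂ) * levLimit (levShift x.1) (levShiftConj x.2)) :=
    hvc.mul (continuous_const.mul continuous_levLimit_circle)
  have inner : ∀ (F : ℝ × ℝ → ℂ), Continuous F →
      Continuous fun θ : ℝ => ∫ φ in (0 : ℝ)..2 * π, F (θ, φ) := fun F hF =>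
    intervalIntegral.continuous_parametric_intervalIntegral_of_continuous'
      (f := fun θ φ => F (θ, φ)) (by simpa [Function.uncurry_def] using hF) _ _
  have hsl : ∀ (F : ℝ × ℝ → ℂ), Continuous F → ∀ θ : ℝ,
      IntervalIntegrable (fun φ : ℝ => F (θ, φ)) volume 0 (2 * π) := fun F hF θ =>
    (hF.comp (Continuous.prodMk_right θ)).intervalIntegrable _ _
  have key : ‖(I₁ : ℂ) - (T : ℂ) * limitAvg b a‖ ≤ ε * T := by
    have e : (T : ℂ) * limitAvg b a = ∫ θ in (0 : ℝ)..2 * π, ∫ φ in (0 : ℝ)..2 * π,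
        v (θ, φ) * ((T : ℂ) * levLimit (levShift θ) (levShiftConj φ)) := by
      simp only [limitAvg, ← intervalIntegral.integral_const_mul, hv]
      refine intervalIntegral.integral_congr fun θ _ =>
          intervalIntegral.integral_congr fun φ _ => ?_
      ring
    have e' : (I₁ : ℂ) = ∫ θ in (0 : ℝ)..2 * π, ∫ φ in (0 : ℝ)..2 * π,
        v (θ, φ) * twistIntegral T (levShift θ / (Real.log T : ℂ))
          (levShiftConj φ / (Real.log T : ℂ)) := by
      rw [hc]; simp only [hv]
    rw [e', e, ← intervalIntegral.integral_sub ((inner _ hf).intervalIntegrable _ _)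
      ((inner _ hg).intervalIntegrable _ _)]
    refine le_trans ?_ (mul_le_mul_of_nonneg_right hη' (by linarith))
    refine (intervalIntegral.norm_integral_le_of_norm_le_const
      (C := 2 * π * ((‖b‖ + ‖a‖) ^ 2 * (η * T))) fun θ _ => ?_).trans
        (le_of_eq (by rw [sub_zero, abs_of_pos (by positivity)]; ring))
    rw [← intervalIntegral.integral_sub (hsl _ hf θ) (hsl _ hg θ)]
    refine (intervalIntegral.norm_integral_le_of_norm_le_const
      (C := (‖b‖ + ‖a‖) ^ 2 * (η * T)) fun φ _ => ?_).trans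
        (le_of_eq (by rw [sub_zero, abs_of_pos (by positivity)]; ring))
    rw [← mul_sub, norm_mul, hv, norm_mul, pow_two]
    exact mul_le_mul (mul_le_mul (norm_weight_le b a θ).1 (norm_weight_le b a φ).2 (norm_nonneg _)
      (by positivity)) (hT _ _ (norm_levShift_le θ).1 (norm_levShift_le φ).2
        (half_le_norm_levShift_add θ φ)) (norm_nonneg _) (by positivity)
  have h := (le_abs_self _).trans ((abs_re_le_norm _).trans key)
  simp only [sub_re, ofReal_re, mul_re, ofReal_im, zero_mul, sub_zero] at h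
  linarith

theorem levAvg_eq {T t : ℝ} (hT : 64 ≤ T) (hL : 3 ≤ Real.log T) (ht : T ≤ t) :
    levAvg 1 1 (Real.log T) t = 2 * π * (riemannZeta ((levLine T : ℂ) + t * I) +
        deriv riemannZeta ((levLine T : ℂ) + t * I) / (Real.log T : ℂ)) ∧
      levAvg 0 1 (Real.log T) t =
        2 * π * (deriv riemannZeta ((levLine T : ℂ) + t * I) / (Real.log T : ℂ)) := by
  obtain ⟨L, hLd⟩ : ∃ L, L = Real.log T := ⟨_, rfl⟩
  rw [← hLd] at hL ⊢
  obtain ⟨c, hc⟩ : ∃ c : ℂ, c = (levLine T : ℂ) + t * I := ⟨_, rfl⟩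
  rw [← hc]
  have hsub : Metric.closedBall c (1 / L) ⊆ {z : ℂ | z ≠ 1} := fun z hz h => by
    have h1 : 1 / L ≤ 1 := by rw [div_le_one (by linarith)]; linarith
    rw [Metric.mem_closedBall, dist_eq_norm, h] at hz
    have h2 := ((abs_im_le_norm _).trans hz).trans h1
    simp [hc] at h2
    rw [abs_of_pos (by linarith)] at h2
    linarith
  have hd : DifferentiableOn ℂ riemannZeta {z : ℂ | z ≠ 1} := fun z hz =>
    (differentiableAt_riemannZeta hz).differentiableWithinAt
  have hz : ∀ θ : ℝ, c + ((1 / L : ℝ) : ℂ) * cexp (θ * I) =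
      (1 / 2 : ℂ) + (max t 64 : ℝ) * I + levShift θ / (L : ℂ) := fun θ => by
    rw [max_eq_left (by linarith), hc, levLine, levShift, ← hLd]
    push_cast
    ring
  have key : ∀ b : ℂ, levAvg b 1 L t =
      2 * π * (b * riemannZeta c + deriv riemannZeta c / (L : ℂ)) := fun b => by
    have h := circle_weighted isOpen_ne (show (0 : ℝ) < 1 / L by positivity) hsub hd 1 b
    rw [levAvg]
    simp only [zetaCircle, ← hz]
    rw [h]
    push_cast
    ring
  constructor <;> rw [key] <;> ring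

theorem limitAvg_one : (limitAvg 1 1).re = (2 * π) ^ 2 * levTotal := by
  have h := double_average
  simp only [limitAvg, map_one, one_mul]
  rw [h, show ((2 * π) ^ 2 * (levTotal : ℂ) : ℂ) = (((2 * π) ^ 2 * levTotal : ℝ) : ℂ) by
    push_cast; ring, ofReal_re]

/-- **The mollified mean square of `G`.** -/
theorem lvFn_meanSquare {ε : ℝ} (hε : 0 < ε) : ∀ᶠ T : ℝ in atTop,
    (∫ t in T..2 * T,
      ‖lvFn ((levLine T : ℂ) + t * I) * levMoll T ((levLine T : ℂ) + t * I)‖ ^ 2) ≤
      (levTotal + ε) * T := by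
  obtain ⟨K, hK⟩ : ∃ K, K = 16 * (1 + Real.exp 6) + 1 := ⟨_, rfl⟩
  have hK0 : 0 ≤ K := hK ▸ by positivity
  obtain ⟨J, hJ⟩ : ∃ J, J = |levTotal + ε / 2| + 5832 * K := ⟨_, rfl⟩
  have hev : ∀ᶠ T : ℝ in atTop, 1000 + 2 * J / ε ≤ Real.log T :=
    Real.tendsto_log_atTop.eventually_ge_atTop _
  filter_upwards [levAvg_meanSquare 1 1 (show 0 < (2 * π) ^ 2 * (ε / 2) by positivity),
    levAvg_meanSquare 0 1 (show 0 < (2 * π) ^ 2 * 1 by positivity), hev,
    eventually_ge_atTop (max lvBase 64)] with T h1 h2 hT hTb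
  obtain ⟨hTb, hT64⟩ := max_le_iff.1 hTb
  obtain ⟨L, hLd⟩ : ∃ L, L = Real.log T := ⟨_, rfl⟩
  rw [← hLd] at hT h1 h2
  have hJ0 : 0 ≤ 2 * J / ε := div_nonneg (by rw [hJ]; positivity) hε.le
  have hL : 1000 ≤ L := by linarith
  have hπ2 : (0 : ℝ) < (2 * π) ^ 2 := by positivity
  obtain ⟨c, hcd⟩ : ∃ c : ℝ → ℂ, c = fun t : ℝ => (levLine T : ℂ) + t * I := ⟨_, rfl⟩
  obtain ⟨x, hx⟩ : ∃ x : ℝ → ℂ,
      x = fun t => riemannZeta (c t) + deriv riemannZeta (c t) / (L : ℂ) := ⟨_, rfl⟩
  obtain ⟨y, hy⟩ : ∃ y : ℝ → ℂ, y = fun t => deriv riemannZeta (c t) / (L : ℂ) := ⟨_, rfl⟩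
  obtain ⟨W, hW⟩ : ∃ W : ℝ → ℝ, W = fun t => ‖levPoly T t‖ ^ 2 := ⟨_, rfl⟩
  have hn : ∀ z : ℂ, ‖(2 * π : ℂ) * z‖ ^ 2 = (2 * π) ^ 2 * ‖z‖ ^ 2 := fun z => by
    rw [norm_mul, norm_mul, Complex.norm_two, Complex.norm_real,
      Real.norm_of_nonneg Real.pi_pos.le, mul_pow]
  have hI : ∀ {f : ℝ → ℂ} {b : ℂ}, (∀ t ∈ Set.Icc T (2 * T), levAvg b 1 L t = 2 * π * f t) →
      (∫ t in T..2 * T, ‖levAvg b 1 L t‖ ^ 2 * ‖levPoly T t‖ ^ 2) =
        (2 * π) ^ 2 * ∫ t in T..2 * T, ‖f t‖ ^ 2 * W t := fun {f b} hf => by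
    rw [← intervalIntegral.integral_const_mul]
    refine intervalIntegral.integral_congr fun t ht => ?_
    rw [Set.uIcc_of_le (by linarith)] at ht
    rw [hf t ht, hn, hW]
    ring
  have ha : ∀ t ∈ Set.Icc T (2 * T), levAvg 1 1 L t = 2 * π * x t ∧
      levAvg 0 1 L t = 2 * π * y t := fun t ht => by
    have := levAvg_eq hT64 (by linarith) ht.1
    rw [← hLd] at this
    rw [hx, hy, hcd]
    exact this
  rw [hI fun t ht => (ha t ht).1, limitAvg_one, ← mul_add, mul_assoc] at h1
  replace h1 := le_of_mul_le_mul_left h1 hπ2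
  rw [hI fun t ht => (ha t ht).2] at h2
  have h2' : (∫ t in T..2 * T, ‖y t‖ ^ 2 * W t) ≤ K * T := by
    refine le_of_mul_le_mul_left (h2.trans ?_) hπ2
    rw [← mul_assoc]
    refine mul_le_mul_of_nonneg_right ?_ (by linarith)
    have := ((le_abs_self _).trans (abs_re_le_norm _)).trans (norm_limitAvg_le 0 1)
    simp only [norm_zero, norm_one, zero_add, one_pow, one_mul] at this
    rw [hK]
    linarith
  have hre0 : ∀ t : ℝ, (c t).re = levLine T := fun t => by simp [hcd]
  have him : ∀ t : ℝ, (c t).im = t := fun t => by simp [hcd]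
  have hline : 0 ≤ levLine T ∧ levLine T ≤ 3 := by
    have h : levR / L ≤ 1 / 2 := by rw [div_le_iff₀ (by linarith), levR]; linarith
    have h' : 0 ≤ levR / L := div_nonneg (by rw [levR]; norm_num) (by linarith)
    rw [levLine, ← hLd]
    constructor <;> linarith
  obtain ⟨k, hk⟩ : ∃ k : ℝ → ℂ, k = fun t => (L : ℂ) / lvD (c t) - 1 := ⟨_, rfl⟩
  have hfn : ∀ t ∈ Set.Icc T (2 * T),
      lvFn (c t) = x t + k t * y t ∧ ‖k t‖ ≤ 54 / L := fun t ht => by
    have hb : lvBase ≤ (c t).im := by rw [him]; linarith [ht.1]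
    have hD := FA.Levinson.lvD_ne_zero (by rw [hre0]; exact hline.1)
        (by rw [hre0]; exact hline.2) hb
    have hd : ‖lvD (c t) - (L : ℂ)‖ ≤ 27 := by
      have h := norm_lvD_sub_le (s := c t) (by rw [hre0]; exact hline.1)
        (by rw [hre0]; exact hline.2) (by rw [him]; linarith [ht.1])
      rw [him] at h
      have ht0 : 0 < t := by linarith [ht.1]
      have hl : |Real.log (t / (2 * π)) - L| ≤ 3 := by
        have l1 := Real.log_le_log (by linarith) ht.1
        have l2 := Real.log_le_log ht0 ht.2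
        rw [Real.log_mul two_ne_zero (by linarith)] at l2
        have hπ := Real.pi_gt_three
        have l3 : 0 ≤ Real.log (2 * π) := Real.log_nonneg (by linarith)
        have l4 : Real.log (2 * π) ≤ 2 := by
          rw [Real.log_le_iff_le_exp (by positivity),
              show (2 : ℝ) = 1 + 1 by norm_num, Real.exp_add]
          nlinarith [Real.exp_one_gt_d9, Real.pi_lt_d2]
        rw [Real.log_div ht0.ne' (by positivity), hLd, abs_le]
        constructor <;> linarith [Real.log_two_lt_d9]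
      refine (norm_sub_le_norm_sub_add_norm_sub _ ((Real.log (t / (2 * π)) : ℝ) : ℂ) _).trans ?_
      rw [← ofReal_sub, Complex.norm_real, Real.norm_eq_abs]
      linarith
    have hD2 : L / 2 ≤ ‖lvD (c t)‖ := by
      have h := norm_le_norm_add_norm_sub' (L : ℂ) (lvD (c t))
      rw [norm_sub_rev, Complex.norm_real, Real.norm_of_nonneg (by linarith)] at h
      linarith
    have hLc : (L : ℂ) ≠ 0 := ofReal_ne_zero.2 (by linarith)
    refine ⟨?_, ?_⟩
    · rw [hx, hy, hk, lvFn]
      field_simp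
      ring
    · rw [hk]
      simp only []
      rw [div_sub_one hD, norm_div, norm_sub_rev]
      refine (div_le_div₀ (by norm_num) hd (by linarith) hD2).trans (le_of_eq ?_)
      ring
  have hdz : ContinuousOn (fun t => deriv riemannZeta (c t)) (Set.uIcc T (2 * T)) := fun t ht => by
    rw [Set.uIcc_of_le (by linarith)] at ht
    refine (ContinuousAt.comp' ?_ (by rw [hcd]; fun_prop)).continuousWithinAt
    refine (FA.Levinson.analyticAt_zeta fun h => ?_).deriv.continuousAt
    have := congrArg Complex.im h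
    rw [him, one_im] at this
    linarith [ht.1]
  have hzc : ContinuousOn (fun t => riemannZeta (c t)) (Set.uIcc T (2 * T)) := fun t ht => by
    rw [Set.uIcc_of_le (by linarith)] at ht
    refine (ContinuousAt.comp' (differentiableAt_riemannZeta fun h => ?_).continuousAt
      (by rw [hcd]; fun_prop)).continuousWithinAt
    have := congrArg Complex.im h
    rw [him, one_im] at this
    linarith [ht.1]
  have hWc : Continuous W := hW ▸ (continuous_mollPoly _ _).norm.pow 2
  have hyc : ContinuousOn y (Set.uIcc T (2 * T)) := hy ▸ hdz.div_const _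
  have hxc : ContinuousOn x (Set.uIcc T (2 * T)) := hx ▸ hzc.add (hdz.div_const _)
  have ix : IntervalIntegrable (fun t => (1 + 1 / L) * (‖x t‖ ^ 2 * W t)) volume T (2 * T) :=
    (continuousOn_const.mul ((hxc.norm.pow 2).mul hWc.continuousOn)).intervalIntegrable
  have iy : IntervalIntegrable (fun t => (1 + L) * (54 / L) ^ 2 * (‖y t‖ ^ 2 * W t))
      volume T (2 * T) :=
    (continuousOn_const.mul ((hyc.norm.pow 2).mul hWc.continuousOn)).intervalIntegrable
  refine (intervalIntegral.integral_mono_on (by linarith) ?_ (ix.add iy) fun t ht => ?_).trans ?_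
  · refine ContinuousOn.intervalIntegrable ((ContinuousOn.mul ?_ ?_).norm.pow 2)
    · intro t ht
      rw [Set.uIcc_of_le (by linarith)] at ht
      refine (ContinuousAt.comp' (g := lvFn) (FA.Levinson.analyticAt_lvFn ?_ ?_ ?_).continuousAt
        (by fun_prop)).continuousWithinAt
      · simpa using hline.1
      · simpa using hline.2
      · simp; linarith [ht.1]
    · simp only [levMoll_line]
      exact (continuous_mollPoly _ _).continuousOn
  · rw [levMoll_line, norm_mul, mul_pow]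
    obtain ⟨e, hk'⟩ := hfn t ht
    simp only [hcd] at e
    rw [e, ← mul_assoc, ← mul_assoc _ _ (W t), ← add_mul, hW]
    refine mul_le_mul_of_nonneg_right ?_ (by positivity)
    have hL0 : 0 < L := by linarith
    have hL0' : (0 : ℝ) ≤ 1 + L := by linarith
    have hn2 := norm_add_le (x t) (k t * y t)
    rw [norm_mul] at hn2
    obtain ⟨u, hu⟩ : ∃ u, u = 54 / L * ‖y t‖ := ⟨_, rfl⟩
    have hu0 : 0 ≤ u := hu ▸ by positivity
    have hn3 : ‖x t + k t * y t‖ ≤ ‖x t‖ + u :=
      hn2.trans (add_le_add le_rfl (hu ▸ mul_le_mul_of_nonneg_right hk' (norm_nonneg _)))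
    refine (pow_le_pow_left₀ (norm_nonneg _) hn3 2).trans ?_
    rw [show (1 + L) * (54 / L) ^ 2 * ‖y t‖ ^ 2 = (1 + L) * u ^ 2 by rw [hu]; ring]
    have hcancel : 1 / L * L = 1 := by field_simp
    have : 0 ≤ 1 / L * (‖x t‖ - L * u) ^ 2 := by positivity
    nlinarith
  rw [intervalIntegral.integral_add ix iy, intervalIntegral.integral_const_mul,
    intervalIntegral.integral_const_mul]
  refine (add_le_add (mul_le_mul_of_nonneg_left h1 (by positivity))
    (mul_le_mul_of_nonneg_left h2' (by positivity))).trans ?_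
  rw [show (1 + 1 / L) * ((levTotal + ε / 2) * T) + (1 + L) * (54 / L) ^ 2 * (K * T) =
    ((1 + 1 / L) * (levTotal + ε / 2) + (1 + L) * (54 / L) ^ 2 * K) * T by ring]
  refine mul_le_mul_of_nonneg_right ?_ (by linarith)
  have hL0 : 0 < L := by linarith
  have q1 : J / L ≤ ε / 2 := by
    rw [div_le_iff₀ hL0]
    have := (div_le_iff₀ hε).1 (show 2 * J / ε ≤ L by linarith)
    linarith
  have q2 : (1 + L) * (54 / L) ^ 2 * K ≤ 5832 * K / L := by
    rw [div_pow, mul_div_assoc', div_mul_eq_mul_div, div_le_div_iff₀ (by positivity) hL0]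
    nlinarith [mul_nonneg (mul_nonneg hK0 hL0.le) (show 0 ≤ L - 1 by linarith)]
  have q3 : 1 / L * (levTotal + ε / 2) ≤ |levTotal + ε / 2| / L := by
    rw [one_div_mul_eq_div]; exact div_le_div_of_nonneg_right (le_abs_self _) hL0.le
  rw [hJ, add_div] at q1
  linarith

end FA.LevinsonThird

end
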