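import Fermat.Agent.MoebiusTheta.Harmonic
import Fermat.Agent.Chen.PrimeSums
import Mathlib.NumberTheory.Harmonic.EulerMascheroni

/-!
# `∑_{n ≤ u} μ n / n · log (u / n) → 1`

From `∑ μ n / n = 0` and the identity `∑_{n ≤ N} μ n / n · H ⌊N / n⌋ = 1`.
-/

set_option autoImplicit false

noncomputable section

namespace FA.LevinsonThird

open Finset Filter
open scoped Topology ArithmeticFunction.Moebius

/-- `∑_{n ≤ N} μ n / n`. -/
def mobPartial (N : ℕ) : ℝ := ∑ n ∈ Icc 1 N, (μ n : ℝ) / n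

/-- `∑_{n ≤ e^v} μ n / n · (v - log n)`. -/
def mobLog (v : ℝ) : ℝ := ∑ n ∈ Icc 1 ⌊Real.exp v⌋₊, (μ n : ℝ) / n * (v - Real.log n)

theorem sum_moebius_harmonic {N : ℕ} (hN : 1 ≤ N) :
    ∑ n ∈ Icc 1 N, (μ n : ℝ) / n * (harmonic (N / n) : ℝ) = 1 := by
  induction N, hN using Nat.le_induction with
  | base => simp
  | succ k hk ih =>
    have hstep : ∀ n ∈ Icc 1 (k + 1), (harmonic ((k + 1) / n) : ℝ) =
        harmonic (k / n) + if n ∣ k + 1 then (n : ℝ) / (k + 1) else 0 := fun n hn => by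
      rw [Nat.succ_div]
      split_ifs with hd
      · rw [harmonic_succ]
        push_cast
        obtain ⟨q, hq⟩ := hd
        have h1 : k / n + 1 = q := by
          have := Nat.succ_div_of_dvd (show n ∣ k + 1 from ⟨q, hq⟩)
          rw [hq, Nat.mul_div_cancel_left _ (mem_Icc.1 hn).1] at this
          omega
        have h2 : ((k : ℝ) + 1) = (n : ℝ) * ((k / n : ℕ) + 1 : ℝ) := by
          rw [← h1] at hq
          exact_mod_cast hq
        have hn0 : (n : ℝ) ≠ 0 := Nat.cast_ne_zero.2 (by rw [mem_Icc] at hn; omega)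
        rw [h2, div_mul_cancel_left₀ hn0]
      · simp
    rw [sum_congr rfl fun n hn => by rw [hstep n hn, mul_add], sum_add_distrib,
      sum_Icc_succ_top (by omega), Nat.div_eq_of_lt (show k < k + 1 by omega), harmonic_zero,
      Rat.cast_zero, mul_zero, add_zero, ih, add_eq_left]
    have h0 : ∑ d ∈ (k + 1).divisors, μ d = 0 := by
      rw [← ArithmeticFunction.coe_mul_zeta_apply, ArithmeticFunction.moebius_mul_coe_zeta,
        ArithmeticFunction.one_apply_ne (by omega)]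
    simp only [mul_ite, mul_zero, ← sum_filter]
    rw [show (Icc 1 (k + 1)).filter (fun n => n ∣ k + 1) = (k + 1).divisors by
      ext n
      simp only [mem_filter, mem_Icc, Nat.mem_divisors, ne_eq, Nat.succ_ne_zero, not_false_eq_true,
        and_true]
      exact ⟨fun h => h.2, fun h => ⟨⟨Nat.pos_of_dvd_of_pos h (by omega),
        Nat.le_of_dvd (by omega) h⟩, h⟩⟩]
    rw [sum_congr rfl fun n hn => show (μ n : ℝ) / n * ((n : ℝ) / (k + 1)) = (μ n : ℝ) / (k + 1) by
      rw [div_mul_div_comm, mul_comm (n : ℝ), mul_div_mul_right _ _ (Nat.cast_ne_zero.2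
        (Nat.pos_of_mem_divisors hn).ne')]]
    rw [← sum_div, ← Int.cast_sum, h0, Int.cast_zero, zero_div]

theorem mobLog_log {N : ℕ} (hN : 1 ≤ N) :
    mobLog (Real.log N) = ∑ n ∈ Icc 1 N, (μ n : ℝ) / n * Real.log ((N : ℝ) / n) := by
  rw [mobLog, Real.exp_log (Nat.cast_pos.2 hN), Nat.floor_natCast]
  refine sum_congr rfl fun n hn => ?_
  rw [Real.log_div (Nat.cast_ne_zero.2 (by omega))
    (Nat.cast_ne_zero.2 (by rw [mem_Icc] at hn; omega))]

/-- `H ⌊N / n⌋ = log (N / n) + γ + O (n / N)`. -/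
theorem abs_harmonic_div_sub_le {N n : ℕ} (hn : 1 ≤ n) (hnN : n ≤ N) :
    |(harmonic (N / n) : ℝ) - Real.log ((N : ℝ) / n) - Real.eulerMascheroniConstant| ≤
      2 * n / N := by
  obtain ⟨k, hk⟩ : ∃ k, k = N / n := ⟨_, rfl⟩
  have hk1 : 1 ≤ k := hk ▸ (Nat.one_le_div_iff hn).2 hnN
  have hk0 : (0 : ℝ) < k := Nat.cast_pos.2 hk1
  have hn0 : (0 : ℝ) < n := Nat.cast_pos.2 hn
  have hN0 : (0 : ℝ) < N := Nat.cast_pos.2 (by omega)
  have h1 := Real.eulerMascheroniSeq_lt_eulerMascheroniConstant k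
  have h2 := Real.eulerMascheroniConstant_lt_eulerMascheroniSeq' k
  rw [Real.eulerMascheroniSeq] at h1
  rw [Real.eulerMascheroniSeq', if_neg (by omega)] at h2
  rw [← hk]
  have hlo : (k : ℝ) * n ≤ N := by
    exact_mod_cast hk ▸ Nat.div_mul_le_self N n
  have hhi : (N : ℝ) < ((k : ℝ) + 1) * n := by
    have := Nat.lt_div_mul_add (a := N) hn
    rw [← hk] at this
    rw [add_mul, one_mul]
    exact_mod_cast this
  have h3 : Real.log ((N : ℝ) / n) ≤ Real.log ((k : ℝ) + 1) :=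
    Real.log_le_log (by positivity) ((div_le_iff₀ hn0).2 hhi.le)
  have h4 : Real.log k ≤ Real.log ((N : ℝ) / n) :=
    Real.log_le_log hk0 ((le_div_iff₀ hn0).2 hlo)
  have h5 : Real.log ((k : ℝ) + 1) - Real.log k ≤ 1 / k := by
    rw [← Real.log_div (by positivity) hk0.ne']
    refine (Real.log_le_sub_one_of_pos (by positivity)).trans (le_of_eq ?_)
    field_simp
    ring
  have h6 : 1 / (k : ℝ) ≤ 2 * n / N := by
    rw [div_le_div_iff₀ hk0 hN0]
    nlinarith [show (1 : ℝ) ≤ k from Nat.one_le_cast.2 hk1]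
  rw [abs_le]
  constructor <;> linarith

theorem abs_moebius_div_le (n : ℕ) : |(μ n : ℝ) / n| ≤ 1 / n := by
  rw [abs_div, Nat.abs_cast]
  refine div_le_div_of_nonneg_right ?_ (Nat.cast_nonneg n)
  exact_mod_cast ArithmeticFunction.abs_moebius_le_one

theorem abs_sum_antitone_le {g v : ℕ → ℝ} {E : ℝ} {m n : ℕ} (hmn : m < n)
    (hE : ∀ i, m < i → i ≤ n → |∑ j ∈ Ioc m i, g j| ≤ E)
    (hv : ∀ i, m < i → i < n → v (i + 1) ≤ v i) (hv0 : 0 ≤ v n) :
    |∑ j ∈ Ioc m n, g j * v j| ≤ E * v (m + 1) := by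
  have h := FA.Chen.norm_sum_mul_antitone_le (g := fun j => (g j : ℂ)) hmn (fun i h1 h2 => by
    rw [← Complex.ofReal_sum, Complex.norm_real, Real.norm_eq_abs]
    exact hE i h1 h2) hv hv0
  simp only [← Complex.ofReal_mul, ← Complex.ofReal_sum, Complex.norm_real, Real.norm_eq_abs] at h
  exact h

theorem sum_Icc_one_split {f : ℕ → ℝ} {m n : ℕ} (h : m ≤ n) :
    ∑ j ∈ Icc 1 n, f j = ∑ j ∈ Icc 1 m, f j + ∑ j ∈ Ioc m n, f j := by
  rw [← Icc_add_one_left_eq_Ioc m, ← sum_union (disjoint_left.2 fun a h1 h2 => by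
    rw [mem_Icc] at h1 h2; omega)]
  congr 1
  ext a
  simp only [mem_union, mem_Icc]
  omega

theorem tendsto_mobLog_nat :
    Tendsto (fun N : ℕ => mobLog (Real.log N)) atTop (𝓝 1) := by
  rw [Metric.tendsto_atTop]
  intro ε hε
  obtain ⟨γ, hγ⟩ : ∃ γ, γ = Real.eulerMascheroniConstant := ⟨_, rfl⟩
  obtain ⟨K, hK⟩ : ∃ K : ℕ, 8 / ε + 1 < K := exists_nat_gt _
  have hK1 : 1 ≤ K := by
    refine Nat.cast_pos (α := ℝ).1 ?_
    have : 0 < 8 / ε := by positivity
    linarith
  have hKε : 2 / (K : ℝ) ≤ ε / 4 := by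
    rw [div_le_iff₀ (Nat.cast_pos.2 hK1)]
    have := (div_lt_iff₀ hε).1 (lt_of_le_of_lt (le_add_of_nonneg_right zero_le_one) hK)
    linarith
  obtain ⟨D, hD⟩ : ∃ D, D = (harmonic K : ℝ) + Real.log K + 2 * |γ| + 1 := ⟨_, rfl⟩
  have hH0 : ∀ k : ℕ, (0 : ℝ) ≤ harmonic k := fun k => by
    rw [harmonic]; push_cast; positivity
  have hD0 : 0 < D := by
    have := hH0 K
    have := Real.log_natCast_nonneg K
    have := abs_nonneg γ
    rw [hD]
    linarith
  obtain ⟨δ, hδ, hδε⟩ : ∃ δ, 0 < δ ∧ 2 * δ * D ≤ ε / 4 :=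
    ⟨ε / (8 * D), by positivity, le_of_eq (by field_simp; ring)⟩
  obtain ⟨J, hJ⟩ := Metric.tendsto_atTop.1 FA.MoebiusTheta.tendsto_moebius_harmonic δ hδ
  have hm : ∀ i, J ≤ i → |mobPartial i| ≤ δ := fun i hi => by
    have := hJ i hi
    rw [Real.dist_eq, sub_zero] at this
    exact this.le
  refine ⟨K * (J + 1) + K, fun N hN => ?_⟩
  obtain ⟨m, hmdef⟩ : ∃ m, m = N / K := ⟨_, rfl⟩
  have hmJ : J ≤ m := hmdef ▸ (Nat.le_div_iff_mul_le hK1).2 (by nlinarith)
  have hN1 : 1 ≤ N := le_trans (le_trans hK1 (Nat.le_add_left _ _)) hN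
  have hN0 : (0 : ℝ) < N := Nat.cast_pos.2 hN1
  have hmN : m ≤ N := hmdef ▸ Nat.div_le_self _ _
  obtain ⟨g, hg⟩ : ∃ g : ℕ → ℝ, g = fun n => (μ n : ℝ) / n := ⟨_, rfl⟩
  obtain ⟨r, hr⟩ : ∃ r : ℕ → ℝ, r = fun n =>
      (harmonic (N / n) : ℝ) - Real.log ((N : ℝ) / n) - γ := ⟨_, rfl⟩
  have hid : ∑ n ∈ Icc 1 N, g n * r n = 1 - mobLog (Real.log N) - mobPartial N * γ := by
    rw [mobLog_log hN1, mobPartial, sum_mul, ← sum_moebius_harmonic hN1, ← sum_sub_distrib,
      ← sum_sub_distrib]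
    exact sum_congr rfl fun n _ => by rw [hg, hr]; ring
  have hlow : |∑ n ∈ Icc 1 m, g n * r n| ≤ ε / 4 := by
    refine (abs_sum_le_sum_abs _ _).trans ((sum_le_sum (g := fun _ => 2 / (N : ℝ))
      fun n hn => ?_).trans ?_)
    · rw [mem_Icc] at hn
      rw [abs_mul, hg, hr]
      refine (mul_le_mul (abs_moebius_div_le n) (hγ ▸ abs_harmonic_div_sub_le hn.1 (hn.2.trans hmN))
        (abs_nonneg _) (by positivity)).trans (le_of_eq ?_)
      have hn0 : (n : ℝ) ≠ 0 := Nat.cast_ne_zero.2 (by omega)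
      field_simp
    · simp only [sum_const, Nat.card_Icc, add_tsub_cancel_right, nsmul_eq_mul]
      refine le_trans ?_ hKε
      rw [mul_div_assoc', div_le_div_iff₀ hN0 (Nat.cast_pos.2 hK1)]
      have : (m : ℝ) * K ≤ N := by exact_mod_cast hmdef ▸ Nat.div_mul_le_self N K
      nlinarith
  have hhigh : |∑ n ∈ Ioc m N, g n * r n| ≤ ε / 4 := by
    rcases eq_or_lt_of_le hmN with he | hlt
    · rw [he, Ioc_self, sum_empty, abs_zero]; linarith
    have hE : ∀ i, m < i → i ≤ N → |∑ j ∈ Ioc m i, g j| ≤ 2 * δ := fun i h1 _ => by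
      have e : mobPartial i = mobPartial m + ∑ j ∈ Ioc m i, g j := by
        rw [hg]; exact sum_Icc_one_split h1.le
      rw [show ∑ j ∈ Ioc m i, g j = mobPartial i - mobPartial m by rw [e]; ring]
      exact (abs_sub _ _).trans (by linarith [hm i (hmJ.trans h1.le), hm m hmJ])
    have hdiv : N / (m + 1) ≤ K := by
      have h := Nat.lt_div_mul_add (a := N) hK1
      rw [← hmdef] at h
      exact Nat.div_le_of_le_mul (by nlinarith)
    have hmono : ∀ a b : ℕ, a ≤ b → (harmonic a : ℝ) ≤ harmonic b := fun a b hab => by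
      rw [harmonic, harmonic]
      push_cast
      exact sum_le_sum_of_subset_of_nonneg (range_mono hab) fun _ _ _ => by positivity
    have h1 : |∑ j ∈ Ioc m N, g j * (harmonic (N / j) : ℝ)| ≤ 2 * δ * harmonic K := by
      refine (abs_sum_antitone_le (v := fun j => (harmonic (N / j) : ℝ)) hlt hE
        (fun i hi _ => hmono _ _ (Nat.div_le_div_left (by omega) (by omega))) (hH0 _)).trans ?_
      exact mul_le_mul_of_nonneg_left (hmono _ _ hdiv) (by linarith)
    have h2 : |∑ j ∈ Ioc m N, g j * Real.log ((N : ℝ) / j)| ≤ 2 * δ * Real.log K := by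
      refine (abs_sum_antitone_le (v := fun j : ℕ => Real.log ((N : ℝ) / j)) hlt hE
        (fun i hi _ => ?_) (by rw [div_self hN0.ne', Real.log_one])).trans ?_
      · have hi0 : (0 : ℝ) < i := Nat.cast_pos.2 (by omega)
        push_cast
        refine Real.log_le_log (by positivity)
          (div_le_div_of_nonneg_left hN0.le hi0 (by linarith))
      · refine mul_le_mul_of_nonneg_left (Real.log_le_log (by positivity) ?_) (by linarith)
        rw [div_le_iff₀ (by positivity)]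
        have h := Nat.lt_div_mul_add (a := N) hK1
        rw [← hmdef] at h
        exact_mod_cast (show N ≤ K * (m + 1) by nlinarith)
    have e : ∑ n ∈ Ioc m N, g n * r n = ∑ j ∈ Ioc m N, g j * (harmonic (N / j) : ℝ) -
        ∑ j ∈ Ioc m N, g j * Real.log ((N : ℝ) / j) - (∑ j ∈ Ioc m N, g j) * γ := by
      rw [sum_mul, ← sum_sub_distrib, ← sum_sub_distrib]
      exact sum_congr rfl fun n _ => by rw [hr]; ring
    have h3 : |(∑ j ∈ Ioc m N, g j) * γ| ≤ 2 * δ * |γ| := by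
      rw [abs_mul]
      exact mul_le_mul_of_nonneg_right (hE N hlt le_rfl) (abs_nonneg _)
    rw [e]
    refine (abs_sub _ _).trans ((add_le_add ((abs_sub _ _).trans (add_le_add h1 h2)) h3).trans ?_)
    refine le_trans ?_ hδε
    rw [hD]
    nlinarith [mul_nonneg hδ.le (abs_nonneg γ)]
  have hgam : |mobPartial N * γ| ≤ ε / 4 := by
    rw [abs_mul]
    refine (mul_le_mul_of_nonneg_right (hm N (hmJ.trans hmN)) (abs_nonneg _)).trans ?_
    refine le_trans ?_ hδε
    rw [hD]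
    nlinarith [hH0 K, Real.log_natCast_nonneg K, abs_nonneg γ,
      mul_nonneg hδ.le (hH0 K), mul_nonneg hδ.le (Real.log_natCast_nonneg K)]
  rw [sum_Icc_one_split hmN] at hid
  rw [Real.dist_eq, show mobLog (Real.log N) - 1 = -(∑ n ∈ Icc 1 m, g n * r n) -
    (∑ n ∈ Ioc m N, g n * r n) - mobPartial N * γ by linarith]
  refine lt_of_le_of_lt ((abs_sub _ _).trans (add_le_add ((abs_sub _ _).trans
    (add_le_add (le_of_eq (abs_neg _)) le_rfl)) le_rfl)) ?_
  linarith

theorem tendsto_mobLog : Tendsto mobLog atTop (𝓝 1) := by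
  have hfl : Tendsto (fun v : ℝ => ⌊Real.exp v⌋₊) atTop atTop :=
    tendsto_nat_floor_atTop.comp Real.tendsto_exp_atTop
  have h1 := tendsto_mobLog_nat.comp hfl
  have h2 : Tendsto (fun v : ℝ => mobPartial ⌊Real.exp v⌋₊) atTop (𝓝 0) :=
    FA.MoebiusTheta.tendsto_moebius_harmonic.comp hfl
  have h3 : Tendsto (fun v : ℝ => mobLog v - mobLog (Real.log (⌊Real.exp v⌋₊ : ℕ))) atTop
      (𝓝 0) := by
    refine squeeze_zero_norm' ?_ (by simpa using h2.abs)
    filter_upwards [eventually_ge_atTop (0 : ℝ)] with v hv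
    obtain ⟨N, hN⟩ : ∃ N, N = ⌊Real.exp v⌋₊ := ⟨_, rfl⟩
    have hN1 : 1 ≤ N := hN ▸ Nat.le_floor (by simpa using Real.one_le_exp hv)
    have hN0 : (0 : ℝ) < N := Nat.cast_pos.2 hN1
    have hle : (N : ℝ) ≤ Real.exp v := hN ▸ Nat.floor_le (Real.exp_pos v).le
    have hlt : Real.exp v < (N : ℝ) + 1 := hN ▸ Nat.lt_floor_add_one _
    have ha : Real.log N ≤ v := (Real.log_le_iff_le_exp hN0).2 hle
    have hb : v - Real.log N ≤ 1 := by
      have h := Real.log_le_log (Real.exp_pos v) hlt.le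
      rw [Real.log_exp] at h
      have h' : Real.log ((N : ℝ) + 1) ≤ Real.log N + 1 := by
        rw [← sub_le_iff_le_add', ← Real.log_div (by positivity) hN0.ne']
        refine (Real.log_le_sub_one_of_pos (by positivity)).trans ?_
        rw [add_div, div_self hN0.ne', add_sub_cancel_left, div_le_one hN0]
        exact Nat.one_le_cast.2 hN1
      linarith
    have e : mobLog v - mobLog (Real.log N) = (v - Real.log N) * mobPartial N := by
      simp only [mobLog, mobPartial]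
      rw [← hN, Real.exp_log hN0, Nat.floor_natCast, ← sum_sub_distrib, mul_sum]
      exact sum_congr rfl fun n _ => by ring
    rw [← hN, Real.norm_eq_abs, e, abs_mul, abs_of_nonneg (sub_nonneg.2 ha)]
    exact mul_le_of_le_one_left (abs_nonneg _) hb
  have := h1.add h3
  simp only [Function.comp_apply, add_sub_cancel, add_zero] at this
  exact this

theorem exists_mobLog_bound : ∃ B, 0 ≤ B ∧ ∀ v, 0 ≤ v → |mobLog v - 1| ≤ B := by
  obtain ⟨V, hV⟩ := eventually_atTop.1 (Metric.tendsto_nhds.1 tendsto_mobLog 1 one_pos)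
  refine ⟨Real.exp (max V 0) * max V 0 + 2,
    add_nonneg (mul_nonneg (Real.exp_pos _).le (le_max_right _ _)) zero_le_two, fun v hv => ?_⟩
  have hW : 0 ≤ max V 0 := le_max_right _ _
  have hprod : 0 ≤ Real.exp (max V 0) * max V 0 := mul_nonneg (Real.exp_pos _).le hW
  rcases le_or_gt V v with h | h
  · have := hV v h
    rw [Real.dist_eq] at this
    linarith
  · have hvW : v ≤ max V 0 := h.le.trans (le_max_left _ _)
    refine (abs_sub _ _).trans (add_le_add ?_ (by norm_num))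
    refine (abs_sum_le_sum_abs _ _).trans
        ((sum_le_card_nsmul _ _ (max V 0) fun n hn => ?_).trans ?_)
    · rw [mem_Icc] at hn
      have hle : (n : ℝ) ≤ Real.exp v :=
        le_trans (Nat.cast_le.2 hn.2) (Nat.floor_le (Real.exp_pos v).le)
      have hl : Real.log n ≤ v :=
        (Real.log_le_iff_le_exp (Nat.cast_pos.2 hn.1)).2 hle
      rw [abs_mul]
      refine (mul_le_of_le_one_left (abs_nonneg _) ((abs_moebius_div_le n).trans ?_)).trans ?_
      · rw [div_le_one (Nat.cast_pos.2 hn.1)]; exact Nat.one_le_cast.2 hn.1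
      · rw [abs_of_nonneg (by linarith)]
        linarith [Real.log_natCast_nonneg n]
    · simp only [Nat.card_Icc, add_tsub_cancel_right, nsmul_eq_mul]
      exact mul_le_mul_of_nonneg_right ((Nat.floor_le (Real.exp_pos v).le).trans
        (Real.exp_le_exp.2 hvW)) hW

end FA.LevinsonThird

end
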