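import Fermat.Agent.LevinsonThird.MoebiusLog
import Mathlib.Analysis.SpecialFunctions.Integrals.Basic

/-!
# `∑ μ g g^(-1-β) log (x / g)` over `g ≤ x` free of given primes

It is `∏ p/(p-1) · (1 + β log x)` up to `∏ (1 + 8 p^(-1/2)) · (ε + C (|β| + x^(-1/4)))`: first
without primes, by Taylor's formula at `log x`, then one prime at a time.
-/

set_option autoImplicit false

noncomputable section

namespace FA.LevinsonThird

open Finset Filter MeasureTheory Complex
open scoped Topology ArithmeticFunction.Moebius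

/-- `∑ μ g g^(-1-β) (log x - log g)` over `g ≤ x` with no prime factor in `s`. -/
def twistMob (β : ℂ) (s : Finset ℕ) (x : ℝ) : ℂ :=
  ∑ g ∈ (Icc 1 ⌊x⌋₊).filter (fun g => ∀ p ∈ s, ¬p ∣ g),
    (μ g : ℂ) * cexp (-(1 + β) * (Real.log g : ℂ)) * ((Real.log x - Real.log g : ℝ) : ℂ)

/-- `∏ p / (p - 1)`. -/
def primeModel (s : Finset ℕ) : ℝ := ∏ p ∈ s, (p : ℝ) / ((p : ℝ) - 1)

/-- `∏ (1 + 8 / √p)`. -/
def primeWeight (s : Finset ℕ) : ℝ := ∏ p ∈ s, (1 + 8 / √(p : ℝ))

theorem one_le_primeWeight (s : Finset ℕ) : 1 ≤ primeWeight s :=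
  Finset.one_le_prod fun p _ => le_add_of_nonneg_right (by positivity)

theorem primeModel_bounds {s : Finset ℕ} (hs : ∀ p ∈ s, p.Prime) :
    0 ≤ primeModel s ∧ primeModel s ≤ primeWeight s := by
  have h : ∀ p ∈ s, 0 ≤ (p : ℝ) / ((p : ℝ) - 1) ∧
      (p : ℝ) / ((p : ℝ) - 1) ≤ 1 + 8 / √(p : ℝ) := fun p hp => by
    have hp2 : (2 : ℝ) ≤ p := Nat.ofNat_le_cast.2 (hs p hp).two_le
    refine ⟨div_nonneg (by linarith) (by linarith), ?_⟩
    have hsq := Real.mul_self_sqrt (show (0 : ℝ) ≤ p by linarith)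
    have h1 : 1 ≤ √(p : ℝ) := Real.one_le_sqrt.2 (by linarith)
    rw [div_le_iff₀ (by linarith), add_mul, one_mul, div_mul_eq_mul_div, ← sub_le_iff_le_add',
      le_div_iff₀ (by linarith)]
    nlinarith
  exact ⟨prod_nonneg fun p hp => (h p hp).1, Finset.prod_le_prod (fun p hp => (h p hp).1)
    fun p hp => (h p hp).2⟩

theorem moebius_cexp_eq (g : ℕ) (hg : 1 ≤ g) (β : ℂ) :
    (μ g : ℂ) * cexp (-(1 + β) * (Real.log g : ℂ)) =
      (((μ g : ℝ) / g : ℝ) : ℂ) * cexp (-β * (Real.log g : ℂ)) := by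
  have hg0 : (0 : ℝ) < g := Nat.cast_pos.2 hg
  rw [show -(1 + β) * (Real.log g : ℂ) = (-(Real.log g) : ℝ) + -β * (Real.log g : ℂ) by
      push_cast; ring, Complex.exp_add, ← Complex.ofReal_exp, Real.exp_neg, Real.exp_log hg0]
  push_cast
  ring

theorem taylor_weight (β : ℂ) (X w : ℝ) :
    cexp (-β * w) * ((X - w : ℝ) : ℂ) = cexp (-β * X) * ((X - w : ℝ) : ℂ) +
      ∫ v in w..X, ((v - w : ℝ) : ℂ) *
        (cexp (-β * v) * (2 * β + β ^ 2 * ((X - v : ℝ) : ℂ))) := by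
  have hlin : ∀ c v : ℝ, HasDerivAt (fun u : ℝ => ((u - c : ℝ) : ℂ)) 1 v := fun c v =>
    ((hasDerivAt_id' v).sub_const c).ofReal_comp
  have hrev : ∀ v : ℝ, HasDerivAt (fun u : ℝ => ((X - u : ℝ) : ℂ)) (-1) v := fun v => by
    simpa using ((hasDerivAt_id' v).const_sub X).ofReal_comp
  have hd : ∀ v : ℝ, HasDerivAt
      (fun u : ℝ => ((u - w : ℝ) : ℂ) * (-cexp (-β * u) * (1 + β * ((X - u : ℝ) : ℂ))) -
        cexp (-β * u) * ((X - u : ℝ) : ℂ))
      (((v - w : ℝ) : ℂ) * (cexp (-β * v) * (2 * β + β ^ 2 * ((X - v : ℝ) : ℂ)))) v := fun v => by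
    have he : HasDerivAt (fun u : ℝ => cexp (-β * u)) (cexp (-β * v) * -β) v := by
      simpa using ((hasDerivAt_id' v).ofReal_comp.const_mul (-β)).cexp
    exact (((hlin w v).mul (he.neg.mul (((hrev v).const_mul β).const_add 1))).sub
      (he.mul (hrev v))).congr_deriv
        (by simp only [Pi.mul_apply, Pi.neg_apply]; push_cast; ring)
  rw [intervalIntegral.integral_eq_sub_of_hasDerivAt (fun v _ => hd v)
    ((Continuous.intervalIntegrable (by fun_prop) _ _))]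
  simp only [sub_self, ofReal_zero, zero_mul, mul_zero, add_zero, zero_sub, sub_zero]
  ring

theorem twistMob_empty_eq (β : ℂ) {X : ℝ} (hX : 0 ≤ X) :
    twistMob β ∅ (Real.exp X) = cexp (-β * X) * (mobLog X : ℂ) +
      ∫ v in (0 : ℝ)..X, cexp (-β * v) * (2 * β + β ^ 2 * ((X - v : ℝ) : ℂ)) * (mobLog v : ℂ) := by
  obtain ⟨N, hN⟩ : ∃ N, N = ⌊Real.exp X⌋₊ := ⟨_, rfl⟩
  obtain ⟨f, hf⟩ : ∃ f : ℝ → ℂ,
      f = fun v : ℝ => cexp (-β * v) * (2 * β + β ^ 2 * ((X - v : ℝ) : ℂ)) := ⟨_, rfl⟩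
  have hfc : Continuous f := hf ▸ (by fun_prop)
  have hlog : ∀ g ∈ Icc 1 N, Real.log g ∈ Set.Icc 0 X := fun g hg => by
    rw [mem_Icc] at hg
    exact ⟨Real.log_natCast_nonneg g, (Real.log_le_iff_le_exp (Nat.cast_pos.2 hg.1)).2
      (le_trans (Nat.cast_le.2 hg.2) (hN ▸ Nat.floor_le (Real.exp_pos X).le))⟩
  have hmob : ∀ v ∈ Set.uIcc 0 X, mobLog v =
      ∑ g ∈ Icc 1 N, (μ g : ℝ) / g * max (v - Real.log g) 0 := fun v hv => by
    rw [Set.uIcc_of_le hX] at hv
    have hsub : Icc 1 ⌊Real.exp v⌋₊ ⊆ Icc 1 N :=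
      Icc_subset_Icc le_rfl (hN ▸ Nat.floor_le_floor (Real.exp_le_exp.2 hv.2))
    rw [mobLog, ← sum_subset hsub fun g hg hg' => ?_]
    · refine sum_congr rfl fun g hg => ?_
      rw [mem_Icc] at hg
      rw [max_eq_left]
      have := (Real.log_le_iff_le_exp (Nat.cast_pos.2 hg.1)).2
        (le_trans (Nat.cast_le.2 hg.2) (Nat.floor_le (Real.exp_pos v).le))
      linarith
    · rw [mem_Icc] at hg
      simp only [mem_Icc, not_and, not_le] at hg'
      have h := Nat.lt_of_floor_lt (hg' hg.1)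
      have := (Real.lt_log_iff_exp_lt (Nat.cast_pos.2 hg.1)).2 h
      rw [max_eq_right (by linarith), mul_zero]
  have hint : ∀ g : ℕ, IntervalIntegrable (fun v : ℝ => (((μ g : ℝ) / g : ℝ) : ℂ) *
      (((max (v - Real.log g) 0 : ℝ) : ℂ) * f v)) volume 0 X := fun g =>
    (Continuous.intervalIntegrable (by fun_prop) _ _)
  have e : (∫ v in (0 : ℝ)..X, f v * (mobLog v : ℂ)) = ∑ g ∈ Icc 1 N, ∫ v in (0 : ℝ)..X,
      (((μ g : ℝ) / g : ℝ) : ℂ) * (((max (v - Real.log g) 0 : ℝ) : ℂ) * f v) := by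
    rw [← intervalIntegral.integral_finsetSum fun g _ => hint g]
    refine intervalIntegral.integral_congr fun v hv => ?_
    rw [hmob v hv, ofReal_sum, mul_sum]
    refine sum_congr rfl fun g _ => ?_
    push_cast
    ring
  simp only [hf] at e
  rw [e, mobLog, ← hN, ofReal_sum, mul_sum, ← sum_add_distrib, twistMob, Real.log_exp, ← hN]
  simp only [Finset.notMem_empty, IsEmpty.forall_iff, implies_true, filter_true]
  refine sum_congr rfl fun g hg => ?_
  obtain ⟨h0, h1⟩ := hlog g hg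
  rw [moebius_cexp_eq g (mem_Icc.1 hg).1 β, intervalIntegral.integral_const_mul,
    mul_assoc, taylor_weight β X (Real.log g), ofReal_mul, ← mul_left_comm, mul_add]
  congr 2
  have i1 : IntervalIntegrable (fun v : ℝ => ((max (v - Real.log g) 0 : ℝ) : ℂ) *
      (cexp (-β * v) * (2 * β + β ^ 2 * ((X - v : ℝ) : ℂ)))) volume 0 (Real.log g) :=
    (Continuous.intervalIntegrable (by fun_prop) _ _)
  have i2 : IntervalIntegrable (fun v : ℝ => ((max (v - Real.log g) 0 : ℝ) : ℂ) *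
      (cexp (-β * v) * (2 * β + β ^ 2 * ((X - v : ℝ) : ℂ)))) volume (Real.log g) X :=
    (Continuous.intervalIntegrable (by fun_prop) _ _)
  have z : (∫ v in (0 : ℝ)..Real.log g, ((max (v - Real.log g) 0 : ℝ) : ℂ) *
      (cexp (-β * v) * (2 * β + β ^ 2 * ((X - v : ℝ) : ℂ)))) = 0 := by
    refine (intervalIntegral.integral_congr (g := fun _ => (0 : ℂ)) fun v hv => ?_).trans
      intervalIntegral.integral_zero
    rw [Set.uIcc_of_le h0] at hv
    rw [max_eq_right (by linarith [hv.2]), ofReal_zero, zero_mul]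
  rw [← intervalIntegral.integral_add_adjacent_intervals i1 i2, z, zero_add]
  refine intervalIntegral.integral_congr fun v hv => ?_
  rw [Set.uIcc_of_le h1] at hv
  rw [max_eq_left (by linarith [hv.1])]

theorem continuousOn_mobLog (X : ℝ) : ContinuousOn mobLog (Set.Icc 0 X) := by
  obtain ⟨N, hN⟩ : ∃ N, N = ⌊Real.exp X⌋₊ := ⟨_, rfl⟩
  refine (Continuous.continuousOn (f := fun v : ℝ =>
    ∑ g ∈ Icc 1 N, (μ g : ℝ) / g * max (v - Real.log g) 0) (by fun_prop)).congr fun v hv => ?_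
  have hsub : Icc 1 ⌊Real.exp v⌋₊ ⊆ Icc 1 N :=
    Icc_subset_Icc le_rfl (hN ▸ Nat.floor_le_floor (Real.exp_le_exp.2 hv.2))
  simp only [mobLog]
  rw [← sum_subset hsub fun g hg hg' => ?_]
  · refine sum_congr rfl fun g hg => ?_
    rw [mem_Icc] at hg
    rw [max_eq_left]
    have := (Real.log_le_iff_le_exp (Nat.cast_pos.2 hg.1)).2
      (le_trans (Nat.cast_le.2 hg.2) (Nat.floor_le (Real.exp_pos v).le))
    linarith
  · rw [mem_Icc] at hg
    simp only [mem_Icc, not_and, not_le] at hg'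
    have := (Real.lt_log_iff_exp_lt (Nat.cast_pos.2 hg.1)).2 (Nat.lt_of_floor_lt (hg' hg.1))
    rw [max_eq_right (by linarith), mul_zero]

theorem four_rpow_quarter {x : ℝ} (hx : 0 < x) (hx1 : x < 1) :
    |Real.log x| ≤ 4 * x ^ (-(1 / 4) : ℝ) := by
  rw [abs_of_nonpos (Real.log_nonpos hx.le hx1.le), ← Real.log_inv,
    Real.rpow_neg hx.le, ← Real.inv_rpow hx.le]
  refine (Real.log_le_rpow_div (by positivity) (show (0 : ℝ) < 1 / 4 by norm_num)).trans
    (le_of_eq (by ring))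

theorem norm_linear_le {β : ℂ} (hβ : ‖β‖ ≤ 1 / 40) {x : ℝ} (hx : 0 < x) (hx1 : x < 1) :
    ‖1 + β * (Real.log x : ℂ)‖ ≤ 2 * x ^ (-(1 / 4) : ℝ) := by
  have h0 : 1 ≤ x ^ (-(1 / 4) : ℝ) :=
    Real.one_le_rpow_of_pos_of_le_one_of_nonpos hx hx1.le (by norm_num)
  refine (norm_add_le _ _).trans ?_
  rw [norm_one, norm_mul, Complex.norm_real, Real.norm_eq_abs]
  have := mul_le_mul hβ (four_rpow_quarter hx hx1) (abs_nonneg _) (by norm_num)
  linarith

theorem norm_cexp_neg_mul_le {β : ℂ} {A v X : ℝ} (hv : 0 ≤ v) (hvX : v ≤ X)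
    (hA : ‖β‖ * X ≤ A) : ‖cexp (-β * v)‖ ≤ Real.exp A := by
  rw [Complex.norm_exp, Real.exp_le_exp]
  refine (le_abs_self _).trans ((abs_re_le_norm _).trans ?_)
  rw [norm_mul, norm_neg, Complex.norm_real, Real.norm_of_nonneg hv]
  exact (mul_le_mul_of_nonneg_left hvX (norm_nonneg _)).trans hA

/-- Without primes. -/
theorem exists_twistMob_empty_le {A ε : ℝ} (hA : 0 ≤ A) (hε : 0 < ε) :
    ∃ C, 2 ≤ C ∧ ∀ (β : ℂ) (x : ℝ), ‖β‖ ≤ 1 / 40 → 0 < x → ‖β‖ * Real.log x ≤ A →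
      ‖twistMob β ∅ x - (1 + β * (Real.log x : ℂ))‖ ≤
        ε + C * (‖β‖ + x ^ (-(1 / 4) : ℝ)) := by
  obtain ⟨B, hB0, hB⟩ := exists_mobLog_bound
  obtain ⟨η, hη0, hη⟩ : ∃ η, 0 < η ∧ Real.exp A * (η + (2 + A) * (η * A)) ≤ ε := by
    refine ⟨ε / (Real.exp A * (1 + (2 + A) * A)), by positivity, le_of_eq ?_⟩
    have h1 : 1 + (2 + A) * A ≠ 0 := by positivity
    have h2 := (Real.exp_pos A).ne'
    field_simp
  obtain ⟨V₁, hV₁⟩ := eventually_atTop.1 (Metric.tendsto_nhds.1 tendsto_mobLog η hη0)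
  obtain ⟨V, hV⟩ : ∃ V, V = max V₁ 0 := ⟨_, rfl⟩
  have hV0 : 0 ≤ V := hV ▸ le_max_right _ _
  have hsmall : ∀ v, V ≤ v → |mobLog v - 1| ≤ η := fun v hv => by
    have := hV₁ v (le_trans (le_max_left _ _) (hV ▸ hv))
    rw [Real.dist_eq] at this
    exact this.le
  refine ⟨2 + Real.exp A * (B * Real.exp (V / 4) + (2 + A) * (B * V)),
    le_add_of_nonneg_right (by positivity), fun β x hβ hx hAx => ?_⟩
  have hr : 0 ≤ x ^ (-(1 / 4) : ℝ) := by positivity
  rcases lt_or_ge x 1 with hx1 | hx1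
  · have h0 : twistMob β ∅ x = 0 := by
      rw [twistMob, Nat.floor_eq_zero.2 hx1]
      simp
    rw [h0, zero_sub, norm_neg]
    have := norm_linear_le hβ hx hx1
    have e1 : 0 ≤ Real.exp A * (B * Real.exp (V / 4) + (2 + A) * (B * V)) *
        (‖β‖ + x ^ (-(1 / 4) : ℝ)) := by positivity
    nlinarith [norm_nonneg β]
  obtain ⟨X, hX⟩ : ∃ X, X = Real.log x := ⟨_, rfl⟩
  have hX0 : 0 ≤ X := hX ▸ Real.log_nonneg hx1
  rw [← hX] at hAx ⊢
  have hxX : Real.exp X = x := hX ▸ Real.exp_log hx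
  rw [← hxX, twistMob_empty_eq β hX0]
  obtain ⟨f, hf⟩ : ∃ f : ℝ → ℂ,
      f = fun v : ℝ => cexp (-β * v) * (2 * β + β ^ 2 * ((X - v : ℝ) : ℂ)) := ⟨_, rfl⟩
  have hfc : Continuous f := hf ▸ (by fun_prop)
  have hfint : (∫ v in (0 : ℝ)..X, f v) = -cexp (-β * X) + (1 + β * (X : ℂ)) := by
    have hd : ∀ v : ℝ, HasDerivAt
        (fun u : ℝ => -cexp (-β * u) * (1 + β * ((X - u : ℝ) : ℂ))) (f v) v := fun v => by
      have he : HasDerivAt (fun u : ℝ => cexp (-β * u)) (cexp (-β * v) * -β) v := by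
        simpa using ((hasDerivAt_id' v).ofReal_comp.const_mul (-β)).cexp
      have hrev : HasDerivAt (fun u : ℝ => ((X - u : ℝ) : ℂ)) (-1) v := by
        simpa using ((hasDerivAt_id' v).const_sub X).ofReal_comp
      exact (he.neg.mul ((hrev.const_mul β).const_add 1)).congr_deriv
        (by rw [hf, Pi.neg_apply]; ring)
    rw [intervalIntegral.integral_eq_sub_of_hasDerivAt (fun v _ => hd v)
      (hfc.intervalIntegrable _ _)]
    simp only [sub_self, sub_zero, ofReal_zero, mul_zero, add_zero, Complex.exp_zero, mul_one]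
    ring
  have hmc : ContinuousOn (fun v : ℝ => (mobLog v : ℂ)) (Set.uIcc 0 X) := by
    rw [Set.uIcc_of_le hX0]
    exact continuous_ofReal.comp_continuousOn (continuousOn_mobLog X)
  have i1 : IntervalIntegrable (fun v : ℝ => f v * (mobLog v : ℂ)) volume 0 X :=
    (hfc.continuousOn.mul hmc).intervalIntegrable
  have e : cexp (-β * X) * (mobLog X : ℂ) + (∫ v in (0 : ℝ)..X, f v * (mobLog v : ℂ)) -
      (1 + β * (X : ℂ)) = cexp (-β * X) * ((mobLog X - 1 : ℝ) : ℂ) +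
        ∫ v in (0 : ℝ)..X, f v * ((mobLog v - 1 : ℝ) : ℂ) := by
    simp only [ofReal_sub, ofReal_one, mul_sub, mul_one]
    rw [intervalIntegral.integral_sub i1 (hfc.intervalIntegrable _ _), hfint]
    ring
  simp only [hf] at e
  rw [e]
  have hfb : ∀ v ∈ Set.Icc 0 X,
      ‖f v‖ ≤ Real.exp A * ((2 + A) * ‖β‖) := fun v hv => by
    rw [hf, norm_mul]
    refine mul_le_mul (norm_cexp_neg_mul_le hv.1 hv.2 hAx) ?_ (norm_nonneg _) (Real.exp_pos _).le
    refine (norm_add_le _ _).trans ?_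
    rw [norm_mul, norm_mul, norm_pow, Complex.norm_two, Complex.norm_real,
      Real.norm_of_nonneg (show 0 ≤ X - v by linarith [hv.2])]
    have := mul_le_mul_of_nonneg_left (show X - v ≤ X by linarith [hv.1]) (sq_nonneg ‖β‖)
    have h2 : ‖β‖ ^ 2 * X ≤ ‖β‖ * A := by
      rw [pow_two, mul_assoc]; exact mul_le_mul_of_nonneg_left hAx (norm_nonneg _)
    linarith
  have hic : IntervalIntegrable (fun v : ℝ => |mobLog v - 1|) volume 0 X := by
    refine ContinuousOn.intervalIntegrable ?_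
    rw [Set.uIcc_of_le hX0]
    exact ((continuousOn_mobLog X).sub continuousOn_const).abs
  have hint : (∫ v in (0 : ℝ)..X, |mobLog v - 1|) ≤ B * V + η * X := by
    rcases le_or_gt X V with h | h
    · refine (intervalIntegral.integral_mono_on hX0 hic intervalIntegrable_const
        fun v hv => hB v hv.1).trans ?_
      rw [intervalIntegral.integral_const, smul_eq_mul, sub_zero, mul_comm]
      exact le_add_of_le_of_nonneg (mul_le_mul_of_nonneg_left h hB0) (by positivity)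
    · have j1 : IntervalIntegrable (fun v : ℝ => |mobLog v - 1|) volume 0 V :=
        hic.mono_set (by
          rw [Set.uIcc_of_le hV0, Set.uIcc_of_le hX0]; exact Set.Icc_subset_Icc le_rfl h.le)
      have j2 : IntervalIntegrable (fun v : ℝ => |mobLog v - 1|) volume V X :=
        hic.mono_set (by
          rw [Set.uIcc_of_le h.le, Set.uIcc_of_le hX0]; exact Set.Icc_subset_Icc hV0 le_rfl)
      rw [← intervalIntegral.integral_add_adjacent_intervals j1 j2]
      refine add_le_add ((intervalIntegral.integral_mono_on hV0 j1 intervalIntegrable_const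
        fun v hv => hB v hv.1).trans (le_of_eq (by simp [mul_comm]))) ?_
      refine (intervalIntegral.integral_mono_on h.le j2 intervalIntegrable_const
        fun v hv => hsmall v hv.1).trans ?_
      rw [intervalIntegral.integral_const, smul_eq_mul]
      nlinarith
  have h1 : |mobLog X - 1| ≤ η + B * Real.exp (V / 4) * x ^ (-(1 / 4) : ℝ) := by
    rcases le_or_gt V X with h | h
    · exact le_add_of_le_of_nonneg (hsmall X h) (by positivity)
    · refine le_add_of_nonneg_of_le hη0.le ((hB X hX0).trans ?_)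
      rw [mul_assoc]
      refine le_mul_of_one_le_right hB0 ?_
      rw [← hxX, ← Real.exp_mul, ← Real.exp_add]
      exact Real.one_le_exp (by linarith)
  rw [hxX]
  have c1 : ‖cexp (-β * X) * ((mobLog X - 1 : ℝ) : ℂ)‖ ≤
      Real.exp A * (η + B * Real.exp (V / 4) * x ^ (-(1 / 4) : ℝ)) := by
    rw [norm_mul, Complex.norm_real, Real.norm_eq_abs]
    exact mul_le_mul (norm_cexp_neg_mul_le hX0 le_rfl hAx) h1 (abs_nonneg _) (Real.exp_pos _).le
  have c2 : ‖∫ v in (0 : ℝ)..X, cexp (-β * v) * (2 * β + β ^ 2 * ((X - v : ℝ) : ℂ)) *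
      ((mobLog v - 1 : ℝ) : ℂ)‖ ≤
        Real.exp A * ((2 + A) * ‖β‖) * ∫ v in (0 : ℝ)..X, |mobLog v - 1| := by
    rw [← intervalIntegral.integral_const_mul]
    refine intervalIntegral.norm_integral_le_of_norm_le hX0 (Eventually.of_forall fun v hv => ?_)
      (hic.const_mul _)
    rw [norm_mul, Complex.norm_real, Real.norm_eq_abs]
    have h := hfb v (Set.Ioc_subset_Icc_self hv)
    rw [hf] at h
    exact mul_le_mul_of_nonneg_right h (abs_nonneg _)
  refine ((norm_add_le _ _).trans (add_le_add c1 c2)).trans ?_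
  refine (add_le_add le_rfl (mul_le_mul_of_nonneg_left hint (by positivity))).trans ?_
  have h3 : ‖β‖ * X * η ≤ A * η := mul_le_mul_of_nonneg_right hAx hη0.le
  have h4 := mul_le_mul_of_nonneg_left h3 (show 0 ≤ Real.exp A * (2 + A) by positivity)
  have e1 : 0 ≤ 2 * (‖β‖ + x ^ (-(1 / 4) : ℝ)) := by positivity
  have e2 : 0 ≤ Real.exp A * (B * Real.exp (V / 4)) * ‖β‖ := by positivity
  have e3 : 0 ≤ Real.exp A * ((2 + A) * (B * V)) * x ^ (-(1 / 4) : ℝ) := by positivity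
  linarith

theorem twistMob_insert (β : ℂ) {p : ℕ} (hp : p.Prime) {s : Finset ℕ} (hps : p ∉ s)
    (hs : ∀ q ∈ s, q.Prime) {x : ℝ} (hx : 0 < x) :
    twistMob β (insert p s) x = twistMob β s x +
      cexp (-(1 + β) * (Real.log p : ℂ)) * twistMob β (insert p s) (x / p) := by
  obtain ⟨t, ht⟩ : ∃ t : ℕ → ℂ, t = fun g => (μ g : ℂ) * cexp (-(1 + β) * (Real.log g : ℂ)) *
      ((Real.log x - Real.log g : ℝ) : ℂ) := ⟨_, rfl⟩
  have hsplit : twistMob β s x = twistMob β (insert p s) x +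
      ∑ g ∈ ((Icc 1 ⌊x⌋₊).filter (fun g => ∀ q ∈ s, ¬q ∣ g)).filter (fun g => p ∣ g), t g := by
    rw [twistMob, twistMob, ht, ← sum_filter_add_sum_filter_not _ (fun g => p ∣ g), add_comm]
    congr 1
    refine sum_congr ?_ fun g _ => rfl
    ext g
    simp only [mem_filter, forall_mem_insert]
    tauto
  have hmem : ∀ {g : ℕ}, 1 ≤ g → ((p * g) ≤ ⌊x⌋₊ ↔ g ≤ ⌊x / p⌋₊) := fun {g} _ => by
    rw [Nat.floor_div_natCast, Nat.le_div_iff_mul_le hp.pos, mul_comm]
  have hmult : ∑ g ∈ ((Icc 1 ⌊x⌋₊).filter (fun g => ∀ q ∈ s, ¬q ∣ g)).filter (fun g => p ∣ g),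
      t g = -(cexp (-(1 + β) * (Real.log p : ℂ)) * twistMob β (insert p s) (x / p)) := by
    rw [twistMob, ← neg_mul, mul_sum]
    symm
    refine sum_of_injOn (fun g => p * g) (fun a _ b _ h => Nat.eq_of_mul_eq_mul_left hp.pos h)
      (fun g hg => ?_) (fun g hg hg' => ?_) fun g hg => ?_
    · simp only [coe_filter, Set.mem_ofPred_eq, mem_Icc, forall_mem_insert] at hg
      simp only [coe_filter, Set.mem_ofPred_eq, mem_filter, mem_Icc]
      refine ⟨⟨⟨Nat.mul_pos hp.pos hg.1.1, (hmem hg.1.1).2 hg.1.2⟩, fun q hq hdvd => ?_⟩,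
        dvd_mul_right p g⟩
      rcases (hs q hq).dvd_mul.1 hdvd with h | h
      · exact hps ((Nat.prime_dvd_prime_iff_eq (hs q hq) hp).1 h ▸ hq)
      · exact hg.2.2 q hq h
    · simp only [mem_filter, mem_Icc] at hg
      obtain ⟨⟨⟨h1, h2⟩, h3⟩, m, rfl⟩ := hg
      simp only [Set.mem_image, coe_filter, Set.mem_ofPred_eq, mem_Icc, forall_mem_insert,
        not_exists, not_and] at hg'
      have hm1 : 1 ≤ m := by
        rcases Nat.eq_zero_or_pos m with rfl | h
        · simp at h1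
        · exact h
      by_cases hd : p ∣ m
      · simp only [ht]
        rw [ArithmeticFunction.moebius_eq_zero_of_not_squarefree fun hsq => hp.ne_one
          (Nat.isUnit_iff.1 (hsq p (mul_dvd_mul_left p hd)))]
        simp
      · exact absurd rfl (hg' m ⟨⟨hm1, (hmem hm1).1 h2⟩, hd,
          fun q hq hdvd => h3 q hq (hdvd.mul_left p)⟩)
    · simp only [mem_filter, mem_Icc, forall_mem_insert] at hg
      have hg0 : (g : ℝ) ≠ 0 := Nat.cast_ne_zero.2 (by omega)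
      have hp0 : (p : ℝ) ≠ 0 := Nat.cast_ne_zero.2 hp.ne_zero
      rw [ht]
      simp only []
      rw [ArithmeticFunction.isMultiplicative_moebius.map_mul_of_coprime
          ((Nat.Prime.coprime_iff_not_dvd hp).2 hg.2.1),
        ArithmeticFunction.moebius_apply_prime hp, Nat.cast_mul, Real.log_mul hp0 hg0,
        Real.log_div hx.ne' hp0, ofReal_add, mul_add, Complex.exp_add]
      push_cast
      ring
  rw [hsplit, hmult]
  ring

theorem prime_shift_bounds {β : ℂ} (hβ : ‖β‖ ≤ 1 / 40) {p : ℕ} (hp : p.Prime) :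
    ‖cexp (-(1 + β) * (Real.log p : ℂ))‖ ≤ 1 / √(p : ℝ) ∧
    ‖cexp (-(1 + β) * (Real.log p : ℂ))‖ * (p : ℝ) ^ (1 / 4 : ℝ) ≤ 1 / √(p : ℝ) ∧
    ‖cexp (-(1 + β) * (Real.log p : ℂ))‖ * Real.log p ≤ 3 / √(p : ℝ) ∧
    ‖cexp (-(1 + β) * (Real.log p : ℂ)) - ((1 / (p : ℝ) : ℝ) : ℂ)‖ ≤
      ‖β‖ * (3 / √(p : ℝ)) := by
  have hp1 : (1 : ℝ) ≤ p := Nat.one_le_cast.2 hp.one_lt.le
  have hp0 : (0 : ℝ) < p := by linarith
  have hl : 0 ≤ Real.log p := Real.log_nonneg hp1
  have hre : |β.re| ≤ 1 / 40 := (abs_re_le_norm β).trans hβ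
  have ha : ‖cexp (-(1 + β) * (Real.log p : ℂ))‖ ≤ (p : ℝ) ^ (-(39 / 40) : ℝ) := by
    rw [Complex.norm_exp, Real.rpow_def_of_pos hp0, Real.exp_le_exp]
    simp only [neg_mul, neg_re, mul_re, add_re, one_re, ofReal_re, ofReal_im, mul_zero, sub_zero]
    have := neg_abs_le β.re
    nlinarith
  have hu : 1 / √(p : ℝ) = (p : ℝ) ^ (-(1 / 2) : ℝ) := by
    rw [Real.sqrt_eq_rpow, Real.rpow_neg hp0.le, one_div]
  have h3 : (p : ℝ) ^ (-(39 / 40) : ℝ) * Real.log p ≤ 3 / √(p : ℝ) := by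
    refine (mul_le_mul_of_nonneg_left (Real.log_le_rpow_div hp0.le
      (show (0 : ℝ) < 19 / 40 by norm_num)) (by positivity)).trans ?_
    rw [← mul_div_assoc, ← Real.rpow_add hp0,
        show (-(39 / 40) : ℝ) + 19 / 40 = -(1 / 2) by norm_num,
      ← hu, div_div]
    rw [show 3 / √(p : ℝ) = 3 * (1 / √(p : ℝ)) by ring, mul_comm 3, one_div, one_div, mul_inv]
    exact mul_le_mul_of_nonneg_left (by norm_num) (by positivity)
  refine ⟨ha.trans ?_, ?_, (mul_le_mul_of_nonneg_right ha hl).trans h3, ?_⟩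
  · rw [hu]; exact Real.rpow_le_rpow_of_exponent_le hp1 (by norm_num)
  · refine (mul_le_mul_of_nonneg_right ha (by positivity)).trans ?_
    rw [← Real.rpow_add hp0, hu]
    exact Real.rpow_le_rpow_of_exponent_le hp1 (by norm_num)
  · have e : cexp (-(1 + β) * (Real.log p : ℂ)) - ((1 / (p : ℝ) : ℝ) : ℂ) =
        ((1 / (p : ℝ) : ℝ) : ℂ) * (cexp (-β * (Real.log p : ℂ)) - 1) := by
      rw [show -(1 + β) * (Real.log p : ℂ) = (-(Real.log p) : ℝ) + -β * (Real.log p : ℂ) by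
          push_cast; ring, Complex.exp_add, ← Complex.ofReal_exp, Real.exp_neg, Real.exp_log hp0,
        one_div]
      ring
    rw [e, norm_mul, Complex.norm_real, Real.norm_of_nonneg (by positivity)]
    obtain ⟨z, hz⟩ : ∃ z, z = -β * (Real.log p : ℂ) := ⟨_, rfl⟩
    have hnz : ‖z‖ = ‖β‖ * Real.log p := by
      rw [hz, norm_mul, norm_neg, Complex.norm_real, Real.norm_of_nonneg hl]
    rw [← hz]
    have hez : ‖cexp z - 1‖ ≤ ‖z‖ * (p : ℝ) ^ (1 / 40 : ℝ) := by
      have h := Complex.norm_exp_sub_sum_le_norm_mul_exp z 1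
      simp only [sum_range_one, pow_zero, Nat.factorial_zero, Nat.cast_one, div_one, pow_one] at h
      refine h.trans (mul_le_mul_of_nonneg_left ?_ (norm_nonneg _))
      rw [Real.rpow_def_of_pos hp0, Real.exp_le_exp, hnz, mul_comm (Real.log p)]
      exact mul_le_mul_of_nonneg_right hβ hl
    calc 1 / (p : ℝ) * ‖cexp z - 1‖ ≤ 1 / (p : ℝ) * (‖z‖ * (p : ℝ) ^ (1 / 40 : ℝ)) := by gcongr
      _ = ‖β‖ * ((p : ℝ) ^ (-(39 / 40) : ℝ) * Real.log p) := by
        rw [hnz, show (-(39 / 40) : ℝ) = -1 + 1 / 40 by norm_num, Real.rpow_add hp0,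
          Real.rpow_neg_one]
        ring
      _ ≤ _ := mul_le_mul_of_nonneg_left h3 (norm_nonneg _)

theorem twistMob_step {A C η : ℝ} (hA : 0 ≤ A) (hC : 2 ≤ C) (hη : 0 ≤ η) {β : ℂ}
    (hβ : ‖β‖ ≤ 1 / 40) (hηβ : 6 * (2 + A) * ‖β‖ ≤ η) {p : ℕ} (hp : p.Prime) {s : Finset ℕ}
    (hps : p ∉ s) (hs : ∀ q ∈ s, q.Prime)
    (ih : ∀ x, 0 < x → ‖β‖ * Real.log x ≤ A →
      ‖twistMob β s x - (primeModel s : ℂ) * (1 + β * (Real.log x : ℂ))‖ ≤
        primeWeight s * (η + C * x ^ (-(1 / 4) : ℝ))) :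
    ∀ n : ℕ, ∀ x, 0 < x → ⌊x⌋₊ = n → ‖β‖ * Real.log x ≤ A →
      ‖twistMob β (insert p s) x - (primeModel (insert p s) : ℂ) * (1 + β * (Real.log x : ℂ))‖ ≤
        primeWeight (insert p s) * (η + C * x ^ (-(1 / 4) : ℝ)) := by
  have hall : ∀ q ∈ insert p s, q.Prime := fun q hq => by
    rcases mem_insert.1 hq with rfl | h
    exacts [hp, hs q h]
  obtain ⟨hK0, hKW⟩ := primeModel_bounds hall
  intro n
  induction n using Nat.strong_induction_on with
  | _ n ihn =>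
    intro x hx hn hAx
    have hy0 : 0 ≤ x ^ (-(1 / 4) : ℝ) := by positivity
    rcases lt_or_ge x 1 with hx1 | hx1
    · have h0 : twistMob β (insert p s) x = 0 := by
        rw [twistMob, Nat.floor_eq_zero.2 hx1]; simp
      rw [h0, zero_sub, norm_neg, norm_mul, Complex.norm_real, Real.norm_of_nonneg hK0]
      refine mul_le_mul hKW ((norm_linear_le hβ hx hx1).trans ?_) (norm_nonneg _)
        (zero_le_one.trans (one_le_primeWeight _))
      nlinarith
    have hp2 : (2 : ℝ) ≤ p := Nat.ofNat_le_cast.2 hp.two_le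
    have hp0 : (0 : ℝ) < p := by linarith
    have hxp : 0 < x / p := div_pos hx hp0
    have hlxp : Real.log (x / p) = Real.log x - Real.log p := Real.log_div hx.ne' hp0.ne'
    have hlp : 0 ≤ Real.log p := Real.log_nonneg (by linarith)
    have hAxp : ‖β‖ * Real.log (x / p) ≤ A := by
      rw [hlxp]; nlinarith [norm_nonneg β]
    have hlt : ⌊x / p⌋₊ < n := by
      rw [Nat.floor_div_natCast, hn]
      exact Nat.div_lt_self (hn ▸ Nat.floor_pos.2 hx1) hp.one_lt
    have h2 := ihn _ hlt (x / p) hxp rfl hAxp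
    have h1 := ih x hx hAx
    obtain ⟨q, hq⟩ : ∃ q, q = cexp (-(1 + β) * (Real.log p : ℂ)) := ⟨_, rfl⟩
    obtain ⟨u, hu⟩ : ∃ u, u = 1 / √(p : ℝ) := ⟨_, rfl⟩
    obtain ⟨b1, b2, b3, b4⟩ := prime_shift_bounds hβ hp
    rw [← hq] at b1 b2 b3 b4
    rw [← hu] at b1 b2
    have hu3 : 3 / √(p : ℝ) = 3 * u := by rw [hu]; ring
    rw [hu3] at b3 b4
    have hu0 : 0 ≤ u := hu ▸ by positivity
    have hu1 : u ≤ 71 / 100 := by
      have h : 100 / 71 ≤ √(p : ℝ) := Real.le_sqrt_of_sq_le (by norm_num; linarith)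
      rw [hu, div_le_iff₀ (by linarith)]
      linarith
    obtain ⟨K, hK⟩ : ∃ K, K = primeModel (insert p s) := ⟨_, rfl⟩
    obtain ⟨W, hW⟩ : ∃ W, W = primeWeight s := ⟨_, rfl⟩
    have hW1 : 1 ≤ W := hW ▸ one_le_primeWeight s
    have hWins : primeWeight (insert p s) = W * (1 + 8 * u) := by
      rw [primeWeight, prod_insert hps, hW, primeWeight, hu]; ring
    have hKs : primeModel s = K * (1 - 1 / p) := by
      rw [hK, primeModel, primeModel, prod_insert hps]
      have : (p : ℝ) - 1 ≠ 0 := by linarith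
      field_simp
    rw [← hW] at h1
    rw [← hK] at h2 hK0 hKW ⊢
    rw [hWins] at h2 hKW ⊢
    have e : twistMob β (insert p s) x - (K : ℂ) * (1 + β * (Real.log x : ℂ)) =
        (twistMob β s x - (primeModel s : ℂ) * (1 + β * (Real.log x : ℂ))) +
          q * (twistMob β (insert p s) (x / p) - (K : ℂ) * (1 + β * (Real.log (x / p) : ℂ))) +
          ((K : ℂ) * (1 + β * (Real.log x : ℂ)) * (q - ((1 / (p : ℝ) : ℝ) : ℂ)) -
            (K : ℂ) * β * (q * (Real.log p : ℂ))) := by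
      rw [twistMob_insert β hp hps hs hx, ← hq, hKs, hlxp]
      push_cast
      ring
    have hlin : ‖1 + β * (Real.log x : ℂ)‖ ≤ 1 + A := by
      refine (norm_add_le _ _).trans ?_
      rw [norm_one, norm_mul, Complex.norm_real, Real.norm_of_nonneg (Real.log_nonneg hx1)]
      linarith
    have hpow : (x / p) ^ (-(1 / 4) : ℝ) = x ^ (-(1 / 4) : ℝ) * (p : ℝ) ^ (1 / 4 : ℝ) := by
      rw [Real.div_rpow hx.le hp0.le, Real.rpow_neg hp0.le, div_inv_eq_mul]
    obtain ⟨y, hy⟩ : ∃ y, y = x ^ (-(1 / 4) : ℝ) := ⟨_, rfl⟩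
    rw [← hy] at h1 hpow hy0 ⊢
    rw [hpow] at h2
    have t2 : ‖q * (twistMob β (insert p s) (x / p) -
        (K : ℂ) * (1 + β * (Real.log (x / p) : ℂ)))‖ ≤ W * (1 + 8 * u) * (u * (η + C * y)) := by
      rw [norm_mul]
      refine (mul_le_mul_of_nonneg_left h2 (norm_nonneg _)).trans ?_
      have c1 := mul_le_mul_of_nonneg_left b1 hη
      have c2 := mul_le_mul_of_nonneg_left b2 (show 0 ≤ C * y by positivity)
      calc ‖q‖ * (W * (1 + 8 * u) * (η + C * (y * (p : ℝ) ^ (1 / 4 : ℝ))))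
          = W * (1 + 8 * u) * (η * ‖q‖ + C * y * (‖q‖ * (p : ℝ) ^ (1 / 4 : ℝ))) := by ring
        _ ≤ W * (1 + 8 * u) * (η * u + C * y * u) :=
          mul_le_mul_of_nonneg_left (add_le_add c1 c2) (by positivity)
        _ = _ := by ring
    have hK2 : K ≤ 2 * W := by
      have hWs := (primeModel_bounds hs).2
      rw [hKs, ← hW] at hWs
      have h : 1 / 2 ≤ 1 - 1 / (p : ℝ) := by
        have := div_le_div_of_nonneg_left zero_le_one two_pos hp2
        linarith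
      nlinarith [mul_le_mul_of_nonneg_left h hK0]
    have t3 : ‖(K : ℂ) * (1 + β * (Real.log x : ℂ)) * (q - ((1 / (p : ℝ) : ℝ) : ℂ)) -
        (K : ℂ) * β * (q * (Real.log p : ℂ))‖ ≤ W * (u * η) := by
      refine (norm_sub_le _ _).trans ?_
      simp only [norm_mul, Complex.norm_real, Real.norm_of_nonneg hK0, Real.norm_of_nonneg hlp]
      have c1 := mul_le_mul (mul_le_mul_of_nonneg_left hlin hK0) b4 (norm_nonneg _) (by positivity)
      have c2 := mul_le_mul_of_nonneg_left b3 (show 0 ≤ K * ‖β‖ by positivity)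
      refine (add_le_add c1 c2).trans ?_
      calc K * (1 + A) * (‖β‖ * (3 * u)) + K * ‖β‖ * (3 * u)
          = K * (u * (6 * (2 + A) * ‖β‖) / 2) := by ring
        _ ≤ 2 * W * (u * η / 2) := by gcongr
        _ = _ := by ring
    rw [e]
    refine ((norm_add_le _ _).trans (add_le_add ((norm_add_le _ _).trans (add_le_add h1 t2))
      t3)).trans ?_
    have hmain : 1 + (1 + 8 * u) * u + u ≤ 1 + 8 * u := by nlinarith
    have := mul_le_mul_of_nonneg_left hmain (show 0 ≤ W * (η + C * y) by positivity)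
    have hCy : 0 ≤ W * u * (C * y) := by positivity
    linarith

/-- **The asymptotic formula.** -/
theorem exists_twistMob_le {A ε : ℝ} (hA : 0 ≤ A) (hε : 0 < ε) :
    ∃ C, 0 ≤ C ∧ ∀ (β : ℂ) (s : Finset ℕ) (x : ℝ), (∀ p ∈ s, p.Prime) → ‖β‖ ≤ 1 / 40 → 0 < x →
      ‖β‖ * Real.log x ≤ A →
      ‖twistMob β s x - (primeModel s : ℂ) * (1 + β * (Real.log x : ℂ))‖ ≤
        primeWeight s * (ε + C * (‖β‖ + x ^ (-(1 / 4) : ℝ))) := by
  obtain ⟨C, hC2, hC⟩ := exists_twistMob_empty_le hA hε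
  refine ⟨C + 6 * (2 + A), by positivity, fun β s x hs hβ => ?_⟩
  suffices main : ∀ x, 0 < x → ‖β‖ * Real.log x ≤ A →
      ‖twistMob β s x - (primeModel s : ℂ) * (1 + β * (Real.log x : ℂ))‖ ≤
        primeWeight s * ((ε + (C + 6 * (2 + A)) * ‖β‖) +
          (C + 6 * (2 + A)) * x ^ (-(1 / 4) : ℝ)) from
    fun hx hAx => (main x hx hAx).trans (le_of_eq (by ring))
  induction s using Finset.induction_on with
  | empty =>
    intro x hx hAx
    simp only [primeModel, primeWeight, prod_empty, ofReal_one, one_mul]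
    refine (hC β x hβ hx hAx).trans ?_
    have : 0 ≤ 6 * (2 + A) * (‖β‖ + x ^ (-(1 / 4) : ℝ)) := by positivity
    linarith
  | insert p s hps ih =>
    intro x hx hAx
    have hp := hs p (mem_insert_self p s)
    have hs' : ∀ q ∈ s, q.Prime := fun q hq => hs q (mem_insert_of_mem hq)
    exact twistMob_step hA (by linarith) (by positivity) hβ
      (by nlinarith [norm_nonneg β]) hp hps hs' (ih hs') _ x hx rfl hAx

end FA.LevinsonThird

end
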