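import Fermat.Agent.LevinsonThird.SieveSums
import Fermat.Agent.TwistedMoment.Moment

/-!
# The arithmetic sum of Levinson's mollifier

For `b h = μ h (1 - log h / ℓ)` and shifts `O (1 / ℓ)` the sum
`∑ b h b k gcd (h, k)^(1+α+β) / (h^(1+β) k^(1+α))` is
`1/ℓ + (α+β)/2 + α β ℓ / 3 + o (1/ℓ)`.
-/

set_option autoImplicit false

noncomputable section

namespace FA.LevinsonThird

open Finset Complex
open FA.TwistedMoment (twistCoef twistSum clogNat)
open scoped ArithmeticFunction.Moebius ComplexConjugate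

/-- **Levinson's coefficients.** -/
def levCoef (ℓ : ℝ) (h : ℕ) : ℂ := (μ h : ℂ) * ((1 - Real.log h / ℓ : ℝ) : ℂ)

/-- The Möbius transform of `d^(1+γ)`. -/
def gcdKernel (γ : ℂ) (e : ℕ) : ℂ :=
  ∑ x ∈ e.divisorsAntidiagonal, (μ x.1 : ℂ) * cexp ((1 + γ) * clogNat x.2)

/-- `∏ (1 - p^(-1-γ))`. -/
def primeShift (γ : ℂ) (s : Finset ℕ) : ℂ :=
  ∏ p ∈ s, (1 - cexp (-(1 + γ) * (Real.log p : ℂ)))

theorem norm_levCoef_le {ℓ : ℝ} (hℓ : 0 < ℓ) {h : ℕ} (hh : h ∈ Icc 1 ⌊Real.exp ℓ⌋₊) :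
    ‖levCoef ℓ h‖ ≤ 1 := by
  rw [mem_Icc] at hh
  have h1 : Real.log h ≤ ℓ := (Real.log_le_iff_le_exp (Nat.cast_pos.2 hh.1)).2
    ((Nat.cast_le.2 hh.2).trans (Nat.floor_le (Real.exp_pos ℓ).le))
  have h2 : Real.log h / ℓ ≤ 1 := (div_le_one hℓ).2 h1
  have h3 : 0 ≤ Real.log h / ℓ := div_nonneg (Real.log_natCast_nonneg h) hℓ.le
  rw [levCoef, norm_mul, Complex.norm_intCast, Complex.norm_real,
    Real.norm_of_nonneg (show 0 ≤ 1 - Real.log h / ℓ by linarith)]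
  refine mul_le_one₀ ?_ (by linarith) (by linarith)
  exact_mod_cast ArithmeticFunction.abs_moebius_le_one

theorem conj_levCoef (ℓ : ℝ) (h : ℕ) : conj (levCoef ℓ h) = levCoef ℓ h := by
  rw [levCoef, map_mul, map_intCast, Complex.conj_ofReal]

theorem sum_gcdKernel (γ : ℂ) {n : ℕ} (hn : 0 < n) :
    ∑ e ∈ n.divisors, gcdKernel γ e = cexp ((1 + γ) * clogNat n) :=
  (ArithmeticFunction.sum_eq_iff_sum_mul_moebius_eq (f := gcdKernel γ)
    (g := fun m => cexp ((1 + γ) * clogNat m))).2 (fun _ _ => rfl) n hn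

theorem twistSum_levCoef (ℓ : ℝ) (N : ℕ) (α β : ℂ) :
    twistSum N (levCoef ℓ) α β = ∑ e ∈ Icc 1 N, gcdKernel (α + β) e *
      ((∑ h ∈ (Icc 1 N).filter (fun h => e ∣ h), levCoef ℓ h * cexp (-(1 + β) * clogNat h)) *
        ∑ k ∈ (Icc 1 N).filter (fun k => e ∣ k), levCoef ℓ k * cexp (-(1 + α) * clogNat k)) := by
  have e1 : ∀ h ∈ Icc 1 N, ∀ k ∈ Icc 1 N, twistCoef (levCoef ℓ) α β h k = ∑ e ∈ Icc 1 N,
      gcdKernel (α + β) e * ((if e ∣ h then levCoef ℓ h * cexp (-(1 + β) * clogNat h) else 0) *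
        if e ∣ k then levCoef ℓ k * cexp (-(1 + α) * clogNat k) else 0) := by
    intro h hh k hk
    rw [mem_Icc] at hh hk
    have hd : 0 < h.gcd k := Nat.gcd_pos_of_pos_left _ hh.1
    rw [twistCoef, conj_levCoef, show (1 + (α + β)) * clogNat (h.gcd k) - (1 + β) * clogNat h -
      (1 + α) * clogNat k = (1 + (α + β)) * clogNat (h.gcd k) +
        (-(1 + β) * clogNat h + -(1 + α) * clogNat k) by ring, Complex.exp_add, Complex.exp_add,
      ← sum_gcdKernel (α + β) hd, sum_mul, mul_sum]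
    refine (sum_congr rfl fun e he => ?_).trans
      (sum_subset (s₁ := (h.gcd k).divisors) (fun e he => ?_) fun e _ he => ?_)
    · rw [Nat.mem_divisors] at he
      rw [if_pos (he.1.trans (Nat.gcd_dvd_left _ _)), if_pos (he.1.trans (Nat.gcd_dvd_right _ _))]
      ring
    · rw [Nat.mem_divisors] at he
      rw [mem_Icc]
      exact ⟨Nat.pos_of_dvd_of_pos he.1 hd,
        (Nat.le_of_dvd hh.1 (he.1.trans (Nat.gcd_dvd_left _ _))).trans hh.2⟩
    · rw [Nat.mem_divisors, not_and] at he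
      by_cases h1 : e ∣ h
      · rw [if_neg fun h2 => hd.ne' (by_contra fun h3 => he (Nat.dvd_gcd h1 h2) h3)]
        simp
      · rw [if_neg h1]
        simp
  rw [twistSum, sum_congr rfl fun h hh => (sum_congr rfl fun k hk => e1 h hh k hk).trans sum_comm,
    sum_comm]
  refine sum_congr rfl fun e _ => ?_
  rw [sum_filter, sum_filter, sum_mul_sum, mul_sum]
  simp only [mul_sum]

theorem sum_levCoef_multiples {ℓ : ℝ} (hℓ : ℓ ≠ 0) (β : ℂ) {e : ℕ}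
    (he : e ∈ Icc 1 ⌊Real.exp ℓ⌋₊) :
    ∑ h ∈ (Icc 1 ⌊Real.exp ℓ⌋₊).filter (fun h => e ∣ h),
        levCoef ℓ h * cexp (-(1 + β) * clogNat h) =
      (μ e : ℂ) * cexp (-(1 + β) * clogNat e) *
        twistMob β e.primeFactors (Real.exp ℓ / e) / (ℓ : ℂ) := by
  rw [mem_Icc] at he
  have he0 : (e : ℝ) ≠ 0 := Nat.cast_ne_zero.2 (by omega)
  rw [twistMob, mul_sum, sum_div]
  symm
  refine sum_of_injOn (fun g => e * g) (fun a _ b _ h => Nat.eq_of_mul_eq_mul_left he.1 h)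
    (fun g hg => ?_) (fun h hh hh' => ?_) fun g hg => ?_
  · simp only [coe_filter, Set.mem_ofPred_eq, mem_Icc, Nat.floor_div_natCast,
      Nat.le_div_iff_mul_le (show 0 < e by omega)] at hg ⊢
    exact ⟨⟨Nat.mul_pos he.1 hg.1.1, by rw [mul_comm]; exact hg.1.2⟩, dvd_mul_right e g⟩
  · simp only [mem_filter, mem_Icc] at hh
    obtain ⟨⟨h1, h2⟩, g, rfl⟩ := hh
    simp only [Set.mem_image, coe_filter, Set.mem_ofPred_eq, mem_Icc, not_exists, not_and] at hh'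
    have hg : 1 ≤ g := by
      rcases Nat.eq_zero_or_pos g with rfl | hg
      · simp at h1
      · exact hg
    have hgle : g ≤ ⌊Real.exp ℓ / e⌋₊ := by
      rw [Nat.floor_div_natCast, Nat.le_div_iff_mul_le (show 0 < e by omega), mul_comm]
      exact h2
    by_cases hcop : ∀ p ∈ e.primeFactors, ¬p ∣ g
    · exact absurd rfl (hh' g ⟨⟨hg, hgle⟩, hcop⟩)
    · push Not at hcop
      obtain ⟨p, hp, hpg⟩ := hcop
      have hz : μ (e * g) = 0 := by
        refine ArithmeticFunction.moebius_eq_zero_of_not_squarefree fun hsq => ?_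
        exact (Nat.prime_of_mem_primeFactors hp).ne_one (Nat.isUnit_iff.1
          (hsq p (mul_dvd_mul (Nat.dvd_of_mem_primeFactors hp) hpg)))
      simp [levCoef, hz]
  · simp only [mem_filter, mem_Icc] at hg
    have hg0 : (g : ℝ) ≠ 0 := Nat.cast_ne_zero.2 (by omega)
    have hμ : (μ (e * g) : ℂ) = (μ e : ℂ) * (μ g : ℂ) := by
      rw [ArithmeticFunction.isMultiplicative_moebius.map_mul_of_coprime
        (Nat.coprime_of_dvd' fun p hp hpe hpg =>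
          absurd hpg (hg.2 p (hp.mem_primeFactors hpe (by omega))))]
      push_cast
      rfl
    simp only [levCoef, clogNat]
    rw [hμ, Nat.cast_mul, Real.log_mul he0 hg0, Real.log_div (Real.exp_pos ℓ).ne' he0,
      Real.log_exp, ofReal_add, mul_add, Complex.exp_add]
    have hℓ' : (ℓ : ℂ) ≠ 0 := ofReal_ne_zero.2 hℓ
    push_cast
    field_simp
    ring

theorem gcdKernel_mul_exp (γ : ℂ) {e : ℕ} (he : Squarefree e) :
    gcdKernel γ e * cexp (-(2 + γ) * clogNat e) = primeShift γ e.primeFactors / (e : ℂ) := by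
  have he0 : e ≠ 0 := he.ne_zero
  have hterm : ∀ x ∈ e.divisorsAntidiagonal,
      (μ x.1 : ℂ) * cexp ((1 + γ) * clogNat x.2) * cexp (-(2 + γ) * clogNat e) =
        (μ x.1 : ℂ) * cexp (-(1 + γ) * (Real.log x.1 : ℂ)) / (e : ℂ) := fun x hx => by
    rw [Nat.mem_divisorsAntidiagonal] at hx
    have h1 : 0 < x.1 := Nat.pos_of_ne_zero fun h => he0 (by rw [← hx.1, h, zero_mul])
    have h2 : 0 < x.2 := Nat.pos_of_ne_zero fun h => he0 (by rw [← hx.1, h, mul_zero])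
    have hl : clogNat e = (Real.log x.1 : ℂ) + clogNat x.2 := by
      rw [← hx.1, FA.TwistedMoment.clogNat_mul h1 h2, clogNat]
    have he' : (e : ℂ) = cexp (clogNat e) := by
      rw [clogNat, ← Complex.ofReal_exp, Real.exp_log (Nat.cast_pos.2 (Nat.pos_of_ne_zero he0)),
        ofReal_natCast]
    rw [he', mul_assoc, mul_div_assoc, ← Complex.exp_add, ← Complex.exp_sub, hl]
    congr 2
    ring
  rw [gcdKernel, sum_mul, sum_congr rfl hterm, ← sum_div,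
    Nat.sum_divisorsAntidiagonal (fun i _ => (μ i : ℂ) * cexp (-(1 + γ) * (Real.log i : ℂ)))]
  congr 1
  rw [← Finset.filter_true_of_mem (s := e.divisors) (p := Squarefree)
    fun d hd => he.squarefree_of_dvd (Nat.dvd_of_mem_divisors hd),
    Nat.sum_divisors_filter_squarefree he0,
    show (UniqueFactorizationMonoid.normalizedFactors e).toFinset = e.primeFactors by
      rw [Nat.factors_eq]; rfl]
  rw [primeShift]
  simp only [sub_eq_add_neg]
  rw [Finset.prod_one_add]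
  refine sum_congr rfl fun t ht => ?_
  rw [Finset.prod_neg]
  rw [mem_powerset] at ht
  have hp : ∀ p ∈ t, p.Prime := fun p hpt => Nat.prime_of_mem_primeFactors (ht hpt)
  have hlog : (Real.log ((∏ p ∈ t, p : ℕ) : ℝ) : ℂ) = ∑ p ∈ t, (Real.log p : ℂ) := by
    rw [Nat.cast_prod, Real.log_prod fun p hpt => Nat.cast_ne_zero.2 (hp p hpt).ne_zero,
      ofReal_sum]
  have hμ : μ (∏ p ∈ t, p) = (-1) ^ t.card := by
    rw [ArithmeticFunction.isMultiplicative_moebius.map_prod _ t fun a ha b hb hab =>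
      (Nat.coprime_primes (hp a ha) (hp b hb)).2 hab,
      prod_congr rfl fun p hpt => ArithmeticFunction.moebius_apply_prime (hp p hpt), prod_const]
  rw [show t.val.prod = ∏ p ∈ t, p by simp, hμ, hlog, mul_sum, Complex.exp_sum]
  push_cast
  ring

theorem primeShift_bounds {γ : ℂ} (hγ : ‖γ‖ ≤ 1 / 40) {s : Finset ℕ} (hs : ∀ p ∈ s, p.Prime) :
    ‖primeShift γ s‖ ≤ primeWeight s ∧
      ‖primeShift γ s - (((primeModel s)⁻¹ : ℝ) : ℂ)‖ ≤ ‖γ‖ * primeWeight s := by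
  induction s using Finset.induction_on with
  | empty => simp [primeShift, primeWeight, primeModel]
  | insert p s hps ih =>
    have hp := hs p (mem_insert_self p s)
    obtain ⟨i1, i2⟩ := ih fun q hq => hs q (mem_insert_of_mem hq)
    obtain ⟨b1, -, -, b4⟩ := prime_shift_bounds hγ hp
    obtain ⟨q, hq⟩ : ∃ q, q = cexp (-(1 + γ) * (Real.log p : ℂ)) := ⟨_, rfl⟩
    rw [← hq] at b1 b4
    have hp2 : (2 : ℝ) ≤ p := Nat.ofNat_le_cast.2 hp.two_le
    have hW := one_le_primeWeight s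
    have hK : primeWeight (insert p s) = primeWeight s * (1 + 8 * (1 / √(p : ℝ))) := by
      rw [primeWeight, prod_insert hps, primeWeight]; ring
    have hS : primeShift γ (insert p s) = (1 - q) * primeShift γ s := by
      rw [primeShift, prod_insert hps, primeShift, hq]
    have hM : (((primeModel (insert p s))⁻¹ : ℝ) : ℂ) =
        (1 - ((1 / (p : ℝ) : ℝ) : ℂ)) * (((primeModel s)⁻¹ : ℝ) : ℂ) := by
      rw [primeModel, prod_insert hps, primeModel, ← ofReal_one, ← ofReal_sub, ← ofReal_mul,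
        mul_inv, inv_div]
      congr 2
      field_simp
    obtain ⟨u, hu⟩ : ∃ u, u = 1 / √(p : ℝ) := ⟨_, rfl⟩
    have hu0 : 0 ≤ u := hu ▸ by positivity
    rw [show 3 / √(p : ℝ) = 3 * u by rw [hu]; ring] at b4
    rw [← hu] at b1 hK
    rw [hK, hS, hM]
    constructor
    · rw [norm_mul]
      refine (mul_le_mul ((norm_sub_le _ _).trans (add_le_add (le_of_eq norm_one) b1)) i1
        (norm_nonneg _) (by positivity)).trans ?_
      nlinarith [mul_nonneg hu0 (zero_le_one.trans hW)]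
    · rw [show (1 - q) * primeShift γ s - (1 - ((1 / (p : ℝ) : ℝ) : ℂ)) *
          (((primeModel s)⁻¹ : ℝ) : ℂ) = (((1 / (p : ℝ) : ℝ) : ℂ) - q) * primeShift γ s +
        ((1 - 1 / (p : ℝ) : ℝ) : ℂ) * (primeShift γ s - (((primeModel s)⁻¹ : ℝ) : ℂ)) by
          push_cast; ring]
      refine (norm_add_le _ _).trans ?_
      rw [norm_mul, norm_mul, norm_sub_rev, Complex.norm_real]
      have h1 : ‖(1 - 1 / (p : ℝ))‖ ≤ 1 := by
        have : 1 / (p : ℝ) ≤ 1 / 2 := div_le_div_of_nonneg_left zero_le_one two_pos hp2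
        have : 0 ≤ 1 / (p : ℝ) := by positivity
        rw [Real.norm_of_nonneg (by linarith)]
        linarith
      refine (add_le_add (mul_le_mul b4 i1 (norm_nonneg _) (by positivity))
        (mul_le_mul h1 i2 (norm_nonneg _) zero_le_one)).trans ?_
      have : 0 ≤ ‖γ‖ * primeWeight s * u := by positivity
      linarith

/-- The polynomial sum. -/
theorem exists_main_sum (A : ℝ) : ∃ C, 0 ≤ C ∧ ∀ (ℓ : ℝ) (α β : ℂ), 1 ≤ ℓ → ‖α‖ * ℓ ≤ A →
    ‖β‖ * ℓ ≤ A →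
    ‖(∑ e ∈ Icc 1 ⌊Real.exp ℓ⌋₊, (sqfreeWeight e : ℂ) *
        ((1 + β * ((ℓ - Real.log e : ℝ) : ℂ)) * (1 + α * ((ℓ - Real.log e : ℝ) : ℂ)))) -
      ((ℓ : ℂ) + (α + β) * (ℓ : ℂ) ^ 2 / 2 + α * β * (ℓ : ℂ) ^ 3 / 3)‖ ≤ C := by
  obtain ⟨C, hC, h⟩ := exists_sqfree_power_sum
  refine ⟨C + |A| * (4 * C) + |A| * |A| * (4 * C), by positivity, fun ℓ α β hℓ hα hβ => ?_⟩
  obtain ⟨N, hN⟩ : ∃ N, N = ⌊Real.exp ℓ⌋₊ := ⟨_, rfl⟩
  rw [← hN]
  obtain ⟨S, hS⟩ : ∃ S : ℕ → ℝ,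
      S = fun k => ∑ e ∈ Icc 1 N, sqfreeWeight e * (ℓ - Real.log e) ^ k := ⟨_, rfl⟩
  have e : (∑ e ∈ Icc 1 N, (sqfreeWeight e : ℂ) *
      ((1 + β * ((ℓ - Real.log e : ℝ) : ℂ)) * (1 + α * ((ℓ - Real.log e : ℝ) : ℂ)))) =
      (S 0 : ℂ) + (α + β) * (S 1 : ℂ) + α * β * (S 2 : ℂ) := by
    rw [hS]
    simp only [ofReal_sum, mul_sum, ← sum_add_distrib]
    refine sum_congr rfl fun e _ => ?_
    push_cast
    ring
  have b : ∀ k, |S k - ℓ ^ (k + 1) / (k + 1)| ≤ C * (1 + ℓ) ^ k := fun k => by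
    rw [hS]
    have := h k ℓ (by linarith)
    rwa [← hN] at this
  have b0 := b 0
  have b1 := b 1
  have b2 := b 2
  norm_num at b0 b1 b2
  rw [e, show (S 0 : ℂ) + (α + β) * (S 1 : ℂ) + α * β * (S 2 : ℂ) -
      ((ℓ : ℂ) + (α + β) * (ℓ : ℂ) ^ 2 / 2 + α * β * (ℓ : ℂ) ^ 3 / 3) =
    ((S 0 - ℓ : ℝ) : ℂ) + (α + β) * ((S 1 - ℓ ^ 2 / 2 : ℝ) : ℂ) +
      α * β * ((S 2 - ℓ ^ 3 / 3 : ℝ) : ℂ) by push_cast; ring]
  refine ((norm_add_le _ _).trans (add_le_add_left (norm_add_le _ _) _)).trans ?_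
  simp only [norm_mul, Complex.norm_real, Real.norm_eq_abs]
  have hA : 0 ≤ A := (mul_nonneg (norm_nonneg α) (by linarith)).trans hα
  rw [abs_of_nonneg hA]
  have c1 : ‖α + β‖ * |S 1 - ℓ ^ 2 / 2| ≤ A * (4 * C) := by
    refine (mul_le_mul (norm_add_le _ _) b1 (abs_nonneg _) (by positivity)).trans ?_
    nlinarith [norm_nonneg α, norm_nonneg β, mul_nonneg (norm_nonneg α) hC,
      mul_nonneg (norm_nonneg β) hC, mul_le_mul_of_nonneg_left hℓ (mul_nonneg (norm_nonneg α) hC),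
      mul_le_mul_of_nonneg_left hℓ (mul_nonneg (norm_nonneg β) hC),
      mul_le_mul_of_nonneg_left hα hC, mul_le_mul_of_nonneg_left hβ hC]
  have c2 : ‖α‖ * ‖β‖ * |S 2 - ℓ ^ 3 / 3| ≤ A * A * (4 * C) := by
    refine (mul_le_mul_of_nonneg_left (b2.trans (mul_le_mul_of_nonneg_left
      (show (1 + ℓ) ^ 2 ≤ 4 * ℓ ^ 2 by nlinarith) hC)) (by positivity)).trans ?_
    have := mul_le_mul_of_nonneg_left (mul_le_mul hα hβ (by positivity) hA)
      (show 0 ≤ 4 * C by positivity)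
    linarith
  linarith

theorem norm_mul_sub_mul_le {D D₀ F G M P : ℂ} {W a e₁ e₂ g : ℝ} (hD : ‖D‖ ≤ W)
    (hD0 : ‖D - D₀‖ ≤ g * W) (hM : ‖M‖ ≤ W * a) (hP : ‖P‖ ≤ W * a) (hF : ‖F - M‖ ≤ W * e₁)
    (hG : ‖G - P‖ ≤ W * e₂) :
    ‖D * (F * G) - D₀ * (M * P)‖ ≤ W ^ 3 * (g * a ^ 2 + a * e₁ + a * e₂ + e₁ * e₂) := by
  rw [show D * (F * G) - D₀ * (M * P) = (D - D₀) * (M * P) +
    D * ((F - M) * P + M * (G - P) + (F - M) * (G - P)) by ring]
  refine (norm_add_le _ _).trans ?_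
  simp only [norm_mul]
  have hW : 0 ≤ W := (norm_nonneg _).trans hD
  have n1 := (norm_nonneg _).trans hM
  have h1 := mul_le_mul hD0 (mul_le_mul hM hP (norm_nonneg _) n1) (by positivity)
    ((norm_nonneg _).trans hD0)
  have h2 : ‖(F - M) * P + M * (G - P) + (F - M) * (G - P)‖ ≤
      W * e₁ * (W * a) + W * a * (W * e₂) + W * e₁ * (W * e₂) := by
    refine ((norm_add_le _ _).trans (add_le_add_left (norm_add_le _ _) _)).trans ?_
    simp only [norm_mul]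
    gcongr
    · exact (norm_nonneg _).trans hF
    · exact (norm_nonneg _).trans hF
  have h3 := mul_le_mul hD h2 (norm_nonneg _) hW
  linarith

theorem levTerm_eq {ℓ : ℝ} (hℓ : ℓ ≠ 0) (α β : ℂ) {e : ℕ} (he : e ∈ Icc 1 ⌊Real.exp ℓ⌋₊) :
    (ℓ : ℂ) ^ 2 * (gcdKernel (α + β) e *
      ((∑ h ∈ (Icc 1 ⌊Real.exp ℓ⌋₊).filter (fun h => e ∣ h),
          levCoef ℓ h * cexp (-(1 + β) * clogNat h)) *
        ∑ k ∈ (Icc 1 ⌊Real.exp ℓ⌋₊).filter (fun k => e ∣ k),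
          levCoef ℓ k * cexp (-(1 + α) * clogNat k))) =
    if Squarefree e then primeShift (α + β) e.primeFactors *
      (twistMob β e.primeFactors (Real.exp ℓ / e) *
        twistMob α e.primeFactors (Real.exp ℓ / e)) / (e : ℂ) else 0 := by
  rw [sum_levCoef_multiples hℓ β he, sum_levCoef_multiples hℓ α he]
  have hℓ' : (ℓ : ℂ) ≠ 0 := ofReal_ne_zero.2 hℓ
  split_ifs with hsq
  · have hμ : (μ e : ℂ) * (μ e : ℂ) = 1 := by
      rcases ArithmeticFunction.moebius_ne_zero_iff_eq_or.1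
        (ArithmeticFunction.moebius_ne_zero_iff_squarefree.2 hsq) with h | h <;> simp [h]
    have hexp : cexp (-(1 + β) * clogNat e) * cexp (-(1 + α) * clogNat e) =
        cexp (-(2 + (α + β)) * clogNat e) := by
      rw [← Complex.exp_add]; congr 1; ring
    obtain ⟨F, hF⟩ : ∃ F, F = twistMob β e.primeFactors (Real.exp ℓ / e) := ⟨_, rfl⟩
    obtain ⟨G, hG⟩ : ∃ G, G = twistMob α e.primeFactors (Real.exp ℓ / e) := ⟨_, rfl⟩
    rw [← hF, ← hG]
    calc (ℓ : ℂ) ^ 2 * (gcdKernel (α + β) e *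
          ((μ e : ℂ) * cexp (-(1 + β) * clogNat e) * F / (ℓ : ℂ) *
            ((μ e : ℂ) * cexp (-(1 + α) * clogNat e) * G / (ℓ : ℂ))))
        = (μ e : ℂ) * (μ e : ℂ) * (gcdKernel (α + β) e *
            (cexp (-(1 + β) * clogNat e) * cexp (-(1 + α) * clogNat e))) * (F * G) := by
          field_simp
      _ = _ := by rw [hμ, one_mul, hexp, gcdKernel_mul_exp _ hsq]; ring
  · rw [ArithmeticFunction.moebius_eq_zero_of_not_squarefree hsq]
    simp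

theorem exists_levTerm_le {A ε : ℝ} (hA : 0 ≤ A) (hε : 0 < ε) (hε1 : ε ≤ 1) :
    ∃ C, 0 ≤ C ∧ ∀ (ℓ : ℝ) (α β : ℂ) (e : ℕ), 0 < ℓ → ‖α‖ ≤ 1 / 80 → ‖β‖ ≤ 1 / 80 →
      ‖α‖ * ℓ ≤ A → ‖β‖ * ℓ ≤ A → e ∈ Icc 1 ⌊Real.exp ℓ⌋₊ → Squarefree e →
      ‖primeShift (α + β) e.primeFactors * (twistMob β e.primeFactors (Real.exp ℓ / e) *
          twistMob α e.primeFactors (Real.exp ℓ / e)) / (e : ℂ) -
        (sqfreeWeight e : ℂ) *
          ((1 + β * ((ℓ - Real.log e : ℝ) : ℂ)) * (1 + α * ((ℓ - Real.log e : ℝ) : ℂ)))‖ ≤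
      primeWeight e.primeFactors ^ 3 / e *
        ((2 * A + 5) * ε + C * ((‖α‖ + ‖β‖) + (Real.exp ℓ / e) ^ (-(1 / 4) : ℝ))) := by
  obtain ⟨C, hC, h⟩ := exists_twistMob_le hA hε
  refine ⟨(1 + A) ^ 2 + 2 * (1 + A) * C + 3 * C ^ 2, by positivity,
    fun ℓ α β e hℓ hα hβ hαA hβA he hsq => ?_⟩
  rw [mem_Icc] at he
  obtain ⟨s, hs⟩ : ∃ s, s = e.primeFactors := ⟨_, rfl⟩
  have hp : ∀ p ∈ s, p.Prime := fun p hp => Nat.prime_of_mem_primeFactors (hs ▸ hp)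
  obtain ⟨x, hx⟩ : ∃ x, x = Real.exp ℓ / e := ⟨_, rfl⟩
  have he0 : (0 : ℝ) < e := Nat.cast_pos.2 he.1
  have hle : (e : ℝ) ≤ Real.exp ℓ :=
    (Nat.cast_le.2 he.2).trans (Nat.floor_le (Real.exp_pos ℓ).le)
  have hx1 : 1 ≤ x := hx ▸ (one_le_div he0).2 hle
  have hlx : Real.log x = ℓ - Real.log e := by
    rw [hx, Real.log_div (Real.exp_pos ℓ).ne' he0.ne', Real.log_exp]
  have hlx0 : 0 ≤ Real.log x := Real.log_nonneg hx1
  have hlxℓ : Real.log x ≤ ℓ := by linarith [Real.log_natCast_nonneg e]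
  obtain ⟨hK0, hKW⟩ := primeModel_bounds hp
  have hKpos : 0 < primeModel s := prod_pos fun p hp' => by
    have : (2 : ℝ) ≤ p := Nat.ofNat_le_cast.2 (hp p hp').two_le
    exact div_pos (by linarith) (by linarith)
  have hlin : ∀ c : ℂ, ‖c‖ * ℓ ≤ A →
      ‖(primeModel s : ℂ) * (1 + c * (Real.log x : ℂ))‖ ≤ primeWeight s * (1 + A) := fun c hc => by
    rw [norm_mul, Complex.norm_real, Real.norm_of_nonneg hK0]
    refine mul_le_mul hKW ((norm_add_le _ _).trans ?_) (norm_nonneg _)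
      (zero_le_one.trans (one_le_primeWeight s))
    rw [norm_one, norm_mul, Complex.norm_real, Real.norm_of_nonneg hlx0]
    linarith [mul_le_mul_of_nonneg_left hlxℓ (norm_nonneg c)]
  have hAx : ∀ c : ℂ, ‖c‖ * ℓ ≤ A → ‖c‖ * Real.log x ≤ A := fun c hc =>
    (mul_le_mul_of_nonneg_left hlxℓ (norm_nonneg c)).trans hc
  obtain ⟨d1, d2⟩ := primeShift_bounds (γ := α + β) ((norm_add_le α β).trans (by linarith)) hp
  have hF := h β s x hp (hβ.trans (by norm_num)) (by linarith) (hAx β hβA)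
  have hG := h α s x hp (hα.trans (by norm_num)) (by linarith) (hAx α hαA)
  have hmain := norm_mul_sub_mul_le d1 d2 (hlin β hβA) (hlin α hαA) hF hG
  rw [sqfreeWeight, if_pos hsq, ← hs, ← hx, ← hlx]
  rw [show primeShift (α + β) s * (twistMob β s x * twistMob α s x) / (e : ℂ) -
      ((primeModel s / e : ℝ) : ℂ) * ((1 + β * (Real.log x : ℂ)) * (1 + α * (Real.log x : ℂ))) =
    (primeShift (α + β) s * (twistMob β s x * twistMob α s x) - (((primeModel s)⁻¹ : ℝ) : ℂ) *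
      ((primeModel s : ℂ) * (1 + β * (Real.log x : ℂ)) *
        ((primeModel s : ℂ) * (1 + α * (Real.log x : ℂ))))) / (e : ℂ) by
      have hK' : (primeModel s : ℂ) ≠ 0 := ofReal_ne_zero.2 hKpos.ne'
      push_cast
      field_simp,
    norm_div, Complex.norm_natCast]
  refine (div_le_div_of_nonneg_right hmain he0.le).trans ?_
  rw [div_mul_eq_mul_div]
  refine div_le_div_of_nonneg_right (mul_le_mul_of_nonneg_left ?_
    (pow_nonneg (zero_le_one.trans (one_le_primeWeight s)) 3)) he0.le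
  obtain ⟨y, hy⟩ : ∃ y, y = x ^ (-(1 / 4) : ℝ) := ⟨_, rfl⟩
  have hy0 : 0 ≤ y := hy ▸ by positivity
  have hy1 : y ≤ 1 := hy ▸ Real.rpow_le_one_of_one_le_of_nonpos hx1 (by norm_num)
  rw [← hy]
  have hg := norm_add_le α β
  have na := norm_nonneg α
  have nb := norm_nonneg β
  obtain ⟨δ, hδ⟩ : ∃ δ, δ = ‖α‖ + ‖β‖ + y := ⟨_, rfl⟩
  have hδ2 : δ * δ ≤ 3 * δ := mul_le_mul_of_nonneg_right (by linarith) (by linarith)
  have hδ0 : 0 ≤ δ := by linarith
  have e1 : ε + C * (‖β‖ + y) ≤ ε + C * δ := by nlinarith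
  have e2 : ε + C * (‖α‖ + y) ≤ ε + C * δ := by nlinarith
  have e12 := mul_le_mul e1 e2 (by positivity) (by positivity)
  have hsq2 : (ε + C * δ) * (ε + C * δ) ≤ 3 * ε + 3 * C ^ 2 * δ + 0 := by
    have h1 := mul_le_mul_of_nonneg_left hδ2 (sq_nonneg C)
    nlinarith [sq_nonneg (ε - C * δ / 2), mul_le_mul_of_nonneg_right hε1 hε.le]
  have g1 : ‖α + β‖ * (1 + A) ^ 2 ≤ (1 + A) ^ 2 * δ := by
    rw [mul_comm]; exact mul_le_mul_of_nonneg_left (by linarith) (sq_nonneg _)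
  rw [← hδ]
  nlinarith [mul_le_mul_of_nonneg_left (add_le_add e1 e2) (show 0 ≤ 1 + A by linarith)]

/-- **The asymptotic formula of the sum.** -/
theorem exists_twistSum_levCoef {A ε : ℝ} (hA : 0 ≤ A) (hε : 0 < ε) :
    ∃ C, 0 ≤ C ∧ ∀ (ℓ : ℝ) (α β : ℂ), 1 ≤ ℓ → ‖α‖ ≤ 1 / 80 → ‖β‖ ≤ 1 / 80 →
      ‖α‖ * ℓ ≤ A → ‖β‖ * ℓ ≤ A →
      ‖(ℓ : ℂ) ^ 2 * twistSum ⌊Real.exp ℓ⌋₊ (levCoef ℓ) α β -
          ((ℓ : ℂ) + (α + β) * (ℓ : ℂ) ^ 2 / 2 + α * β * (ℓ : ℂ) ^ 3 / 3)‖ ≤ ε * ℓ + C := by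
  obtain ⟨Cw, hCw, hw⟩ := exists_weight_sums
  obtain ⟨Cm, hCm, hm⟩ := exists_main_sum A
  obtain ⟨ε₁, he0, he1, hee⟩ : ∃ ε₁ : ℝ, 0 < ε₁ ∧ ε₁ ≤ 1 ∧
      Cw * ((2 * A + 5) * ε₁) * 2 ≤ ε := by
    have hpos : 0 < Cw * (2 * A + 5) * 2 + 1 := by positivity
    refine ⟨min 1 (ε / (Cw * (2 * A + 5) * 2 + 1)), lt_min one_pos (by positivity),
      min_le_left _ _, ?_⟩
    have h := (le_div_iff₀ hpos).1 (min_le_right 1 (ε / (Cw * (2 * A + 5) * 2 + 1)))
    nlinarith [le_min zero_le_one (show 0 ≤ ε / (Cw * (2 * A + 5) * 2 + 1) by positivity)]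
  obtain ⟨C, hC, ht⟩ := exists_levTerm_le hA he0 he1
  refine ⟨Cm + Cw * C * (4 * A + 1), by positivity, fun ℓ α β hℓ hα hβ hαA hβA => ?_⟩
  obtain ⟨N, hN⟩ : ∃ N, N = ⌊Real.exp ℓ⌋₊ := ⟨_, rfl⟩
  obtain ⟨P, hP⟩ : ∃ P : ℕ → ℂ, P = fun e : ℕ => (sqfreeWeight e : ℂ) *
      ((1 + β * ((ℓ - Real.log e : ℝ) : ℂ)) * (1 + α * ((ℓ - Real.log e : ℝ) : ℂ))) := ⟨_, rfl⟩
  have hmain := hm ℓ α β hℓ hαA hβA
  rw [← hN] at hmain ⊢
  rw [twistSum_levCoef, mul_sum]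
  have hNe : (N : ℝ) ≤ Real.exp ℓ := hN ▸ Nat.floor_le (Real.exp_pos ℓ).le
  have hterm : ∀ e ∈ Icc 1 N,
      ‖(ℓ : ℂ) ^ 2 * (gcdKernel (α + β) e *
        ((∑ h ∈ (Icc 1 N).filter (fun h => e ∣ h), levCoef ℓ h * cexp (-(1 + β) * clogNat h)) *
          ∑ k ∈ (Icc 1 N).filter (fun k => e ∣ k), levCoef ℓ k * cexp (-(1 + α) * clogNat k))) -
        P e‖ ≤ ((2 * A + 5) * ε₁ + C * (‖α‖ + ‖β‖)) * (primeWeight e.primeFactors ^ 3 / e) +
          C * Real.exp ℓ ^ (-(1 / 4) : ℝ) *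
            (primeWeight e.primeFactors ^ 3 * (e : ℝ) ^ (-(3 / 4) : ℝ)) := fun e he => by
    subst hN
    rw [levTerm_eq (by linarith) α β he]
    have hW := zero_le_one.trans (one_le_primeWeight e.primeFactors)
    split_ifs with hsq
    · simp only [hP]
      refine (ht ℓ α β e (by linarith) hα hβ hαA hβA he hsq).trans (le_of_eq ?_)
      have he' : (0 : ℝ) < e := Nat.cast_pos.2 (mem_Icc.1 he).1
      rw [Real.div_rpow (Real.exp_pos ℓ).le he'.le, Real.rpow_neg he'.le, div_inv_eq_mul,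
        show (-(3 / 4) : ℝ) = 1 / 4 + -1 by norm_num, Real.rpow_add he', Real.rpow_neg_one]
      ring
    · simp only [hP, sqfreeWeight, if_neg hsq, ofReal_zero, zero_mul, sub_zero, norm_zero]
      positivity
  refine (norm_sub_le_norm_sub_add_norm_sub _ (∑ e ∈ Icc 1 N, P e) _).trans
    ((add_le_add ?_ (hP ▸ hmain)).trans
      (le_of_eq_of_le rfl (show (ε * ℓ + Cw * C * (4 * A + 1)) + Cm ≤ _ by linarith)))
  rw [← sum_sub_distrib]
  refine (norm_sum_le _ _).trans ((sum_le_sum hterm).trans ?_)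
  rw [sum_add_distrib, ← mul_sum, ← mul_sum]
  have hl : 1 + Real.log N ≤ 1 + ℓ := by
    rcases Nat.eq_zero_or_pos N with h | h
    · simp only [h, Nat.cast_zero, Real.log_zero]; linarith
    · linarith [(Real.log_le_iff_le_exp (Nat.cast_pos.2 h)).2 hNe]
  have c1 := mul_le_mul_of_nonneg_left ((hw N).1.trans (mul_le_mul_of_nonneg_left hl hCw))
    (show 0 ≤ (2 * A + 5) * ε₁ + C * (‖α‖ + ‖β‖) by positivity)
  have hone : (N : ℝ) ^ (1 / 4 : ℝ) * Real.exp ℓ ^ (-(1 / 4) : ℝ) ≤ 1 := by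
    rw [Real.rpow_neg (Real.exp_pos ℓ).le, ← div_eq_mul_inv, div_le_one (by positivity)]
    exact Real.rpow_le_rpow (Nat.cast_nonneg N) hNe (by norm_num)
  have c2 : C * Real.exp ℓ ^ (-(1 / 4) : ℝ) *
      ∑ e ∈ Icc 1 N, primeWeight e.primeFactors ^ 3 * (e : ℝ) ^ (-(3 / 4) : ℝ) ≤ C * Cw := by
    refine (mul_le_mul_of_nonneg_left (hw N).2 (by positivity)).trans ?_
    have := mul_le_mul_of_nonneg_left hone (show 0 ≤ C * Cw by positivity)
    linarith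
  refine (add_le_add c1 c2).trans ?_
  have p1 : (‖α‖ + ‖β‖) * (1 + ℓ) ≤ 4 * A := by
    nlinarith [mul_le_mul_of_nonneg_left hℓ (norm_nonneg α),
      mul_le_mul_of_nonneg_left hℓ (norm_nonneg β)]
  have p2 := mul_le_mul_of_nonneg_left p1 (mul_nonneg hC hCw)
  have p3 : Cw * ((2 * A + 5) * ε₁) * (1 + ℓ) ≤ ε * ℓ := by
    have h0 : 0 ≤ Cw * ((2 * A + 5) * ε₁) := by positivity
    nlinarith [mul_le_mul_of_nonneg_left hℓ h0, mul_le_mul_of_nonneg_right hee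
      (show 0 ≤ ℓ by linarith)]
  linarith

end FA.LevinsonThird

end
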