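import Fermat.Agent.LevinsonThird.MollifierSum
import Mathlib.Analysis.SpecialFunctions.Pow.Asymptotics

/-!
# The limit of the mollified second moment

With the length `T^(49/100)` the moment at the shifts `A / log T`, `B / log T` is
`T · c (A, B) + o (T)`, `c = (1/θ + θ A B / 3) (1 - e^(-A-B)) / (A+B) + (1 + e^(-A-B)) / 2`.
-/

set_option autoImplicit false

noncomputable section

namespace FA.LevinsonThird

open Finset Complex Filter MeasureTheory
open FA.SelbergCLT (riemannZeta_eq_of_ne_one)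
open FA.TwistedMoment (mollPoly twistSum momentMain tau exists_twisted_second_moment Shifts)
open scoped Real Interval Topology

/-- The exponent of the length of the mollifier. -/
def levTheta : ℝ := 49 / 100

/-- `log` of the length of the mollifier. -/
def levEll (T : ℝ) : ℝ := levTheta * Real.log T

/-- The length of the mollifier. -/
def levLen (T : ℝ) : ℕ := ⌊Real.exp (levEll T)⌋₊

/-- The mollifier on the line. -/
def levPoly (T t : ℝ) : ℂ := mollPoly (levLen T) (levCoef (levEll T)) t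

/-- The mollified shifted moment. -/
def twistIntegral (T : ℝ) (α β : ℂ) : ℂ :=
  ∫ t in T..2 * T, riemannZeta ((1 / 2 : ℂ) + t * I + α) *
    riemannZeta ((1 / 2 : ℂ) - t * I + β) * ((‖levPoly T t‖ ^ 2 : ℝ) : ℂ)

/-- `1/θ + (A+B)/2 + θ A B / 3`. -/
def levQuad (A B : ℂ) : ℂ :=
  1 / (levTheta : ℂ) + (A + B) / 2 + A * B * (levTheta : ℂ) / 3

/-- **The limit.** -/
def levLimit (A B : ℂ) : ℂ :=
  (levQuad A B - cexp (-(A + B)) * levQuad (-B) (-A)) / (A + B)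

theorem exists_zeta_near_one : ∃ C, 0 ≤ C ∧ ∀ γ : ℂ, ‖γ‖ ≤ 1 → γ ≠ 0 →
    ‖riemannZeta (1 + γ) - 1 / γ‖ ≤ C := by
  have hd : DifferentiableOn ℂ (dslope riemannZeta₁ 1) Set.univ :=
    (differentiableOn_dslope univ_mem).2 differentiable_riemannZeta₁.differentiableOn
  obtain ⟨C, hC⟩ := (isCompact_closedBall (1 : ℂ) 1).exists_bound_of_continuousOn
    (hd.continuousOn.mono (Set.subset_univ _))
  refine ⟨max C 0, le_max_right _ _, fun γ hγ h0 => le_trans ?_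
    ((hC (1 + γ) (by simpa [Metric.mem_closedBall, dist_eq_norm] using hγ)).trans
        (le_max_left _ _))⟩
  have hne : 1 + γ ≠ 1 := fun h => h0 (by linear_combination h)
  rw [dslope_of_ne _ hne, slope_def_field, riemannZeta₁_one,
    riemannZeta_eq_of_ne_one hne, add_sub_cancel_left, sub_div]

theorem norm_mul_sub_le {p p' q q' : ℂ} {a b P Q : ℝ} (hp : ‖p' - p‖ ≤ a) (hq : ‖q' - q‖ ≤ b)
    (hP : ‖p‖ ≤ P) (hQ : ‖q‖ ≤ Q) : ‖p' * q' - p * q‖ ≤ a * Q + (P + a) * b := by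
  rw [show p' * q' - p * q = (p' - p) * q + p' * (q' - q) by ring]
  refine (norm_add_le _ _).trans (add_le_add ?_ ?_)
  · rw [norm_mul]
    exact mul_le_mul hp hQ (norm_nonneg _) ((norm_nonneg _).trans hp)
  · rw [norm_mul]
    refine mul_le_mul ((norm_le_norm_add_norm_sub' p' p).trans ?_) hq (norm_nonneg _)
      (add_nonneg ((norm_nonneg _).trans hP) ((norm_nonneg _).trans hp))
    exact add_le_add hP hp

theorem norm_exp_shift_le {Z : ℂ} {L u : ℝ} (hZ : ‖Z‖ ≤ 6) (hL : 18 ≤ L) (hu : |u - L| ≤ 3) :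
    ‖cexp (-(Z / (L : ℂ)) * u) - cexp (-Z)‖ ≤ Real.exp 6 * (36 / L) := by
  obtain ⟨h, hh⟩ : ∃ h, h = -(Z * ((u - L : ℝ) : ℂ)) / (L : ℂ) := ⟨_, rfl⟩
  have hL0 : (L : ℂ) ≠ 0 := ofReal_ne_zero.2 (by linarith)
  have e : -(Z / (L : ℂ)) * u = -Z + h := by
    rw [hh]; push_cast; field_simp; ring
  have hn : ‖h‖ ≤ 18 / L := by
    rw [hh, norm_div, norm_neg, norm_mul, Complex.norm_real, Complex.norm_real,
      Real.norm_of_nonneg (show 0 ≤ L by linarith), Real.norm_eq_abs]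
    refine div_le_div_of_nonneg_right ?_ (by linarith)
    exact (mul_le_mul hZ hu (abs_nonneg _) (by norm_num)).trans (by norm_num)
  have h1 : ‖h‖ ≤ 1 := hn.trans (by rw [div_le_one (by linarith)]; exact hL)
  rw [e, Complex.exp_add, ← mul_sub_one, norm_mul]
  refine (mul_le_mul ?_ ((Complex.norm_exp_sub_one_le h1).trans
    (mul_le_mul_of_nonneg_left hn zero_le_two)) (norm_nonneg _) (Real.exp_pos _).le).trans
      (le_of_eq (by ring))
  rw [Complex.norm_exp, Real.exp_le_exp]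
  exact (le_abs_self _).trans ((abs_re_le_norm _).trans (by rwa [norm_neg]))

theorem norm_levQuad_le {A B : ℂ} (hA : ‖A‖ ≤ 3) (hB : ‖B‖ ≤ 3) : ‖levQuad A B‖ ≤ 8 := by
  have ht : (levTheta : ℂ) = (49 : ℂ) / 100 := by rw [levTheta]; push_cast; ring
  rw [levQuad, ht]
  refine ((norm_add_le _ _).trans (add_le_add_left (norm_add_le _ _) _)).trans ?_
  simp only [norm_div, norm_mul, norm_one, Complex.norm_ofNat]
  have h1 := norm_add_le A B
  have h2 := mul_le_mul hA hB (norm_nonneg _) (by norm_num)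
  norm_num at h2 ⊢
  linarith

/-- The arithmetic sum, rescaled. -/
theorem exists_twistSum_rescale {ε : ℝ} (hε : 0 < ε) : ∀ᶠ T : ℝ in atTop, ∀ A B : ℂ,
    ‖A‖ ≤ 3 → ‖B‖ ≤ 3 →
    ‖(Real.log T : ℂ) * twistSum (levLen T) (levCoef (levEll T)) (A / (Real.log T : ℂ))
        (B / (Real.log T : ℂ)) - levQuad A B‖ ≤ ε := by
  obtain ⟨C, hC, hS⟩ := exists_twistSum_levCoef (A := 3) (ε := ε * levTheta / 2) (by norm_num)
    (by rw [levTheta]; positivity)
  have hev : ∀ᶠ T : ℝ in atTop, 1000 + 2 * C / (levTheta ^ 2 * ε) ≤ Real.log T :=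
    Real.tendsto_log_atTop.eventually_ge_atTop _
  filter_upwards [hev] with T hT A B hA hB
  have hθ : 0 < levTheta := by rw [levTheta]; norm_num
  have hC' : 0 ≤ 2 * C / (levTheta ^ 2 * ε) := by positivity
  obtain ⟨L, hL⟩ : ∃ L, L = Real.log T := ⟨_, rfl⟩
  obtain ⟨ℓ, hℓ⟩ : ∃ ℓ, ℓ = levEll T := ⟨_, rfl⟩
  rw [← hL] at hT ⊢
  have hℓ' : ℓ = levTheta * L := by rw [hℓ, levEll, hL]
  have hℓ1 : 1 ≤ ℓ := by rw [hℓ', levTheta]; linarith
  have hL0 : 0 < L := by linarith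
  have hn : ∀ Z : ℂ, ‖Z‖ ≤ 3 → ‖Z / (L : ℂ)‖ ≤ 1 / 80 ∧ ‖Z / (L : ℂ)‖ * ℓ ≤ 3 := fun Z hZ => by
    rw [norm_div, Complex.norm_real, Real.norm_of_nonneg hL0.le]
    refine ⟨by rw [div_le_iff₀ hL0]; linarith, ?_⟩
    rw [hℓ', div_mul_eq_mul_div, div_le_iff₀ hL0, levTheta]
    nlinarith [norm_nonneg Z]
  have h := hS ℓ (A / (L : ℂ)) (B / (L : ℂ)) hℓ1 (hn A hA).1 (hn B hB).1 (hn A hA).2 (hn B hB).2
  rw [show levLen T = ⌊Real.exp ℓ⌋₊ by rw [levLen, hℓ], ← hℓ]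
  generalize twistSum ⌊Real.exp ℓ⌋₊ (levCoef ℓ) (A / (L : ℂ)) (B / (L : ℂ)) = S at h ⊢
  have e : (L : ℂ) * S - levQuad A B = ((L / ℓ ^ 2 : ℝ) : ℂ) * ((ℓ : ℂ) ^ 2 * S -
      ((ℓ : ℂ) + (A / (L : ℂ) + B / (L : ℂ)) * (ℓ : ℂ) ^ 2 / 2 +
        A / (L : ℂ) * (B / (L : ℂ)) * (ℓ : ℂ) ^ 3 / 3)) := by
    rw [hℓ', levQuad]
    have hL' : (L : ℂ) ≠ 0 := ofReal_ne_zero.2 hL0.ne'
    have hθ' : (levTheta : ℂ) ≠ 0 := ofReal_ne_zero.2 hθ.ne'
    push_cast
    field_simp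
  rw [e, norm_mul, Complex.norm_real, Real.norm_of_nonneg (by positivity)]
  refine (mul_le_mul_of_nonneg_left h (by positivity)).trans ?_
  rw [hℓ', show L / (levTheta * L) ^ 2 * (ε * levTheta / 2 * (levTheta * L) + C) =
    ε / 2 + C / (levTheta ^ 2 * L) by field_simp]
  have h2 : C / (levTheta ^ 2 * L) ≤ ε / 2 := by
    rw [div_le_iff₀ (by positivity)]
    have h3 := (div_le_iff₀ (show 0 < levTheta ^ 2 * ε by positivity)).1
      (show 2 * C / (levTheta ^ 2 * ε) ≤ L by linarith)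
    linarith
  linarith

theorem levLen_bounds {T : ℝ} (hT : 1 ≤ T) :
    1 ≤ levLen T ∧ (levLen T : ℝ) ≤ T ^ levTheta ∧ (levLen T : ℝ) ≤ T := by
  have h1 : Real.exp (levEll T) = T ^ levTheta := by
    rw [Real.rpow_def_of_pos (by linarith), levEll, mul_comm]
  have hle : (levLen T : ℝ) ≤ T ^ levTheta := h1 ▸ Nat.floor_le (Real.exp_pos _).le
  refine ⟨Nat.le_floor ?_, hle,
    hle.trans (Real.rpow_le_self_of_one_le hT (by rw [levTheta]; norm_num))⟩
  rw [h1]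
  push_cast
  exact Real.one_le_rpow hT (by rw [levTheta]; norm_num)

theorem eventually_error_le (C : ℝ) {ε : ℝ} (hε : 0 < ε) : ∀ᶠ T : ℝ in atTop,
    C * ((levLen T : ℝ) * √T + √(levLen T : ℝ) * T ^ (3 / 4 : ℝ)) * (1 + Real.log T) ^ 4 ≤
      ε * T := by
  have hlim : Tendsto (fun T : ℝ => (1 + Real.log T) ^ 4 * T ^ (-(1 / 200) : ℝ)) atTop (𝓝 0) := by
    have h1 : Tendsto (fun T : ℝ => Real.log T / T ^ (1 / 800 : ℝ)) atTop (𝓝 0) :=
      (isLittleO_log_rpow_atTop (by norm_num)).tendsto_div_nhds_zero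
    have h2 : Tendsto (fun T : ℝ => T ^ (-(1 / 800) : ℝ)) atTop (𝓝 0) :=
      tendsto_rpow_neg_atTop (by norm_num)
    have h3 := (h2.add h1).pow 4
    rw [add_zero, zero_pow (by norm_num)] at h3
    refine h3.congr' ?_
    filter_upwards [eventually_gt_atTop 0] with T hT
    rw [Real.rpow_neg hT.le, Real.rpow_neg hT.le, inv_eq_one_div, ← add_div, div_pow,
      ← Real.rpow_natCast (T ^ (1 / 800 : ℝ)) 4, ← Real.rpow_mul hT.le, div_eq_mul_inv]
    norm_num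
  have hev := (hlim.const_mul (2 * |C|)).eventually_le_const
      (show 2 * |C| * 0 < ε by simpa using hε)
  filter_upwards [hev, eventually_ge_atTop 1] with T hT hT1
  obtain ⟨h1, h2, -⟩ := levLen_bounds hT1
  have hT0 : 0 < T := by linarith
  have hp : T ^ (-(1 / 200) : ℝ) * T = T ^ (199 / 200 : ℝ) := by
    rw [show (199 / 200 : ℝ) = -(1 / 200) + 1 by norm_num, Real.rpow_add hT0, Real.rpow_one]
  have b1 : (levLen T : ℝ) * √T ≤ T ^ (199 / 200 : ℝ) := by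
    refine (mul_le_mul_of_nonneg_right h2 (Real.sqrt_nonneg _)).trans ?_
    rw [Real.sqrt_eq_rpow, ← Real.rpow_add hT0]
    exact Real.rpow_le_rpow_of_exponent_le hT1 (by rw [levTheta]; norm_num)
  have b2 : √(levLen T : ℝ) * T ^ (3 / 4 : ℝ) ≤ T ^ (199 / 200 : ℝ) := by
    refine (mul_le_mul_of_nonneg_right (Real.sqrt_le_sqrt h2) (by positivity)).trans ?_
    rw [Real.sqrt_eq_rpow, ← Real.rpow_mul hT0.le, ← Real.rpow_add hT0]
    exact Real.rpow_le_rpow_of_exponent_le hT1 (by rw [levTheta]; norm_num)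
  have hl : 0 ≤ 1 + Real.log T := by linarith [Real.log_nonneg hT1]
  refine (mul_le_mul_of_nonneg_right (mul_le_mul (le_abs_self C) (add_le_add b1 b2) (by positivity)
    (abs_nonneg C)) (pow_nonneg hl 4)).trans ?_
  rw [← hp]
  have := mul_le_mul_of_nonneg_right hT hT0.le
  linarith

theorem continuousOn_exp_tau {T : ℝ} (hT : 1 ≤ T) (γ : ℂ) :
    ContinuousOn (fun t : ℝ => cexp (-γ * tau t)) (Set.uIcc T (2 * T)) := by
  intro t ht
  rw [Set.uIcc_of_le (by linarith)] at ht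
  exact ((continuousAt_const.mul (continuous_ofReal.continuousAt.comp'
    (FA.TwistedMoment.hasDerivAt_tau (by linarith [ht.1])).continuousAt)).cexp).continuousWithinAt

/-- `avg (t/2π)^(-γ) → e^(-A-B)`. -/
theorem norm_avg_sub_le {T : ℝ} {Z : ℂ} (hT : 18 ≤ Real.log T) (hT0 : 1 ≤ T) (hZ : ‖Z‖ ≤ 6) :
    ‖(T : ℂ)⁻¹ * (∫ t in T..2 * T, cexp (-(Z / (Real.log T : ℂ)) * tau t)) - cexp (-Z)‖ ≤
      Real.exp 6 * (36 / Real.log T) := by
  have hTc : (T : ℂ) ≠ 0 := ofReal_ne_zero.2 (by linarith)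
  have e : (∫ t in T..2 * T, cexp (-Z)) = (T : ℂ) * cexp (-Z) := by
    rw [intervalIntegral.integral_const, real_smul, show (2 * T - T : ℝ) = T by ring]
  rw [show (T : ℂ)⁻¹ * (∫ t in T..2 * T, cexp (-(Z / (Real.log T : ℂ)) * tau t)) - cexp (-Z) =
    (T : ℂ)⁻¹ * ((∫ t in T..2 * T, cexp (-(Z / (Real.log T : ℂ)) * tau t)) -
      ∫ t in T..2 * T, cexp (-Z)) by rw [e]; field_simp,
    ← intervalIntegral.integral_sub (continuousOn_exp_tau hT0 _).intervalIntegrable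
      intervalIntegrable_const, norm_mul, norm_inv, Complex.norm_real,
    Real.norm_of_nonneg (by linarith), inv_mul_le_iff₀ (by linarith)]
  refine (intervalIntegral.norm_integral_le_of_norm_le_const
    (C := Real.exp 6 * (36 / Real.log T)) (fun t ht => ?_)).trans
    (le_of_eq (by rw [show 2 * T - T = T by ring, abs_of_pos (by linarith)]; ring))
  rw [Set.uIoc_of_le (by linarith)] at ht
  refine norm_exp_shift_le hZ hT ?_
  have ht0 : 0 < t := by linarith [ht.1]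
  have l1 := Real.log_le_log (by linarith) ht.1.le
  have l2 := Real.log_le_log ht0 ht.2
  rw [Real.log_mul two_ne_zero (by linarith)] at l2
  have l3 : 0 ≤ Real.log (2 * π) ∧ Real.log (2 * π) ≤ 2 := by
    have := Real.pi_gt_three
    have := Real.pi_lt_d2
    refine ⟨Real.log_nonneg (by linarith), (Real.log_le_iff_le_exp (by positivity)).2 ?_⟩
    have h := Real.exp_one_gt_d9
    rw [show (2 : ℝ) = 1 + 1 by norm_num, Real.exp_add]
    nlinarith
  rw [tau, Real.log_div ht0.ne' (by positivity), abs_le]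
  constructor <;> linarith [Real.log_two_lt_d9]

/-- **The limit of the moment.** -/
theorem twistIntegral_limit {ε : ℝ} (hε : 0 < ε) : ∀ᶠ T : ℝ in atTop, ∀ A B : ℂ,
    ‖A‖ ≤ 3 → ‖B‖ ≤ 3 → 1 / 2 ≤ ‖A + B‖ →
    ‖twistIntegral T (A / (Real.log T : ℂ)) (B / (Real.log T : ℂ)) -
        (T : ℂ) * levLimit A B‖ ≤ ε * T := by
  obtain ⟨C, hC, hmom⟩ := exists_twisted_second_moment 3
  obtain ⟨Z₀, hZ₀, hzeta⟩ := exists_zeta_near_one
  obtain ⟨η, hη, hη1, hη'⟩ : ∃ η : ℝ, 0 < η ∧ η ≤ 1 ∧ (40 + 11 * Real.exp 6) * η ≤ ε / 2 := by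
    have : 0 < 40 + 11 * Real.exp 6 := by positivity
    refine ⟨min 1 (ε / 2 / (40 + 11 * Real.exp 6)), lt_min one_pos (by positivity),
      min_le_left _ _, ?_⟩
    rw [← le_div_iff₀' this]
    exact min_le_right _ _
  have hev : ∀ᶠ T : ℝ in atTop, 1000 + (Z₀ + 36 * Real.exp 6) / η ≤ Real.log T :=
    Real.tendsto_log_atTop.eventually_ge_atTop _
  filter_upwards [hev, exists_twistSum_rescale hη, eventually_error_le C (half_pos hε),
    eventually_ge_atTop 64] with T hT hS herr hT64 A B hA hB hAB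
  obtain ⟨L, hL⟩ : ∃ L, L = Real.log T := ⟨_, rfl⟩
  rw [← hL] at hT hS herr ⊢
  have hq : 0 ≤ (Z₀ + 36 * Real.exp 6) / η := by positivity
  have hL0 : 0 < L := by linarith
  have hLc : (L : ℂ) ≠ 0 := ofReal_ne_zero.2 hL0.ne'
  have hs : Shifts 3 T (A / (L : ℂ)) (B / (L : ℂ)) := by
    refine ⟨?_, ?_, ?_, ?_⟩ <;>
      rw [norm_div, Complex.norm_real, Real.norm_of_nonneg hL0.le] <;>
      first
        | (rw [div_le_iff₀ hL0]; linarith)
        | (rw [← hL, div_mul_cancel₀ _ hL0.ne']; assumption)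
  have hAB0 : A + B ≠ 0 := fun h => by rw [h, norm_zero] at hAB; norm_num at hAB
  have hγ : A / (L : ℂ) + B / (L : ℂ) ≠ 0 := by
    rw [← add_div]; exact div_ne_zero hAB0 hLc
  obtain ⟨hN1, -, hNT⟩ := levLen_bounds (show 1 ≤ T by linarith)
  have hb : ∀ h ∈ Icc 1 (levLen T), ‖levCoef (levEll T) h‖ ≤ 1 := fun h hh =>
    norm_levCoef_le (by rw [levEll, ← hL, levTheta]; linarith) hh
  have h := hmom T 1 _ _ (levLen T) _ hT64 hs hγ hN1 hNT hb
  rw [← hL, one_pow, mul_one] at h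
  have h' : ‖twistIntegral T (A / (L : ℂ)) (B / (L : ℂ)) -
      momentMain (levLen T) (levCoef (levEll T)) T (A / (L : ℂ)) (B / (L : ℂ))‖ ≤ ε / 2 * T :=
    h.trans herr
  obtain ⟨γ, hγd⟩ : ∃ γ, γ = A / (L : ℂ) + B / (L : ℂ) := ⟨_, rfl⟩
  have hγe : γ = (A + B) / (L : ℂ) := by rw [hγd, add_div]
  have hABn : ‖A + B‖ ≤ 6 := (norm_add_le A B).trans (by linarith)
  have hγ1 : ‖γ‖ ≤ 1 := by
    rw [hγe, norm_div, Complex.norm_real, Real.norm_of_nonneg hL0.le, div_le_one hL0]; linarith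
  have hk : (Z₀ + 36 * Real.exp 6) / L ≤ η := by
    rw [div_le_iff₀ hL0]
    have := (div_le_iff₀ hη).1 (show (Z₀ + 36 * Real.exp 6) / η ≤ L by linarith)
    linarith
  have hk1 : Z₀ / L ≤ η :=
    le_trans (div_le_div_of_nonneg_right (le_add_of_nonneg_right (by positivity)) hL0.le) hk
  have hz : ∀ z : ℂ, z ≠ 0 → ‖z‖ = ‖γ‖ → ‖riemannZeta (1 + z) / (L : ℂ) - 1 / (z * (L : ℂ))‖ ≤ η :=
    fun z hz0 hzn => by
    rw [show riemannZeta (1 + z) / (L : ℂ) - 1 / (z * (L : ℂ)) =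
      (riemannZeta (1 + z) - 1 / z) / (L : ℂ) by rw [sub_div, div_div],
      norm_div, Complex.norm_real, Real.norm_of_nonneg hL0.le]
    exact (div_le_div_of_nonneg_right (hzeta z (hzn ▸ hγ1) hz0) hL0.le).trans hk1
  have hγL : γ * (L : ℂ) = A + B := by rw [hγe]; field_simp
  have h1 := hz γ (hγd ▸ hγ) rfl
  have h2 := hz (-γ) (neg_ne_zero.2 (hγd ▸ hγ)) (norm_neg γ)
  rw [hγL] at h1
  rw [neg_mul, hγL, ← sub_eq_add_neg] at h2
  have hinv : ‖1 / (A + B)‖ ≤ 2 := by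
    rw [norm_div, norm_one, div_le_iff₀ (by linarith)]; linarith
  have hinv' : ‖1 / -(A + B)‖ ≤ 2 := by
    rw [div_neg, norm_neg]; exact hinv
  have s1 := hS A B hA hB
  have s2 := hS (-B) (-A) (by rwa [norm_neg]) (by rwa [norm_neg])
  have p1 := norm_mul_sub_le h1 s1 hinv (norm_levQuad_le hA hB)
  have p2 := norm_mul_sub_le h2 s2 hinv'
    (norm_levQuad_le (A := -B) (B := -A) (by rwa [norm_neg]) (by rwa [norm_neg]))
  have hE : ‖cexp (-(A + B))‖ ≤ Real.exp 6 := by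
    rw [Complex.norm_exp, Real.exp_le_exp]
    exact (le_abs_self _).trans ((abs_re_le_norm _).trans (by rwa [norm_neg]))
  have h3 : ‖(T : ℂ)⁻¹ * (∫ t in T..2 * T, cexp (-γ * tau t)) - cexp (-(A + B))‖ ≤ η := by
    rw [hγe, hL]
    refine (norm_avg_sub_le (by linarith) (by linarith) hABn).trans (le_trans ?_ hk)
    rw [← hL, mul_div_assoc']
    exact div_le_div_of_nonneg_right (by linarith) hL0.le
  obtain ⟨P, hP⟩ : ∃ P, P = (1 / -(A + B)) * levQuad (-B) (-A) := ⟨_, rfl⟩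
  have hPn : ‖P‖ ≤ 16 := by
    rw [hP, norm_mul]
    exact (mul_le_mul hinv' (norm_levQuad_le (by rwa [norm_neg]) (by rwa [norm_neg]))
      (norm_nonneg _) zero_le_two).trans (by norm_num)
  rw [← hP] at p2
  have b2 : η * 8 + (2 + η) * η ≤ 11 * η := by nlinarith
  have p3 := norm_mul_sub_le h3 (p2.trans b2) hE hPn
  have key : (T : ℂ) * levLimit A B = (T : ℂ) * (1 / (A + B) * levQuad A B +
      cexp (-(A + B)) * P) := by
    rw [hP, levLimit, div_neg]; ring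
  refine (norm_sub_le_norm_sub_add_norm_sub _
    (momentMain (levLen T) (levCoef (levEll T)) T (A / (L : ℂ)) (B / (L : ℂ))) _).trans
      ((add_le_add h' ?_).trans (le_of_eq (show ε / 2 * T + ε / 2 * T = ε * T by ring)))
  rw [key, momentMain, ← hγd,
    show -(A / (L : ℂ)) = -A / (L : ℂ) by rw [neg_div],
    show -(B / (L : ℂ)) = -B / (L : ℂ) by rw [neg_div] ]
  have hTc : (T : ℂ) ≠ 0 := ofReal_ne_zero.2 (by linarith)
  generalize twistSum (levLen T) (levCoef (levEll T)) (A / (L : ℂ)) (B / (L : ℂ)) = S₁ at p1 ⊢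
  generalize twistSum (levLen T) (levCoef (levEll T)) (-B / (L : ℂ)) (-A / (L : ℂ)) = S₂ at p3 ⊢
  generalize (∫ t in T..2 * T, cexp (-γ * tau t)) = J at p3 ⊢
  rw [show (T : ℂ) * riemannZeta (1 + γ) * S₁ + J * riemannZeta (1 - γ) * S₂ -
      (T : ℂ) * (1 / (A + B) * levQuad A B + cexp (-(A + B)) * P) =
    (T : ℂ) * ((riemannZeta (1 + γ) / (L : ℂ) * ((L : ℂ) * S₁) - 1 / (A + B) * levQuad A B) +
      ((T : ℂ)⁻¹ * J * (riemannZeta (1 - γ) / (L : ℂ) * ((L : ℂ) * S₂)) -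
        cexp (-(A + B)) * P)) by field_simp; ring,
    norm_mul, Complex.norm_real, Real.norm_of_nonneg (by linarith), mul_comm (ε / 2)]
  refine mul_le_mul_of_nonneg_left (((norm_add_le _ _).trans (add_le_add p1 p3)).trans
    (le_trans ?_ hη')) (by linarith)
  have := Real.exp_pos 6
  nlinarith

end FA.LevinsonThird

end
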