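import Fermat.Agent.LevinsonThird.MoebiusTwist
import Fermat.Agent.Forms3.RepresentationBound
import Mathlib.NumberTheory.Harmonic.Bounds
import Mathlib.Analysis.Convex.SpecificFunctions.Basic

/-!
# `∑ μ² e / φ e · f (log e)` and the sums of the weights

`∑_{e ≤ N} μ² e / φ e = H N + O (1)`, by the recursion of `MoebiusTwist` for
`∑ 1/q` over the `q` composed of given primes, and `∑_{e ≤ N} (ℓ - log e)^k / φ e` for squarefree
`e` is `ℓ^(k+1)/(k+1) + O ((1+ℓ)^k)`.
-/

set_option autoImplicit false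

noncomputable section

namespace FA.LevinsonThird

open Finset
open scoped ArithmeticFunction.Moebius

theorem sum_rpow_neg_three_quarter_le (M : ℕ) :
    ∑ m ∈ Icc 1 M, (m : ℝ) ^ (-(3 / 4) : ℝ) ≤ 4 * (M : ℝ) ^ (1 / 4 : ℝ) := by
  induction M with
  | zero => simp
  | succ M ih =>
    rw [sum_Icc_succ_top (by omega)]
    obtain ⟨x, hx⟩ : ∃ x : ℝ, x = (M : ℝ) + 1 := ⟨_, rfl⟩
    have hx0 : 0 < x := hx ▸ by positivity
    have hM : (M : ℝ) = x * (1 + -(1 / x)) := by field_simp; linarith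
    have hb : -1 ≤ -(1 / x) := by
      rw [neg_le_neg_iff, div_le_one hx0, hx]; linarith [(M.cast_nonneg : (0 : ℝ) ≤ M)]
    have h := rpow_one_add_le_one_add_mul_self hb (show (0 : ℝ) ≤ 1 / 4 by norm_num) (by norm_num)
    have hpow : (M : ℝ) ^ (1 / 4 : ℝ) ≤ x ^ (1 / 4 : ℝ) * (1 + 1 / 4 * -(1 / x)) := by
      rw [hM, Real.mul_rpow hx0.le (by linarith)]
      exact mul_le_mul_of_nonneg_left h (by positivity)
    have e : x ^ (-(3 / 4) : ℝ) = x ^ (1 / 4 : ℝ) * (1 / x) := by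
      rw [show (-(3 / 4) : ℝ) = 1 / 4 + -1 by norm_num, Real.rpow_add hx0, Real.rpow_neg_one,
        one_div x]
    push_cast
    rw [← hx]
    linarith

/-- A summable majorant of the coefficients of the weights. -/
theorem exists_divisor_coeff : ∃ w : ℕ → ℝ, (∀ d, 0 ≤ w d) ∧
    (Summable fun d : ℕ => w d / d) ∧
      ∀ d : ℕ, d ≠ 0 → (d.divisors.card : ℝ) ^ 10 / √(d : ℝ) ≤ w d := by
  obtain ⟨C, hC, h⟩ := FA.RepresentationBound.card_divisors_isBigO (1 / 100) (by norm_num)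
  refine ⟨fun d => C ^ 10 * (d : ℝ) ^ (-(2 / 5) : ℝ),
    fun d => mul_nonneg (pow_nonneg (by linarith) _) (by positivity), ?_, fun d hd => ?_⟩
  · refine ((Real.summable_nat_rpow.2 (show (-(7 / 5) : ℝ) < -1 by norm_num)).mul_left
      (C ^ 10)).congr fun d => ?_
    rcases Nat.eq_zero_or_pos d with rfl | hd
    · norm_num [Real.zero_rpow]
    · rw [mul_div_assoc, show (-(7 / 5) : ℝ) = -(2 / 5) + -1 by norm_num,
        Real.rpow_add (Nat.cast_pos.2 hd), Real.rpow_neg_one, div_eq_mul_inv _ (d : ℝ)]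
  · have hd0 : (0 : ℝ) < d := Nat.cast_pos.2 (Nat.pos_of_ne_zero hd)
    refine (div_le_div_of_nonneg_right (pow_le_pow_left₀ (Nat.cast_nonneg _) (h d hd) 10)
      (Real.sqrt_nonneg _)).trans (le_of_eq ?_)
    rw [mul_pow, mul_div_assoc, Real.sqrt_eq_rpow,
      ← Real.rpow_natCast ((d : ℝ) ^ (1 / 100 : ℝ)) 10, ← Real.rpow_mul hd0.le,
      ← Real.rpow_sub hd0]
    norm_num

theorem primeWeight_cube_le {e : ℕ} (he : e ≠ 0) :
    primeWeight e.primeFactors ^ 3 ≤ ∑ d ∈ e.divisors, (d.divisors.card : ℝ) ^ 10 / √(d : ℝ) := by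
  have hp : ∀ p ∈ e.primeFactors, p.Prime := fun p hp => Nat.prime_of_mem_primeFactors hp
  have h1 : primeWeight e.primeFactors ^ 3 ≤
      ∏ p ∈ e.primeFactors, (1 + 728 / √(p : ℝ)) := by
    rw [primeWeight, ← prod_pow]
    refine Finset.prod_le_prod (fun p _ => by positivity) fun p hpm => ?_
    have hu : 1 ≤ √(p : ℝ) := Real.one_le_sqrt.2 (Nat.one_le_cast.2 (hp p hpm).one_lt.le)
    obtain ⟨u, hu'⟩ : ∃ u, u = 1 / √(p : ℝ) := ⟨_, rfl⟩
    have h0 : 0 ≤ u := hu' ▸ by positivity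
    have h1 : u ≤ 1 := by rw [hu', div_le_one (by linarith)]; exact hu
    rw [show (8 : ℝ) / √(p : ℝ) = 8 * u by rw [hu']; ring,
      show (728 : ℝ) / √(p : ℝ) = 728 * u by rw [hu']; ring]
    nlinarith [mul_le_mul_of_nonneg_left h1 h0,
      mul_le_mul_of_nonneg_left h1 (mul_nonneg h0 h0)]
  refine h1.trans ?_
  rw [Finset.prod_one_add]
  have hdvd : ∀ t ∈ e.primeFactors.powerset, ∏ p ∈ t, p ∈ e.divisors := fun t ht => by
    rw [mem_powerset] at ht
    exact Nat.mem_divisors.2 ⟨(prod_dvd_prod_of_subset _ _ _ ht).trans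
      (Nat.prod_primeFactors_dvd e), he⟩
  have hinj : Set.InjOn (fun t : Finset ℕ => ∏ p ∈ t, p) e.primeFactors.powerset :=
    fun a ha b hb hab => by
      rw [mem_coe, mem_powerset] at ha hb
      rw [← Nat.primeFactors_prod fun p hpa => hp p (ha hpa),
        ← Nat.primeFactors_prod fun p hpb => hp p (hb hpb)]
      exact congrArg Nat.primeFactors hab
  refine le_trans (sum_le_sum fun t ht => ?_) ((le_of_eq (sum_image hinj).symm).trans
    (sum_le_sum_of_subset_of_nonneg (image_subset_iff.2 hdvd) fun d _ _ => by positivity))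
  rw [mem_powerset] at ht
  have hne : ∏ p ∈ t, p ≠ 0 := prod_ne_zero_iff.2 fun p hpt => (hp p (ht hpt)).ne_zero
  have hcard : 2 ^ t.card ≤ (∏ p ∈ t, p).divisors.card := by
    rw [← card_powerset]
    refine card_le_card_of_injOn (fun a => ∏ p ∈ a, p) (fun a ha => ?_) (hinj.mono fun a ha => ?_)
    · rw [mem_coe, mem_powerset] at ha
      exact Nat.mem_divisors.2 ⟨prod_dvd_prod_of_subset _ _ _ ha, hne⟩
    · rw [mem_coe, mem_powerset] at ha ⊢
      exact ha.trans ht
  rw [prod_div_distrib, prod_const, Nat.cast_prod, Real.sqrt_prod _ fun p _ => Nat.cast_nonneg p]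
  refine div_le_div_of_nonneg_right ?_ (prod_nonneg fun p _ => Real.sqrt_nonneg _)
  calc (728 : ℝ) ^ t.card ≤ ((2 : ℝ) ^ t.card) ^ 10 := by
        rw [← pow_mul, mul_comm, pow_mul]
        exact pow_le_pow_left₀ (by norm_num) (by norm_num) _
    _ ≤ _ := pow_le_pow_left₀ (by positivity) (by exact_mod_cast hcard) _

/-- The two sums of the cubed weights. -/
theorem exists_weight_sums : ∃ C, 0 ≤ C ∧ ∀ N : ℕ,
    ∑ e ∈ Icc 1 N, primeWeight e.primeFactors ^ 3 / e ≤ C * (1 + Real.log N) ∧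
    ∑ e ∈ Icc 1 N, primeWeight e.primeFactors ^ 3 * (e : ℝ) ^ (-(3 / 4) : ℝ) ≤
      C * (N : ℝ) ^ (1 / 4 : ℝ) := by
  obtain ⟨w, hw0, hws, hw⟩ := exists_divisor_coeff
  obtain ⟨S, hS⟩ : ∃ S, S = ∑' d : ℕ, w d / d := ⟨_, rfl⟩
  have hS0 : 0 ≤ S := hS ▸ tsum_nonneg fun d => div_nonneg (hw0 d) (Nat.cast_nonneg d)
  refine ⟨4 * S, by positivity, fun N => ?_⟩
  have key : ∀ (σ : ℝ) (F : ℝ), 0 ≤ F → (∀ d ∈ Icc 1 N,
      (d : ℝ) ^ σ * ∑ m ∈ Icc 1 (N / d), (m : ℝ) ^ σ ≤ F / d) →
      ∑ e ∈ Icc 1 N, primeWeight e.primeFactors ^ 3 * (e : ℝ) ^ σ ≤ S * F := by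
    intro σ F hF hd
    refine (sum_le_sum (g := fun e : ℕ =>
      ∑ d ∈ Icc 1 N, if d ∣ e then w d * (e : ℝ) ^ σ else 0) fun e he => ?_).trans ?_
    · rw [mem_Icc] at he
      have hne : e ≠ 0 := by omega
      refine (mul_le_mul_of_nonneg_right ((primeWeight_cube_le hne).trans (sum_le_sum fun d hd =>
        hw d (Nat.pos_of_mem_divisors hd).ne')) (by positivity)).trans (le_of_eq ?_)
      rw [sum_mul, ← sum_filter]
      refine sum_congr ?_ fun d _ => rfl
      ext d
      simp only [Nat.mem_divisors, mem_filter, mem_Icc]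
      exact ⟨fun h => ⟨⟨Nat.pos_of_dvd_of_pos h.1 (by omega),
        (Nat.le_of_dvd (by omega) h.1).trans he.2⟩, h.1⟩, fun h => ⟨h.2, hne⟩⟩
    · rw [sum_comm]
      refine (sum_le_sum (g := fun d : ℕ => w d / d * F) fun d hdI => ?_).trans ?_
      · rw [← sum_filter, ← mul_sum, div_mul_eq_mul_div, mul_div_assoc]
        refine mul_le_mul_of_nonneg_left (le_trans (le_of_eq ?_) (hd d hdI)) (hw0 d)
        have hd0 := (mem_Icc.1 hdI).1
        rw [mul_sum]
        refine sum_nbij' (fun e => e / d) (fun m => d * m) (fun e he => ?_) (fun m hm => ?_)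
          (fun e he => ?_) (fun m _ => Nat.mul_div_cancel_left m hd0) fun e he => ?_
        · rw [mem_filter, mem_Icc] at he
          rw [mem_Icc]
          exact ⟨Nat.div_pos (Nat.le_of_dvd he.1.1 he.2) hd0, Nat.div_le_div_right he.1.2⟩
        · rw [mem_Icc, Nat.le_div_iff_mul_le hd0] at hm
          rw [mem_filter, mem_Icc]
          exact ⟨⟨Nat.mul_pos hd0 hm.1, by rw [mul_comm]; exact hm.2⟩, dvd_mul_right d m⟩
        · rw [mem_filter] at he
          exact Nat.mul_div_cancel' he.2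
        · rw [mem_filter] at he
          rw [← Real.mul_rpow (Nat.cast_nonneg _) (Nat.cast_nonneg _), ← Nat.cast_mul,
            Nat.mul_div_cancel' he.2]
      · rw [← sum_mul]
        exact mul_le_mul_of_nonneg_right (hS ▸ hws.sum_le_tsum _
          fun d _ => div_nonneg (hw0 d) (Nat.cast_nonneg d)) hF
  have hl : 0 ≤ 1 + Real.log N := by linarith [Real.log_natCast_nonneg N]
  constructor
  · have h := key (-1) (1 + Real.log N) hl fun d hd => by
      rw [mem_Icc] at hd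
      rw [Real.rpow_neg_one, inv_mul_eq_div]
      refine div_le_div_of_nonneg_right ?_ (Nat.cast_nonneg d)
      refine (sum_le_sum_of_subset_of_nonneg (Icc_subset_Icc le_rfl (Nat.div_le_self N d))
        fun m _ _ => by positivity).trans ?_
      have h := harmonic_le_one_add_log N
      rw [harmonic_eq_sum_Icc] at h
      push_cast at h
      simpa [Real.rpow_neg_one] using h
    simp only [Real.rpow_neg_one, ← div_eq_mul_inv] at h
    refine h.trans ?_
    nlinarith
  · have h := key (-(3 / 4)) (4 * (N : ℝ) ^ (1 / 4 : ℝ)) (by positivity) fun d hd => by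
      rw [mem_Icc] at hd
      have hd0 : (0 : ℝ) < d := Nat.cast_pos.2 hd.1
      refine (mul_le_mul_of_nonneg_left (sum_rpow_neg_three_quarter_le _) (by positivity)).trans ?_
      refine (mul_le_mul_of_nonneg_left (mul_le_mul_of_nonneg_left
        (Real.rpow_le_rpow (Nat.cast_nonneg _) (Nat.cast_div_le (α := ℝ)) (by norm_num))
          zero_le_four) (by positivity)).trans (le_of_eq ?_)
      rw [Real.div_rpow (Nat.cast_nonneg N) hd0.le,
        show (-(3 / 4) : ℝ) = 1 / 4 + -1 by norm_num, Real.rpow_add hd0, Real.rpow_neg_one]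
      have : (d : ℝ) ^ (1 / 4 : ℝ) ≠ 0 := by positivity
      field_simp
    linarith

/-- `∑ 1/q` over `q ≤ x` composed of primes in `s`. -/
def friable (s : Finset ℕ) (x : ℝ) : ℝ :=
  ∑ q ∈ (Icc 1 ⌊x⌋₊).filter (fun q => q.primeFactors ⊆ s), (1 : ℝ) / q

theorem friable_insert {p : ℕ} (hp : p.Prime) {s : Finset ℕ} (hps : p ∉ s) (x : ℝ) :
    friable (insert p s) x = friable s x + 1 / (p : ℝ) * friable (insert p s) (x / p) := by
  rw [friable, friable, ← sum_filter_add_sum_filter_not _ (fun q => p ∣ q), add_comm]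
  congr 1
  · refine sum_congr ?_ fun _ _ => rfl
    ext q
    simp only [mem_filter, mem_Icc, and_assoc, and_congr_right_iff]
    intro h1 _
    constructor
    · rintro ⟨hs, hd⟩ r hr
      rcases mem_insert.1 (hs hr) with rfl | h
      · exact absurd (Nat.dvd_of_mem_primeFactors hr) hd
      · exact h
    · exact fun hs => ⟨hs.trans (subset_insert _ _), fun hd =>
        hps (hs (hp.mem_primeFactors hd (by omega)))⟩
  · rw [friable, mul_sum]
    symm
    refine sum_nbij' (fun q => p * q) (fun q => q / p) (fun q hq => ?_) (fun q hq => ?_)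
      (fun q _ => Nat.mul_div_cancel_left q hp.pos) (fun q hq => ?_) fun q _ => ?_
    · simp only [mem_filter, mem_Icc, Nat.floor_div_natCast, Nat.le_div_iff_mul_le hp.pos] at hq ⊢
      refine ⟨⟨⟨Nat.mul_pos hp.pos hq.1.1, by rw [mul_comm]; exact hq.1.2⟩, ?_⟩, dvd_mul_right p q⟩
      rw [Nat.primeFactors_mul hp.ne_zero (by omega), hp.primeFactors]
      exact union_subset (by simp) hq.2
    · simp only [mem_filter, mem_Icc, Nat.floor_div_natCast] at hq ⊢
      obtain ⟨⟨⟨h1, h2⟩, h3⟩, m, rfl⟩ := hq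
      have hm : m ≠ 0 := by rintro rfl; simp at h1
      rw [Nat.mul_div_cancel_left m hp.pos]
      rw [Nat.primeFactors_mul hp.ne_zero hm] at h3
      exact ⟨⟨by omega, (Nat.le_div_iff_mul_le hp.pos).2 (by rwa [mul_comm])⟩,
        (subset_union_right).trans h3⟩
    · simp only [mem_filter] at hq
      exact Nat.mul_div_cancel' hq.2
    · rw [Nat.cast_mul, one_div_mul_one_div]

theorem friable_bounds {s : Finset ℕ} (hs : ∀ p ∈ s, p.Prime) : ∀ x : ℝ, 0 < x →
    0 ≤ primeModel s - friable s x ∧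
      primeModel s - friable s x ≤ primeWeight s * x ^ (-(1 / 4) : ℝ) := by
  induction s using Finset.induction_on with
  | empty =>
    intro x hx
    simp only [primeModel, primeWeight, prod_empty, one_mul]
    rcases lt_or_ge x 1 with hx1 | hx1
    · have h0 : friable ∅ x = 0 := by rw [friable, Nat.floor_eq_zero.2 hx1]; simp
      rw [h0, sub_zero]
      exact ⟨zero_le_one, Real.one_le_rpow_of_pos_of_le_one_of_nonpos hx hx1.le (by norm_num)⟩
    · have h0 : friable ∅ x = 1 := by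
        rw [friable, show (Icc 1 ⌊x⌋₊).filter (fun q => q.primeFactors ⊆ ∅) = {1} by
          ext q
          simp only [mem_filter, mem_Icc, subset_empty, Nat.primeFactors_eq_empty, mem_singleton]
          constructor
          · rintro ⟨⟨h1, -⟩, h | h⟩ <;> omega
          · rintro rfl
            exact ⟨⟨le_rfl, Nat.le_floor (by simpa using hx1)⟩, Or.inr rfl⟩]
        simp
      rw [h0, sub_self]
      exact ⟨le_rfl, by positivity⟩
  | insert p s hps ih =>
    have hp := hs p (mem_insert_self p s)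
    have hs' : ∀ q ∈ s, q.Prime := fun q hq => hs q (mem_insert_of_mem hq)
    obtain ⟨hK0, hKW⟩ := primeModel_bounds hs
    suffices main : ∀ n : ℕ, ∀ x : ℝ, 0 < x → ⌊x⌋₊ = n →
        0 ≤ primeModel (insert p s) - friable (insert p s) x ∧
        primeModel (insert p s) - friable (insert p s) x ≤
          primeWeight (insert p s) * x ^ (-(1 / 4) : ℝ) from fun x hx => main _ x hx rfl
    intro n
    induction n using Nat.strong_induction_on with
    | _ n ihn =>
      intro x hx hn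
      rcases lt_or_ge x 1 with hx1 | hx1
      · have h0 : friable (insert p s) x = 0 := by rw [friable, Nat.floor_eq_zero.2 hx1]; simp
        rw [h0, sub_zero]
        exact ⟨hK0, hKW.trans (le_mul_of_one_le_right (zero_le_one.trans (one_le_primeWeight _))
          (Real.one_le_rpow_of_pos_of_le_one_of_nonpos hx hx1.le (by norm_num)))⟩
      have hp2 : (2 : ℝ) ≤ p := Nat.ofNat_le_cast.2 hp.two_le
      have hp0 : (0 : ℝ) < p := by linarith
      have hlt : ⌊x / p⌋₊ < n := by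
        rw [Nat.floor_div_natCast, hn]
        exact Nat.div_lt_self (hn ▸ Nat.floor_pos.2 hx1) hp.one_lt
      obtain ⟨a1, a2⟩ := ihn _ hlt (x / p) (div_pos hx hp0) rfl
      obtain ⟨c1, c2⟩ := ih hs' x hx
      have e : primeModel (insert p s) - friable (insert p s) x =
          (primeModel s - friable s x) +
            1 / (p : ℝ) * (primeModel (insert p s) - friable (insert p s) (x / p)) := by
        rw [friable_insert hp hps, primeModel, primeModel, prod_insert hps]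
        have : (p : ℝ) - 1 ≠ 0 := by linarith
        field_simp
        ring
      rw [e]
      refine ⟨add_nonneg c1 (mul_nonneg (by positivity) a1), ?_⟩
      refine (add_le_add c2 (mul_le_mul_of_nonneg_left a2 (by positivity))).trans ?_
      obtain ⟨u, hu⟩ : ∃ u, u = 1 / √(p : ℝ) := ⟨_, rfl⟩
      have hW : primeWeight (insert p s) = primeWeight s * (1 + 8 * u) := by
        rw [primeWeight, prod_insert hps, primeWeight, hu]; ring
      have hq : 1 / (p : ℝ) * (p : ℝ) ^ (1 / 4 : ℝ) ≤ u := by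
        rw [hu, Real.sqrt_eq_rpow, one_div, one_div ((p : ℝ) ^ (1 / 2 : ℝ)), ← Real.rpow_neg_one,
          ← Real.rpow_add hp0, ← Real.rpow_neg hp0.le]
        exact Real.rpow_le_rpow_of_exponent_le (by linarith) (by norm_num)
      have hu1 : u ≤ 71 / 100 := by
        have h : 100 / 71 ≤ √(p : ℝ) := Real.le_sqrt_of_sq_le (by norm_num; linarith)
        rw [hu, div_le_iff₀ (by linarith)]
        linarith
      have hu0 : 0 ≤ u := hu ▸ by positivity
      have hs0 := one_le_primeWeight s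
      rw [hW, Real.div_rpow hx.le hp0.le, Real.rpow_neg hp0.le, div_inv_eq_mul]
      have hxq : 0 ≤ x ^ (-(1 / 4) : ℝ) := by positivity
      have h1 := mul_le_mul_of_nonneg_left hq
        (show 0 ≤ primeWeight s * (1 + 8 * u) * x ^ (-(1 / 4) : ℝ) by positivity)
      have h2 := mul_le_mul_of_nonneg_left (show 1 + (1 + 8 * u) * u ≤ 1 + 8 * u by nlinarith)
        (show 0 ≤ primeWeight s * x ^ (-(1 / 4) : ℝ) by positivity)
      linarith

/-- `1 / φ e` for squarefree `e`, else `0`. -/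
def sqfreeWeight (e : ℕ) : ℝ := if Squarefree e then primeModel e.primeFactors / e else 0

theorem sqfreeWeight_nonneg (e : ℕ) : 0 ≤ sqfreeWeight e := by
  unfold sqfreeWeight
  split_ifs
  · exact div_nonneg (primeModel_bounds fun p hp => Nat.prime_of_mem_primeFactors hp).1
      (Nat.cast_nonneg e)
  · rfl

theorem harmonic_regroup (N : ℕ) : ∑ m ∈ Icc 1 N, (1 : ℝ) / m =
    ∑ e ∈ (Icc 1 N).filter Squarefree, 1 / (e : ℝ) * friable e.primeFactors ((N : ℝ) / e) := by
  have hmaps : ∀ m ∈ Icc 1 N, ∏ p ∈ m.primeFactors, p ∈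
      (Icc 1 N).filter Squarefree := fun m hm => by
    rw [mem_Icc] at hm
    have hd := Nat.prod_primeFactors_dvd m
    rw [mem_filter, mem_Icc]
    exact ⟨⟨Nat.pos_of_dvd_of_pos hd hm.1, (Nat.le_of_dvd hm.1 hd).trans hm.2⟩,
      Finset.squarefree_prod_of_pairwise_isCoprime
        (fun a ha b hb hab => Nat.coprime_iff_isRelPrime.1 ((Nat.coprime_primes
          (Nat.prime_of_mem_primeFactors ha) (Nat.prime_of_mem_primeFactors hb)).2 hab))
        fun a ha => (Nat.prime_of_mem_primeFactors ha).squarefree⟩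
  rw [← sum_fiberwise_of_maps_to hmaps]
  refine sum_congr rfl fun e he => ?_
  rw [mem_filter, mem_Icc] at he
  have he0 : e ≠ 0 := by omega
  rw [friable, mul_sum]
  refine sum_nbij' (fun m => m / e) (fun q => e * q) (fun m hm => ?_) (fun q hq => ?_)
    (fun m hm => ?_) (fun q _ => Nat.mul_div_cancel_left q (by omega)) fun m hm => ?_
  · rw [mem_filter, mem_Icc] at hm
    have hd : e ∣ m := hm.2 ▸ Nat.prod_primeFactors_dvd _
    simp only [mem_filter, mem_Icc, Nat.floor_div_natCast, Nat.floor_natCast]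
    refine ⟨⟨Nat.div_pos (Nat.le_of_dvd hm.1.1 hd) (by omega), Nat.div_le_div_right hm.1.2⟩, ?_⟩
    rw [← hm.2, Nat.primeFactors_prod fun p hp => Nat.prime_of_mem_primeFactors hp]
    refine Nat.primeFactors_mono (Nat.div_dvd_of_dvd ?_) (by omega)
    rw [hm.2]; exact hd
  · simp only [mem_filter, mem_Icc, Nat.floor_div_natCast, Nat.floor_natCast,
      Nat.le_div_iff_mul_le (show 0 < e by omega)] at hq
    rw [mem_filter, mem_Icc]
    refine ⟨⟨Nat.mul_pos (by omega) hq.1.1, by rw [mul_comm]; exact hq.1.2⟩, ?_⟩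
    rw [Nat.primeFactors_mul he0 (by omega), union_eq_left.2 hq.2,
      Nat.prod_primeFactors_of_squarefree he.2]
  · rw [mem_filter] at hm
    exact Nat.mul_div_cancel' (hm.2 ▸ Nat.prod_primeFactors_dvd _)
  · rw [mem_filter] at hm
    rw [one_div_mul_one_div, ← Nat.cast_mul,
        Nat.mul_div_cancel' (hm.2 ▸ Nat.prod_primeFactors_dvd _)]

theorem exists_sqfreeWeight_partial : ∃ C, 0 ≤ C ∧ ∀ N : ℕ,
    |∑ e ∈ Icc 1 N, (sqfreeWeight e - 1 / (e : ℝ))| ≤ C := by
  obtain ⟨C, hC, hw⟩ := exists_weight_sums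
  refine ⟨C, hC, fun N => ?_⟩
  rcases Nat.eq_zero_or_pos N with rfl | hN
  · simpa using hC
  have e : ∑ x ∈ Icc 1 N, (sqfreeWeight x - 1 / (x : ℝ)) =
      ∑ x ∈ (Icc 1 N).filter Squarefree,
        1 / (x : ℝ) * (primeModel x.primeFactors - friable x.primeFactors ((N : ℝ) / x)) := by
    simp only [mul_sub]
    rw [sum_sub_distrib, sum_sub_distrib, harmonic_regroup]
    congr 1
    rw [sum_filter]
    refine sum_congr rfl fun x _ => ?_
    rw [sqfreeWeight]
    split_ifs <;> ring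
  have hN0 : (0 : ℝ) < N := Nat.cast_pos.2 hN
  have hb : ∀ x ∈ (Icc 1 N).filter Squarefree,
      0 ≤ 1 / (x : ℝ) * (primeModel x.primeFactors - friable x.primeFactors ((N : ℝ) / x)) ∧
      1 / (x : ℝ) * (primeModel x.primeFactors - friable x.primeFactors ((N : ℝ) / x)) ≤
        primeWeight x.primeFactors ^ 3 * (x : ℝ) ^ (-(3 / 4) : ℝ) * (N : ℝ) ^ (-(1 / 4) : ℝ) :=
    fun x hx => by
    rw [mem_filter, mem_Icc] at hx
    have hx0 : (0 : ℝ) < x := Nat.cast_pos.2 hx.1.1
    obtain ⟨h1, h2⟩ := friable_bounds (s := x.primeFactors)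
      (fun p hp => Nat.prime_of_mem_primeFactors hp) _ (div_pos hN0 hx0)
    refine ⟨mul_nonneg (by positivity) h1, ?_⟩
    refine (mul_le_mul_of_nonneg_left h2 (by positivity)).trans ?_
    have hW := one_le_primeWeight x.primeFactors
    rw [Real.div_rpow hN0.le hx0.le, Real.rpow_neg hx0.le, div_inv_eq_mul,
      show (-(3 / 4) : ℝ) = 1 / 4 + -1 by norm_num, Real.rpow_add hx0, Real.rpow_neg_one]
    calc 1 / (x : ℝ) * (primeWeight x.primeFactors *
          ((N : ℝ) ^ (-(1 / 4) : ℝ) * (x : ℝ) ^ (1 / 4 : ℝ)))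
        = primeWeight x.primeFactors * ((x : ℝ) ^ (1 / 4 : ℝ) * (x : ℝ)⁻¹ *
            (N : ℝ) ^ (-(1 / 4) : ℝ)) := by ring
      _ ≤ primeWeight x.primeFactors ^ 3 * ((x : ℝ) ^ (1 / 4 : ℝ) * (x : ℝ)⁻¹ *
            (N : ℝ) ^ (-(1 / 4) : ℝ)) :=
        mul_le_mul_of_nonneg_right (le_self_pow₀ hW three_ne_zero) (by positivity)
      _ = _ := by ring
  rw [e, abs_of_nonneg (sum_nonneg fun x hx => (hb x hx).1)]
  refine (sum_le_sum fun x hx => (hb x hx).2).trans ((sum_le_sum_of_subset_of_nonneg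
    (filter_subset _ _) fun x _ _ => by
      have := one_le_primeWeight x.primeFactors
      positivity).trans ?_)
  rw [← sum_mul]
  refine (mul_le_mul_of_nonneg_right (hw N).2 (by positivity)).trans (le_of_eq ?_)
  rw [mul_assoc, ← Real.rpow_add hN0, add_neg_cancel, Real.rpow_zero, mul_one]

theorem pow_succ_sub_bounds (k : ℕ) : ∀ X d : ℝ, 0 ≤ d → d ≤ X →
    ((k : ℝ) + 1) * (X - d) ^ k * d ≤ X ^ (k + 1) - (X - d) ^ (k + 1) ∧
      X ^ (k + 1) - (X - d) ^ (k + 1) ≤ ((k : ℝ) + 1) * X ^ k * d := by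
  induction k with
  | zero => intro X d _ _; norm_num
  | succ k ih =>
    intro X d h0 h1
    obtain ⟨a, b⟩ := ih X d h0 h1
    have hY : 0 ≤ X - d := by linarith
    have hX : 0 ≤ X := by linarith
    have e : X ^ (k + 1 + 1) - (X - d) ^ (k + 1 + 1) =
        (X ^ (k + 1) - (X - d) ^ (k + 1)) * X + (X - d) ^ (k + 1) * d := by ring
    have hm : (X - d) ^ (k + 1) ≤ X ^ (k + 1) := pow_le_pow_left₀ hY (by linarith) _
    constructor
    · rw [e]
      have h2 := mul_le_mul_of_nonneg_right a hX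
      have h3 : ((k : ℝ) + 1) * (X - d) ^ k * d * (X - d) ≤ ((k : ℝ) + 1) * (X - d) ^ k * d * X :=
        mul_le_mul_of_nonneg_left (by linarith) (by positivity)
      push_cast
      rw [pow_succ (X - d) k] at h2 hm ⊢
      linarith
    · rw [e]
      have h2 := mul_le_mul_of_nonneg_right b hX
      have h3 := mul_le_mul_of_nonneg_right hm h0
      push_cast
      rw [pow_succ X k] at h2 h3 ⊢
      linarith

theorem harmonic_power_sum (k : ℕ) {ℓ : ℝ} (hℓ : 0 ≤ ℓ) :
    |∑ e ∈ Icc 1 ⌊Real.exp ℓ⌋₊, (ℓ - Real.log e) ^ k / e - ℓ ^ (k + 1) / (k + 1)| ≤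
      (1 + ℓ) ^ k := by
  obtain ⟨N, hN⟩ : ∃ N, N = ⌊Real.exp ℓ⌋₊ := ⟨_, rfl⟩
  rw [← hN]
  have hN1 : 1 ≤ N := hN ▸ Nat.le_floor (by simpa using Real.one_le_exp hℓ)
  have hle : (N : ℝ) ≤ Real.exp ℓ := hN ▸ Nat.floor_le (Real.exp_pos ℓ).le
  have hlt : Real.exp ℓ < (N : ℝ) + 1 := hN ▸ Nat.lt_floor_add_one _
  obtain ⟨X, hX⟩ : ∃ X : ℕ → ℝ, X = fun e : ℕ => ℓ - Real.log e := ⟨_, rfl⟩
  have hXn : ∀ e ∈ Icc 1 N, 0 ≤ X e ∧ X e ≤ ℓ := fun e he => by
    rw [mem_Icc] at he
    rw [hX]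
    have := (Real.log_le_iff_le_exp (Nat.cast_pos.2 he.1)).2 ((Nat.cast_le.2 he.2).trans hle)
    constructor <;> linarith [Real.log_natCast_nonneg e]
  have key : ∀ K : ℕ, 1 ≤ K → K ≤ N →
      (ℓ ^ (k + 1) - X K ^ (k + 1)) / (k + 1) + X K ^ k / K ≤ ∑ e ∈ Icc 1 K, X e ^ k / e ∧
      ∑ e ∈ Icc 1 K, X e ^ k / e ≤ ℓ ^ k + (ℓ ^ (k + 1) - X K ^ (k + 1)) / (k + 1) := by
    intro K hK
    induction K, hK using Nat.le_induction with
    | base =>
      intro _
      simp [hX]
    | succ e he ih =>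
      intro hen
      obtain ⟨i1, i2⟩ := ih (by omega)
      have he0 : (0 : ℝ) < e := Nat.cast_pos.2 he
      obtain ⟨d, hd⟩ : ∃ d, d = X e - X (e + 1) := ⟨_, rfl⟩
      have hd1 : d = Real.log ((e : ℝ) + 1) - Real.log e := by
        rw [hd, hX]; push_cast; ring
      have hdlo : 1 / ((e : ℝ) + 1) ≤ d := by
        rw [hd1, ← Real.log_div (by positivity) he0.ne']
        refine le_trans (le_of_eq ?_) (Real.one_sub_inv_le_log_of_pos (by positivity))
        field_simp
        ring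
      have hdhi : d ≤ 1 / (e : ℝ) := by
        rw [hd1, ← Real.log_div (by positivity) he0.ne']
        refine (Real.log_le_sub_one_of_pos (by positivity)).trans (le_of_eq ?_)
        field_simp
        ring
      have hd0 : 0 ≤ d := le_trans (by positivity) hdlo
      obtain ⟨n1, n2⟩ := hXn (e + 1) (mem_Icc.2 ⟨by omega, hen⟩)
      obtain ⟨m1, m2⟩ := hXn e (mem_Icc.2 ⟨he, by omega⟩)
      obtain ⟨b1, b2⟩ := pow_succ_sub_bounds k (X e) d hd0 (by linarith)
      rw [show X e - d = X (e + 1) by rw [hd]; ring] at b1 b2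
      have hk : (0 : ℝ) < (k : ℝ) + 1 := by positivity
      rw [sum_Icc_succ_top (by omega)]
      push_cast
      constructor
      · have h3 : (X e ^ (k + 1) - X (e + 1) ^ (k + 1)) / (k + 1) ≤
            X e ^ k / e := by
          rw [div_le_iff₀ hk]
          refine b2.trans ?_
          have := mul_le_mul_of_nonneg_left hdhi (show 0 ≤ ((k : ℝ) + 1) * X e ^ k by positivity)
          refine this.trans (le_of_eq ?_)
          ring
        rw [sub_div] at h3 i1 ⊢
        linarith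
      · have h3 : X (e + 1) ^ k / ((e : ℝ) + 1) ≤
            (X e ^ (k + 1) - X (e + 1) ^ (k + 1)) / (k + 1) := by
          rw [le_div_iff₀ hk]
          refine le_trans ?_ b1
          have := mul_le_mul_of_nonneg_left hdlo
            (show 0 ≤ ((k : ℝ) + 1) * X (e + 1) ^ k by positivity)
          refine le_trans (le_of_eq ?_) this
          ring
        rw [sub_div] at h3 i2 ⊢
        linarith
  obtain ⟨h1, h2⟩ := key N hN1 le_rfl
  obtain ⟨n1, -⟩ := hXn N (mem_Icc.2 ⟨hN1, le_rfl⟩)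
  have hN0 : (0 : ℝ) < N := Nat.cast_pos.2 hN1
  have n2 : X N ≤ 1 := by
    have h := Real.log_le_log (Real.exp_pos ℓ) hlt.le
    rw [Real.log_exp] at h
    have h' : Real.log ((N : ℝ) + 1) - Real.log N ≤ 1 := by
      rw [← Real.log_div (by positivity) hN0.ne']
      refine (Real.log_le_sub_one_of_pos (by positivity)).trans ?_
      rw [add_div, div_self hN0.ne', add_sub_cancel_left, div_le_one hN0]
      exact Nat.one_le_cast.2 hN1
    rw [hX]
    linarith
  have h3 : X N ^ (k + 1) / (k + 1) ≤ 1 :=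
    div_le_one_of_le₀ ((pow_le_one₀ n1 n2).trans (le_add_of_nonneg_left (Nat.cast_nonneg k)))
      (by positivity)
  have h4 : (1 : ℝ) ≤ (1 + ℓ) ^ k := one_le_pow₀ (by linarith)
  have h5 : ℓ ^ k ≤ (1 + ℓ) ^ k := pow_le_pow_left₀ hℓ (by linarith) k
  have h6 : 0 ≤ X N ^ k / N := by positivity
  have h7 : 0 ≤ X N ^ (k + 1) / (k + 1) := by positivity
  rw [show ∑ e ∈ Icc 1 N, (ℓ - Real.log e) ^ k / e = ∑ e ∈ Icc 1 N, X e ^ k / e by rw [hX],
    abs_le]
  rw [sub_div] at h1 h2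
  constructor <;> linarith

/-- **`∑ (ℓ - log e)^k / φ e` over squarefree `e ≤ e^ℓ`.** -/
theorem exists_sqfree_power_sum : ∃ C, 0 ≤ C ∧ ∀ (k : ℕ) (ℓ : ℝ), 0 ≤ ℓ →
    |∑ e ∈ Icc 1 ⌊Real.exp ℓ⌋₊, sqfreeWeight e * (ℓ - Real.log e) ^ k - ℓ ^ (k + 1) / (k + 1)| ≤
      C * (1 + ℓ) ^ k := by
  obtain ⟨C, hC, hp⟩ := exists_sqfreeWeight_partial
  refine ⟨C + 1, by positivity, fun k ℓ hℓ => ?_⟩
  obtain ⟨N, hN⟩ : ∃ N, N = ⌊Real.exp ℓ⌋₊ := ⟨_, rfl⟩
  have hN1 : 0 < N := hN ▸ Nat.floor_pos.2 (Real.one_le_exp hℓ)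
  have hX0 : ∀ e : ℕ, 1 ≤ e → e ≤ N → 0 ≤ ℓ - Real.log e := fun e he he' => by
    have := (Real.log_le_iff_le_exp (Nat.cast_pos.2 he)).2
      ((Nat.cast_le.2 he').trans (hN ▸ Nat.floor_le (Real.exp_pos ℓ).le))
    linarith
  have h1 : |∑ e ∈ Icc 1 N, (sqfreeWeight e - 1 / (e : ℝ)) * (ℓ - Real.log e) ^ k| ≤
      C * (1 + ℓ) ^ k := by
    rw [show Icc 1 N = Ioc 0 N from Icc_add_one_left_eq_Ioc 0 N]
    refine (abs_sum_antitone_le (v := fun e : ℕ => (ℓ - Real.log e) ^ k) hN1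
      (fun i _ _ => by rw [← Icc_add_one_left_eq_Ioc]; exact hp i) (fun i hi hiN => ?_)
      (pow_nonneg (hX0 N hN1 le_rfl) _)).trans ?_
    · have hl : Real.log i ≤ Real.log ((i + 1 : ℕ) : ℝ) :=
        Real.log_le_log (Nat.cast_pos.2 hi) (Nat.cast_le.2 (Nat.le_succ i))
      exact pow_le_pow_left₀ (hX0 (i + 1) (by omega) hiN) (by linarith) k
    · refine mul_le_mul_of_nonneg_left ?_ hC
      simpa using pow_le_pow_left₀ hℓ (by linarith : ℓ ≤ 1 + ℓ) k
  have h2 := harmonic_power_sum k hℓ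
  rw [← hN] at h2 ⊢
  rw [show ∑ e ∈ Icc 1 N, sqfreeWeight e * (ℓ - Real.log e) ^ k - ℓ ^ (k + 1) / (k + 1) =
    (∑ e ∈ Icc 1 N, (sqfreeWeight e - 1 / (e : ℝ)) * (ℓ - Real.log e) ^ k) +
      (∑ e ∈ Icc 1 N, (ℓ - Real.log e) ^ k / e - ℓ ^ (k + 1) / (k + 1)) by
    rw [← add_sub_assoc, ← sum_add_distrib]
    congr 1
    exact sum_congr rfl fun e _ => by ring]
  refine (abs_add_le _ _).trans ((add_le_add h1 h2).trans (le_of_eq ?_))
  ring

end FA.LevinsonThird

end
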